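import Mathlib
import Fermat.Agent.ESJ.Jac.Defs
import Fermat.Prelude.Def_AlgebraicCurve_DivisorClassGroup

/-!
# G1 / JAC: the vocabulary of the Kummer theory on the upper half plane for a general group

The `Γ₀(N)` trunk (`ESJ/Jac`) is written against `Dict.IsDict ι N` and the concrete objects
`FNK K N`, `merK ι N`, `Gamma0 N`.  Here the same theory is stated for

* an arbitrary function field `F / K` (`K` a field with `ι : K →+* ℂ`),
* an arbitrary subgroup `Γ ≤ SL(2, ℤ)` which is *regular* (`IsReg Γ`: every element with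
  `tr² ≤ 4` has trace `2`; e.g. `Γ₁(M)`, `M ≥ 5`, and its subgroups),
* an arbitrary "meromorphic avatar" `mer : F → ℂ → ℂ`.

`MerDict ι Γ mer` is the analytic dictionary consumed by the Kummer theory; `MerFull Γ mer` says
that every invariant meromorphic function comes from `F` (needed over `ℂ` only); `MerBc` is the
compatibility of two avatars under the base change `ℚ̄ → ℂ`.
-/

set_option autoImplicit false

open UpperHalfPlane AlgebraicCurve Filter
open scoped MatrixGroups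

noncomputable section

namespace Fermat.Agent.G1.Jac

open Fermat.Agent.ESJ.Jac

/-- `Γ` is regular: every element with `tr² ≤ 4` has trace `2` (no elliptic elements, `-1 ∉ Γ`,
no irregular cusps).  Holds for `Γ₁(M)`, `M ≥ 5`, and all its subgroups. -/
def IsReg (Γ : Subgroup SL(2, ℤ)) : Prop :=
  ∀ γ : SL(2, ℤ), γ ∈ Γ → (γ : Matrix (Fin 2) (Fin 2) ℤ).trace ^ 2 ≤ 4 →
    (γ : Matrix (Fin 2) (Fin 2) ℤ).trace = 2

/-- Local shape of `φ` at `i∞` in the parameter `q_w = exp (2 π i z / w)`: `φ = q_w ^ m * ψ(q_w)`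
on the upper half plane, `ψ` analytic and nonzero at `0`. -/
def CuspShape (φ : ℂ → ℂ) (w : ℕ) (m : ℤ) : Prop :=
  ∃ ψ : ℂ → ℂ, AnalyticAt ℂ ψ 0 ∧ ψ 0 ≠ 0 ∧ ∀ z ∈ U,
    φ z = Function.Periodic.qParam (w : ℝ) z ^ m * ψ (Function.Periodic.qParam (w : ℝ) z)

/-- The analytic dictionary of a function field `F / K` for a regular group `Γ`, with respect to
the meromorphic avatar `mer`. -/
structure MerDict {K : Type} [Field K] [Algebra ℚ K] (ι : K →+* ℂ) {F : Type} [Field F]
    [Algebra K F] (Γ : Subgroup SL(2, ℤ)) (mer : F → ℂ → ℂ) : Prop where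
  meromorphicOn_mer : ∀ f : F, MeromorphicOn (mer f) U
  order_ne_top : ∀ f : F, f ≠ 0 → ∀ z ∈ U, meromorphicOrderAt (mer f) z ≠ ⊤
  mer_mob : ∀ (f : F) (γ : SL(2, ℤ)), γ ∈ Γ → ∀ z ∈ U, mer f (mob γ z) = mer f z
  mer_mul : ∀ f g : F, mer (f * g) =ᶠ[codiscreteWithin U] fun z => mer f z * mer g z
  mer_add : ∀ f g : F, mer (f + g) =ᶠ[codiscreteWithin U] fun z => mer f z + mer g z
  mer_algebraMap : ∀ c : K, mer (algebraMap K F c) =ᶠ[codiscreteWithin U] fun _ => ι c
  mer_eq_zero_iff : ∀ f : F, mer f =ᶠ[codiscreteWithin U] (fun _ => (0 : ℂ)) ↔ f = 0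
  merAtCusps_mer : ∀ f : F, MerAtCusps (mer f)
  /-- local shape at the cusp `g⁻¹ ∞`, for every width `w` of the cusp -/
  mer_cusp_shape : ∀ f : F, f ≠ 0 → ∀ (g : SL(2, ℤ)) (w : ℕ), 0 < w →
    g⁻¹ * ModularGroup.T ^ w * g ∈ Γ → ∃ m : ℤ, CuspShape (fun z => mer f (mob g⁻¹ z)) w m
  /-- Kummer criterion: `n` divides all orders of `f` iff it divides the orders of `mer f` at all
  points of the upper half plane and at all cusps (in the parameter `q_w`, `w` any width). -/
  forall_dvd_ord_iff : ∀ (n : ℕ) (f : F), f ≠ 0 →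
    ((∀ v : Place K F, (n : ℤ) ∣ v.ord f) ↔
      (∀ τ : ℍ, (n : ℤ) ∣ (meromorphicOrderAt (mer f) (τ : ℂ)).untop₀) ∧
      (∀ (g : SL(2, ℤ)) (w : ℕ), 0 < w → g⁻¹ * ModularGroup.T ^ w * g ∈ Γ →
        ∀ m : ℤ, CuspShape (fun z => mer f (mob g⁻¹ z)) w m → (n : ℤ) ∣ m))

/-- Every `Γ`-invariant meromorphic function on the upper half plane which is meromorphic at the
cusps is the avatar of an element of `F` (needed over `ℂ` only). -/
def MerFull {F : Type} (Γ : Subgroup SL(2, ℤ)) (mer : F → ℂ → ℂ) : Prop :=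
  ∀ φ : ℂ → ℂ, MeromorphicOn φ U → (∀ γ : SL(2, ℤ), γ ∈ Γ → ∀ z ∈ U, φ (mob γ z) = φ z) →
    MerAtCusps φ → ∃ G : F, mer G =ᶠ[codiscreteWithin U] φ

/-- `χ` is the Kummer character of exponent `n` of `f`: the multiplier on `Γ` of a meromorphic
`n`-th root on the upper half plane of the avatar of `f`. -/
def IsKummerCharG {F : Type} (Γ : Subgroup SL(2, ℤ)) (mer : F → ℂ → ℂ) (n : ℕ) (f : F)
    (χ : Γ →* ℂˣ) : Prop :=
  ∃ h : ℂ → ℂ, Fermat.Agent.Lib.Analysis.NthRoot.IsRootOn n (mer f) h U ∧ HasMultiplier Γ h χ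

/-- Compatibility of the avatars over `ℚ̄` and over `ℂ` with the base change of coefficients, for
a field `F₀` of `q`-expansions with rational coefficients. -/
def MerBc (F₀ : IntermediateField ℚ (LaurentSeries ℚ))
    (merQ : ↥(ModularCurve.laurentBaseChange Fermat.Agent.S24.KQ F₀) → ℂ → ℂ)
    (merC : ↥(ModularCurve.laurentBaseChange ℂ F₀) → ℂ → ℂ) : Prop :=
  ∀ f : ↥(ModularCurve.laurentBaseChange Fermat.Agent.S24.KQ F₀),
    ∃ f' : ↥(ModularCurve.laurentBaseChange ℂ F₀),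
      ((f' : ↥(ModularCurve.laurentBaseChange ℂ F₀)) : LaurentSeries ℂ) =
        ModularCurve.coeffMap Fermat.Agent.S24.iotaK
          ((f : ↥(ModularCurve.laurentBaseChange Fermat.Agent.S24.KQ F₀)) :
            LaurentSeries Fermat.Agent.S24.KQ) ∧
      merC f' =ᶠ[codiscreteWithin U] merQ f

end Fermat.Agent.G1.Jac
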