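/-
G1 / JAC (helper92) — Kummer characters under a Hecke system, abstract in the group `Γ`, the
function field and the avatar (generalisation of `ESJ/Jac/HeckeMer.lean`, §Character/§Kummer).

Let `a : ι → GL(2, ℝ)` be a Hecke system for `Γ` (`ParHom.IsHeckeSystem (jSub Γ) a`) whose
members act holomorphically and locally injectively on the upper half plane (`HolAct`).  If `h`
is an `n`-th root of `φ` with multiplier `χ` on `Γ`, then `z ↦ ∏ i, h (a_i z)` is an `n`-th root
of `z ↦ ∏ i, φ (a_i z)` with multiplier `heckeCharG hT χ` — the multiplicative form of the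
transfer operator `hT.hecke` of `ParHom`.

* `heckeCharG`, `heckeCharG_apply`, `toAdditive_heckeCharG`, `heckeCharG_peChar`;
* `isKummerCharG_of_heckeSystem` : the Kummer character of `g` is `heckeCharG hT χ` whenever
  `mer g = ∏ i, mer f ∘ a_i` off a discrete set and `χ` is the Kummer character of `f`;
* `holAct_mapGL`, `HolAct.mul` + the affine maps: the hypotheses `HolAct` for the usual
  representatives.
-/
import Mathlib
import Fermat.Agent.G1.Jac.Defs
import Fermat.Agent.ESJ.Jac.Multiplier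
import Fermat.Agent.ESJ.Jac.MultFixed
import Fermat.Agent.ESJ.ParHom.HeckeGamma0
import Fermat.Agent.ESJ.ParHom.Torsion

set_option autoImplicit false

open UpperHalfPlane Filter Topology Complex ModularForm
open scoped MatrixGroups

noncomputable section

namespace Fermat.Agent.G1.Jac

open Fermat.Agent.ESJ.Jac Fermat.Agent.ESJ.ParHom Fermat.Agent.Lib.Analysis.NthRoot

/-! ### The multiplicative Hecke operator on characters -/

section Character

variable {Γ : Subgroup SL(2, ℤ)} {ι : Type*} [Fintype ι] {a : ι → GL (Fin 2) ℝ}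

/-- The multiplicative form of the transfer operator of a Hecke system on characters
`Γ → ℂˣ`: `(T χ)(γ) = ∏_x χ(γ'_x)` where `a_x γ = γ'_x a_{π x}`. -/
def heckeCharG (hT : IsHeckeSystem (jSub Γ) a) (χ : Γ →* ℂˣ) : Γ →* ℂˣ :=
  MonoidHom.toAdditive.symm (hT.hecke (MonoidHom.toAdditive χ))

theorem toAdditive_heckeCharG (hT : IsHeckeSystem (jSub Γ) a) (χ : Γ →* ℂˣ) :
    MonoidHom.toAdditive (heckeCharG hT χ) = hT.hecke (MonoidHom.toAdditive χ) := by
  simp [heckeCharG]

theorem heckeCharG_apply (hT : IsHeckeSystem (jSub Γ) a) (χ : Γ →* ℂˣ) (γ : Γ) :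
    heckeCharG hT χ γ = ∏ x, χ (hT.coc γ x) := by
  show Additive.toMul (hT.hecke (MonoidHom.toAdditive χ) (Additive.ofMul γ)) = _
  rw [IsHeckeSystem.hecke_apply, toMul_sum]
  rfl

/-- On the characters of homomorphisms to `ℤ/n`, the multiplicative Hecke operator is the
transfer operator. -/
theorem heckeCharG_peChar (hT : IsHeckeSystem (jSub Γ) a) (n : ℕ) [NeZero n]
    (φ : Additive Γ →+ ZMod n) :
    heckeCharG hT (peChar Γ n φ) = peChar Γ n (hT.hecke φ) := by
  apply MonoidHom.toAdditive.injective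
  rw [toAdditive_heckeCharG, toAdditive_peChar, toAdditive_peChar]
  exact hT.hecke_comp (zmodExp n) φ

end Character

/-! ### Holomorphic action on the upper half plane -/

/-- The action of `A ∈ GL(2, ℝ)` on `ℂ` through the action on the upper half plane (junk outside
the upper half plane). -/
def actG (A : GL (Fin 2) ℝ) (z : ℂ) : ℂ := ((A • ofComplex z : ℍ) : ℂ)

theorem actG_mem_U (A : GL (Fin 2) ℝ) (z : ℂ) : actG A z ∈ U := coe_mem_U _

theorem actG_coe (A : GL (Fin 2) ℝ) (τ : ℍ) : actG A (τ : ℂ) = ((A • τ : ℍ) : ℂ) := by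
  unfold actG
  rw [ofComplex_apply]

/-- `A` acts holomorphically and locally injectively on the upper half plane (true for every
`A` of positive determinant). -/
def HolAct (A : GL (Fin 2) ℝ) : Prop :=
  ∀ z ∈ U, AnalyticAt ℂ (actG A) z ∧ deriv (actG A) z ≠ 0

theorem actG_mul (A B : GL (Fin 2) ℝ) (z : ℂ) : actG (A * B) z = actG A (actG B z) := by
  unfold actG
  rw [ofComplex_apply, mul_smul]

theorem HolAct.mul {A B : GL (Fin 2) ℝ} (hA : HolAct A) (hB : HolAct B) : HolAct (A * B) := by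
  intro z hz
  have e : actG (A * B) = actG A ∘ actG B := funext fun w => actG_mul A B w
  have hBz := hB z hz
  have hAz := hA (actG B z) (actG_mem_U B z)
  refine ⟨?_, ?_⟩
  · rw [e]
    exact hAz.1.comp hBz.1
  · rw [e, deriv_comp z hAz.1.differentiableAt hBz.1.differentiableAt]
    exact mul_ne_zero hAz.2 hBz.2

/-- On `U`, the action of (the image of) `g ∈ SL(2, ℤ)` is the Möbius map. -/
theorem actG_mapGL (g : SL(2, ℤ)) {z : ℂ} (hz : z ∈ U) :
    actG (Matrix.SpecialLinearGroup.mapGL ℝ g) z = mob g z := by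
  have h1 : mob g z = ((g • (⟨z, hz⟩ : ℍ) : ℍ) : ℂ) := mob_coe g ⟨z, hz⟩
  have h2 : actG (Matrix.SpecialLinearGroup.mapGL ℝ g) z
      = ((Matrix.SpecialLinearGroup.mapGL ℝ g • (⟨z, hz⟩ : ℍ) : ℍ) : ℂ) :=
    actG_coe _ ⟨z, hz⟩
  rw [h1, h2]
  rfl

theorem holAct_mapGL (g : SL(2, ℤ)) : HolAct (Matrix.SpecialLinearGroup.mapGL ℝ g) := by
  intro z hz
  have hev : actG (Matrix.SpecialLinearGroup.mapGL ℝ g) =ᶠ[𝓝 z] mob g := by
    filter_upwards [isOpen_U.mem_nhds hz] with w hw using actG_mapGL g hw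
  refine ⟨(analyticAt_mob g hz).congr hev.symm, ?_⟩
  rw [hev.deriv_eq]
  exact MultFixed.deriv_mob_ne_zero g hz

/-- An element acting on `U` by an affine map `w ↦ c * w + d`, `c ≠ 0`, acts holomorphically. -/
theorem holAct_of_affine {A : GL (Fin 2) ℝ} {c d : ℂ} (hc : c ≠ 0)
    (h : ∀ τ : ℍ, ((A • τ : ℍ) : ℂ) = c * (τ : ℂ) + d) : HolAct A := by
  intro z hz
  have hev : actG A =ᶠ[𝓝 z] fun w : ℂ => c * w + d := by
    filter_upwards [isOpen_U.mem_nhds hz] with w hw
    have h1 := actG_coe A ⟨w, hw⟩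
    have h2 := h ⟨w, hw⟩
    exact h1.trans h2
  have han : AnalyticAt ℂ (fun w : ℂ => c * w + d) z := by fun_prop
  have hd : HasDerivAt (fun w : ℂ => c * w + d) c z := by
    simpa using ((hasDerivAt_id z).const_mul c).add_const d
  refine ⟨han.congr hev.symm, ?_⟩
  rw [hev.deriv_eq, hd.deriv]
  exact hc

theorem holAct_heckeMatrix {p : ℕ} (hp : p ≠ 0) (j : ℕ) : HolAct (heckeMatrix p j) := by
  have hp' : (p : ℂ) ≠ 0 := Nat.cast_ne_zero.mpr hp
  refine holAct_of_affine (c := 1 / (p : ℂ)) (d := (j : ℂ) / p) (one_div_ne_zero hp') fun τ => ?_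
  rw [coe_heckeMatrix_smul hp]
  field_simp

theorem holAct_heckeDiagMatrix {p : ℕ} (hp : p ≠ 0) : HolAct (heckeDiagMatrix p) := by
  have hp' : (p : ℂ) ≠ 0 := Nat.cast_ne_zero.mpr hp
  refine holAct_of_affine (c := (p : ℂ)) (d := 0) hp' fun τ => ?_
  rw [coe_heckeDiagMatrix_smul hp, add_zero]

/-! ### The Kummer character of a Hecke norm -/

section Kummer

variable {Γ : Subgroup SL(2, ℤ)} {ι : Type} [Fintype ι] {a : ι → GL (Fin 2) ℝ}

theorem eventuallyEq_nhdsNE_of_codiscreteWithin_U' {f g : ℂ → ℂ}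
    (h : f =ᶠ[codiscreteWithin U] g) {z : ℂ} (hz : z ∈ U) : f =ᶠ[𝓝[≠] z] g := by
  have h1 := mem_codiscreteWithin_iff_forall_mem_nhdsNE.1 h z hz
  have h2 : U ∈ 𝓝[≠] z := mem_nhdsWithin_of_mem_nhds (isOpen_U.mem_nhds hz)
  filter_upwards [h1, h2] with w hw hwU
  rcases hw with hw | hw
  · exact hw
  · exact absurd hwU hw

/-- **Roots under a Hecke system.**  If `h₀` is an `n`-th root of `φ` on `U` with multiplier `χ`
on `Γ`, and `Φ = ∏ i, φ ∘ a_i` off a discrete set, then `Φ` has an `n`-th root with multiplier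
`heckeCharG hT χ`. -/
theorem exists_root_of_heckeSystem (hT : IsHeckeSystem (jSub Γ) a) (ha : ∀ i, HolAct (a i))
    {n : ℕ} {φ Φ h₀ : ℂ → ℂ} {χ : Γ →* ℂˣ} (hroot : IsRootOn n φ h₀ U)
    (hmult : HasMultiplier Γ h₀ χ)
    (hnorm : Φ =ᶠ[codiscreteWithin U] fun z => ∏ i, φ (actG (a i) z)) :
    ∃ H : ℂ → ℂ, IsRootOn n Φ H U ∧ HasMultiplier Γ H (heckeCharG hT χ) := by
  set H : ℂ → ℂ := fun z => ∏ i, h₀ (actG (a i) z) with hH
  -- each factor is a root
  have hfac : ∀ i, IsRootOn n (φ ∘ actG (a i)) (h₀ ∘ actG (a i)) U := fun i =>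
    hroot.comp (fun z hz => (ha i z hz).1) (fun z hz => (ha i z hz).2)
      (fun z _ => actG_mem_U (a i) z)
  have hmer : MeromorphicOn H U := fun z hz =>
    MeromorphicAt.fun_prod (fun i _ => ((hfac i).1 hz).meromorphicAt)
  have hNF : MeromorphicNFOn (toMeromorphicNFOn H U) U := meromorphicNFOn_toMeromorphicNFOn H U
  have hself : ∀ z ∈ U, toMeromorphicNFOn H U =ᶠ[𝓝[≠] z] H := fun z hz =>
    hmer.toMeromorphicNFOn_eq_self_on_nhdsNE hz
  -- the pointwise multiplier law for `H`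
  have hHmult : ∀ γ : Γ, ∀ w ∈ U,
      H (mob (γ : SL(2, ℤ)) w) = ((heckeCharG hT χ γ : ℂˣ) : ℂ) * H w := by
    intro γ w hw
    set τ : ℍ := ⟨w, hw⟩ with hτ
    have hwτ : w = (τ : ℂ) := rfl
    have hmob : mob (γ : SL(2, ℤ)) w = (((γ : SL(2, ℤ)) • τ : ℍ) : ℂ) := mob_coe _ τ
    have key : ∀ i, a i • ((γ : SL(2, ℤ)) • τ)
        = ((hT.coc γ i : Γ) : SL(2, ℤ)) • (a (hT.perm γ i) • τ) := by
      intro i
      have hs := hT.spec γ i
      rw [jSub_apply, jSub_apply] at hs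
      calc a i • ((γ : SL(2, ℤ)) • τ)
          = (a i * Matrix.SpecialLinearGroup.mapGL ℝ (γ : SL(2, ℤ))) • τ :=
            (mul_smul _ _ _).symm
        _ = (Matrix.SpecialLinearGroup.mapGL ℝ ((hT.coc γ i : Γ) : SL(2, ℤ)) *
              a (hT.perm γ i)) • τ := by rw [hs]
        _ = ((hT.coc γ i : Γ) : SL(2, ℤ)) • (a (hT.perm γ i) • τ) :=
            mul_smul _ _ _
    have hterm : ∀ i, h₀ (actG (a i) (mob (γ : SL(2, ℤ)) w))
        = ((χ (hT.coc γ i) : ℂˣ) : ℂ) * h₀ (actG (a (hT.perm γ i)) w) := by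
      intro i
      rw [hmob, actG_coe, key i, ← mob_coe, hmult (hT.coc γ i) _ (coe_mem_U _), hwτ, actG_coe]
    show (∏ i, h₀ (actG (a i) (mob (γ : SL(2, ℤ)) w))) = _
    rw [Finset.prod_congr rfl (fun i _ => hterm i), Finset.prod_mul_distrib,
      heckeCharG_apply hT χ γ, Units.coe_prod]
    congr 1
    exact Equiv.prod_comp (hT.permEquiv γ) (fun i => h₀ (actG (a i) w))
  refine ⟨toMeromorphicNFOn H U, ⟨hNF, fun z hz => ?_⟩, ?_⟩
  · -- the root equation
    have h2 : ∀ᶠ w in 𝓝[≠] z, ∀ i, ((h₀ ∘ actG (a i)) ^ n) w = (φ ∘ actG (a i)) w :=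
      Filter.eventually_all.2 (fun i => (hfac i).2 z hz)
    have h3 := eventuallyEq_nhdsNE_of_codiscreteWithin_U' hnorm hz
    filter_upwards [hself z hz, h2, h3] with w hw1 hw2 hw3
    rw [Pi.pow_apply, hw1, hw3]
    show (∏ i, h₀ (actG (a i) w)) ^ n = _
    rw [← Finset.prod_pow]
    exact Finset.prod_congr rfl (fun i _ => hw2 i)
  · -- the multiplier
    intro γ z hz
    refine comp_mob_eq_of_eventuallyEq hNF (γ : SL(2, ℤ)) (Units.ne_zero _) (fun z hz => ?_) z hz
    have e1 : ∀ᶠ w in 𝓝[≠] z, toMeromorphicNFOn H U (mob (γ : SL(2, ℤ)) w)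
        = H (mob (γ : SL(2, ℤ)) w) :=
      (tendsto_mob_nhdsNE (γ : SL(2, ℤ)) hz).eventually (hself _ (mob_mem_U _ hz))
    have e3 : ∀ᶠ w in 𝓝[≠] z, w ∈ U := mem_nhdsWithin_of_mem_nhds (isOpen_U.mem_nhds hz)
    filter_upwards [e1, hself z hz, e3] with w hw1 hw2 hw3
    rw [Function.comp_apply, hw1, hw2, hHmult γ w hw3]

/-- **The Kummer character of a Hecke norm.**  If `χ` is the Kummer character of `f` and the
avatar of `g` is `z ↦ ∏ i, mer f (a_i z)` off a discrete set, then the Kummer character of `g`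
is `heckeCharG hT χ`. -/
theorem isKummerCharG_of_heckeSystem {F : Type} {mer : F → ℂ → ℂ}
    (hT : IsHeckeSystem (jSub Γ) a) (ha : ∀ i, HolAct (a i)) {n : ℕ} {f g : F} {χ : Γ →* ℂˣ}
    (h : IsKummerCharG Γ mer n f χ)
    (hnorm : mer g =ᶠ[codiscreteWithin U] fun z => ∏ i, mer f (actG (a i) z)) :
    IsKummerCharG Γ mer n g (heckeCharG hT χ) := by
  obtain ⟨h₀, hroot, hmult⟩ := h
  exact exists_root_of_heckeSystem hT ha hroot hmult hnorm

end Kummer

end Fermat.Agent.G1.Jac
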