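import Mathlib
import Fermat.Agent.G1.Dict.Defs
import Fermat.Agent.G1.Jac.HeckeG
import Fermat.Agent.G1.HeckeStar1
import Fermat.Agent.ESJ.Jac.HeckeMer

/-!
# G1 / JAC (helper82): the analytic Hecke norm identity at level `Γ₁(M)`

Port of `ESJ/Jac/HeckeMer.lean` (§ Identity, § MerK) to the twisted setting of `Γ₁(M)`: the
conjugates of `β y = y(q^p)` over `α(F)` are `y(q^{p²})` (in `q_p`) and the twisted series
`rot (ζ^b) (δ y)`, `δ` the diamond automorphism.  Analytically: if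
`NT y (t^p) = y(t^{p²}) · ∏_{b<p} (δ y)(ζ^b t)` formally (helper43's `qExpand_norm_of_conj`) and
`δ y = y ∘ σ` analytically, then, off a discrete subset of the upper half plane,
`NT y (z) = y(p z) · ∏_{b<p} y(σ((z + b)/p)) = ∏_x y(a_x z)`, `a = tStarRep p σ`.

* generic part (any representation system `fm`, `ev`, `mer` on a subfield of `ℚ̄((q))`):
  `ev_norm_identity`, `mer_norm_eventuallyEq`, `mer_norm_actG`;
* instance for helper9's dictionary objects (`G1/Dict/Defs.lean`): `hasQExp_ev1K`,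
  `mer1K_norm_eventuallyEq`, `mer1K_norm_actG`, `mer1K_norm_actG'` (function form).
-/

set_option autoImplicit false

open UpperHalfPlane Filter Topology
open scoped MatrixGroups Manifold

noncomputable section

namespace Fermat.Agent.G1.Jac.HeckeMer1

open ModularCurve Fermat.Agent.S24 Fermat.Agent.S24.QExp Fermat.Agent.S28.Chain
open Fermat.Agent.ESJ.Cong.ConjAnalytic Fermat.Agent.ESJ.Jac Fermat.Agent.ESJ.Jac.HeckeMer
open Fermat.Agent.ESJ.ParHom

/-! ### Expansions in `q_p` of the three kinds of conjugates -/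

section Expansions

variable (p : ℕ) [NeZero p] {G : ℍ → ℂ} {L : LaurentSeries ℂ}

/-- `G` itself, expanded in `q_p`. -/
theorem hasQExp_level (h : HasQExp 1 G L) : HasQExp p G (qExpand ℂ p L) := by
  have h' := h.level p
  rwa [one_mul] at h'

/-- `τ ↦ G (p τ)`, expanded in `q_p`. -/
theorem hasQExp_scale (h : HasQExp 1 G L) :
    HasQExp p (fun τ : ℍ => G (ofComplex ((p : ℂ) * τ))) (qExpand ℂ (p * p) L) := by
  have h' := h.comp_affine (p * p) p 0
  rw [one_mul] at h'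
  have hz : zetaU p (0 : ℤ) = 1 := by
    ext
    simp [zetaU]
  rw [hz, rot_one_apply] at h'
  refine h'.congr_fun' (fun τ => ?_)
  have hp : (p : ℂ) ≠ 0 := by exact_mod_cast NeZero.ne p
  have e : (((p * p : ℕ) : ℂ) * (τ : ℂ) + ((0 : ℤ) : ℂ)) / (p : ℂ) = (p : ℂ) * τ := by
    push_cast
    field_simp
    ring
  show G (ofComplex ((((p * p : ℕ) : ℂ) * (τ : ℂ) + ((0 : ℤ) : ℂ)) / (p : ℂ))) = _
  rw [e]

/-- `τ ↦ G ((τ + b) / p)`, expanded in `q_p`. -/
theorem hasQExp_twist (h : HasQExp 1 G L) (b : ℕ) :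
    HasQExp p (fun τ : ℍ => G (ofComplex (((τ : ℂ) + b) / p))) (rot (zetaU p b) L) := by
  have h' := h.comp_affine 1 p (b : ℤ)
  rw [one_mul, qExpand_one_apply] at h'
  refine h'.congr_fun' (fun τ => ?_)
  have e : (((1 : ℕ) : ℂ) * (τ : ℂ) + ((b : ℤ) : ℂ)) / (p : ℂ) = ((τ : ℂ) + b) / p := by
    push_cast
    ring
  show G (ofComplex ((((1 : ℕ) : ℂ) * (τ : ℂ) + ((b : ℤ) : ℂ)) / (p : ℂ))) = _
  rw [e]

end Expansions

/-! ### Codiscrete sets under affine self-maps of `U` -/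

/-- A property holding off a discrete subset of `U` still holds off a discrete subset after
composition with a holomorphic self-map of `U` with nowhere vanishing derivative. -/
theorem eventually_comp_codiscreteWithin {P : ℂ → Prop}
    (h : ∀ᶠ z in codiscreteWithin U, P z) (φ : ℂ → ℂ) (c : ℂ) (hc : c ≠ 0)
    (hφ : ∀ z ∈ U, HasDerivAt φ c z) (hmaps : ∀ z ∈ U, φ z ∈ U) :
    ∀ᶠ z in codiscreteWithin U, P (φ z) := by
  rw [Filter.eventually_iff, mem_codiscreteWithin_iff_forall_mem_nhdsNE]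
  intro x hx
  have h1 := mem_codiscreteWithin_iff_forall_mem_nhdsNE.1 h (φ x) (hmaps x hx)
  have ht : Tendsto φ (𝓝[≠] x) (𝓝[≠] (φ x)) := (hφ x hx).tendsto_nhdsNE hc
  have hU : ∀ᶠ w in 𝓝[≠] x, w ∈ U := mem_nhdsWithin_of_mem_nhds (isOpen_U.mem_nhds hx)
  filter_upwards [ht.eventually h1, hU] with z hz hzU
  rcases hz with hz | hz
  · exact Or.inl hz
  · exact absurd (hmaps z hzU) hz

/-- Off a discrete subset of `U`, `G ∘ φ` does not vanish (`G ≠ 0` holomorphic on `ℍ`, `φ` a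
holomorphic self-map of `U` with nowhere vanishing derivative). -/
theorem eventually_comp_ne_zero {G : ℍ → ℂ} (hG : MDiff G) (hG0 : G ≠ 0) (φ : ℂ → ℂ)
    (c : ℂ) (hc : c ≠ 0) (hφ : ∀ z ∈ U, HasDerivAt φ c z) (hmaps : ∀ z ∈ U, φ z ∈ U) :
    ∀ᶠ z in codiscreteWithin U, G (ofComplex (φ z)) ≠ 0 := by
  rw [Filter.eventually_iff, mem_codiscreteWithin_iff_forall_mem_nhdsNE]
  intro x hx
  have hord := OrdH.order_ne_top hG hG0 ⟨φ x, hmaps x hx⟩
  have han := OrdH.analyticAt hG ⟨φ x, hmaps x hx⟩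
  have h1 : ∀ᶠ w in 𝓝[≠] (φ x), (G ∘ ofComplex) w ≠ 0 := by
    rcases han.eventually_eq_zero_or_eventually_ne_zero with h | h
    · exact absurd (analyticOrderAt_eq_top.2 h) hord
    · exact h
  have ht : Tendsto φ (𝓝[≠] x) (𝓝[≠] (φ x)) := (hφ x hx).tendsto_nhdsNE hc
  filter_upwards [ht.eventually h1] with z hz
  exact Or.inl hz

/-! ### The generic norm identity -/

section Generic

variable {I : Type*} {F : IntermediateField KQ (LaurentSeries KQ)}
  (fm : MvPolynomial I KQ →+* F) (ev : MvPolynomial I KQ →+* (ℍ → ℂ))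
  (p : ℕ) [NeZero p]

omit [NeZero p] in
theorem coe_ne_zero_of_ne_zero {x : F} (hx : x ≠ 0) : ((x : F) : LaurentSeries KQ) ≠ 0 :=
  fun h => hx (Subtype.ext h)

/-- **The norm identity on `ℍ`**, cross-multiplied: for `y = fm P / fm Q`, `y₂ = fm P₂ / fm Q₂`,
`Y = fm P' / fm Q'` with `Y(t^p) = y(t^{p²}) ∏_b y₂(ζ^b t)`:
`ev P'(τ) · ev Q(pτ) ∏_b ev Q₂((τ+b)/p) = ev Q'(τ) · ev P(pτ) ∏_b ev P₂((τ+b)/p)`. -/
theorem ev_norm_identity
    (hq : ∀ P, HasQExp 1 (ev P) (coeffMap iotaK ((fm P : F) : LaurentSeries KQ)))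
    (y y₂ Y : F)
    (hN : ∀ ζ : KQˣ, IsPrimitiveRoot ζ p →
      qExpand KQ p (Y : LaurentSeries KQ) = qExpand KQ (p * p) (y : LaurentSeries KQ) *
        ∏ b ∈ Finset.range p, rot (ζ ^ b) (y₂ : LaurentSeries KQ))
    (P Q P₂ Q₂ P' Q' : MvPolynomial I KQ)
    (hQ : fm Q ≠ 0) (hy : y = fm P / fm Q) (hQ₂ : fm Q₂ ≠ 0) (hy₂ : y₂ = fm P₂ / fm Q₂)
    (hQ' : fm Q' ≠ 0) (hY : Y = fm P' / fm Q') (τ : ℍ) :
    ev P' τ * (ev Q (ofComplex ((p : ℂ) * τ)) *
        ∏ b ∈ Finset.range p, ev Q₂ (ofComplex (((τ : ℂ) + b) / p))) =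
      ev Q' τ * (ev P (ofComplex ((p : ℂ) * τ)) *
        ∏ b ∈ Finset.range p, ev P₂ (ofComplex (((τ : ℂ) + b) / p))) := by
  obtain ⟨ζ, hζ, hζι⟩ := exists_primitiveRoot_iotaK p
  have key := hN ζ hζ
  set s : LaurentSeries KQ := ((fm P : F) : LaurentSeries KQ) with hs
  set t : LaurentSeries KQ := ((fm Q : F) : LaurentSeries KQ) with ht
  set s₂ : LaurentSeries KQ := ((fm P₂ : F) : LaurentSeries KQ) with hs₂
  set t₂ : LaurentSeries KQ := ((fm Q₂ : F) : LaurentSeries KQ) with ht₂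
  set s' : LaurentSeries KQ := ((fm P' : F) : LaurentSeries KQ) with hs'
  set t' : LaurentSeries KQ := ((fm Q' : F) : LaurentSeries KQ) with ht'
  have ht0 : t ≠ 0 := coe_ne_zero_of_ne_zero hQ
  have ht₂0 : t₂ ≠ 0 := coe_ne_zero_of_ne_zero hQ₂
  have ht'0 : t' ≠ 0 := coe_ne_zero_of_ne_zero hQ'
  have hyc : (y : LaurentSeries KQ) = s / t := by
    rw [hy]
    rfl
  have hy₂c : (y₂ : LaurentSeries KQ) = s₂ / t₂ := by
    rw [hy₂]
    rfl
  have hYc : (Y : LaurentSeries KQ) = s' / t' := by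
    rw [hY]
    rfl
  rw [hYc, hyc, hy₂c] at key
  simp only [map_div₀, Finset.prod_div_distrib] at key
  rw [div_mul_div_comm, div_eq_div_iff ((map_ne_zero _).2 ht'0)
    (mul_ne_zero ((map_ne_zero _).2 ht0)
      (Finset.prod_ne_zero_iff.2 fun b _ => (map_ne_zero _).2 ht₂0))] at key
  -- transport to `ℂ`
  have keyC := congrArg (coeffMap iotaK) key
  simp only [map_mul, map_prod, coeffMap_qExpand, coeffMap_rot, map_pow, hζι] at keyC
  have hz : ∀ b : ℕ, zetaU p 1 ^ b = zetaU p (b : ℤ) := by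
    intro b
    rw [zetaU_pow]
    congr 1
    ring
  simp only [hz] at keyC
  -- both sides are `q_p`-expansions
  have hL := (hasQExp_level p (hq P')).mul ((hasQExp_scale p (hq Q)).mul
    (HasQExp.prod (Finset.range p) (fun b (τ : ℍ) => ev Q₂ (ofComplex (((τ : ℂ) + b) / p)))
      (fun b => rot (zetaU p b) (coeffMap iotaK t₂)) (fun b _ => hasQExp_twist p (hq Q₂) b)))
  have hR := (hasQExp_level p (hq Q')).mul ((hasQExp_scale p (hq P)).mul
    (HasQExp.prod (Finset.range p) (fun b (τ : ℍ) => ev P₂ (ofComplex (((τ : ℂ) + b) / p)))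
      (fun b => rot (zetaU p b) (coeffMap iotaK s₂)) (fun b _ => hasQExp_twist p (hq P₂) b)))
  rw [keyC] at hL
  have hR' : HasQExp p (ev Q' * ((fun τ : ℍ => ev P (ofComplex ((p : ℂ) * τ))) *
      ∏ b ∈ Finset.range p, fun τ : ℍ => ev P₂ (ofComplex (((τ : ℂ) + b) / p))))
      (qExpand ℂ (p * p) (coeffMap iotaK s) * (∏ b ∈ Finset.range p,
        rot (zetaU p b) (coeffMap iotaK s₂)) * qExpand ℂ p (coeffMap iotaK t')) := by
    convert hR using 1
    ring
  have h := (hL τ).unique (hR' τ)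
  simpa only [Pi.mul_apply, Finset.prod_apply] using h

/-- **The meromorphic function of the norm** (generic): if `mer f = ev P / ev Q` off a discrete
set for every representation, then `mer Y (z) = mer y (p z) · ∏_{b<p} mer y₂ ((z + b)/p)` off a
discrete subset of `U`. -/
theorem mer_norm_eventuallyEq (hp : p.Prime) (mer : F → ℂ → ℂ)
    (hrep : ∀ f : F, ∃ P Q, fm Q ≠ 0 ∧ f = fm P / fm Q)
    (hq : ∀ P, HasQExp 1 (ev P) (coeffMap iotaK ((fm P : F) : LaurentSeries KQ)))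
    (hmd : ∀ P, MDiff (ev P))
    (hmer : ∀ (f : F) (P Q : MvPolynomial I KQ), fm Q ≠ 0 → f = fm P / fm Q →
      mer f =ᶠ[codiscreteWithin U] fun z => ev P (ofComplex z) / ev Q (ofComplex z))
    (y y₂ Y : F)
    (hN : ∀ ζ : KQˣ, IsPrimitiveRoot ζ p →
      qExpand KQ p (Y : LaurentSeries KQ) = qExpand KQ (p * p) (y : LaurentSeries KQ) *
        ∏ b ∈ Finset.range p, rot (ζ ^ b) (y₂ : LaurentSeries KQ)) :
    mer Y =ᶠ[codiscreteWithin U] fun z => mer y ((p : ℂ) * z) *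
      ∏ b ∈ Finset.range p, mer y₂ ((z + b) / p) := by
  obtain ⟨P, Q, hQ, hy⟩ := hrep y
  obtain ⟨P₂, Q₂, hQ₂, hy₂⟩ := hrep y₂
  obtain ⟨P', Q', hQ', hY⟩ := hrep Y
  have hp0 : (p : ℂ) ≠ 0 := by exact_mod_cast hp.ne_zero
  have hne : ∀ R : MvPolynomial I KQ, fm R ≠ 0 → ev R ≠ 0 := by
    intro R hR h0
    have h1 := (hq R).eq_zero_iff.1 (fun τ => by rw [h0]; rfl)
    have h2 : ((fm R : F) : LaurentSeries KQ) = 0 :=
      coeffMap_injective' iotaK (by rw [h1, map_zero])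
    exact hR (Subtype.ext h2)
  have e0 : ∀ᶠ z in codiscreteWithin U, z ∈ U := Filter.self_mem_codiscreteWithin U
  -- the three representations, transported along the affine maps
  have m1 := hmer Y P' Q' hQ' hY
  have m2 := eventually_comp_codiscreteWithin (hmer y P Q hQ hy) (fun w : ℂ => (p : ℂ) * w) p hp0
    (fun z _ => hasDerivAt_scale p z) (fun z hz => scale_mem_U hp.pos hz)
  have m3 : ∀ᶠ z in codiscreteWithin U, ∀ b ∈ Finset.range p,
      mer y₂ ((z + b) / p)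
        = ev P₂ (ofComplex ((z + b) / p)) / ev Q₂ (ofComplex ((z + b) / p)) := by
    rw [Filter.eventually_all_finset]
    intro b _
    exact eventually_comp_codiscreteWithin (hmer y₂ P₂ Q₂ hQ₂ hy₂)
      (fun w : ℂ => (w + b) / (p : ℂ)) (1 / (p : ℂ)) (one_div_ne_zero hp0)
      (fun z _ => hasDerivAt_twist p b z) (fun z hz => twist_mem_U hp.pos b hz)
  -- nonvanishing of the denominators
  have e1 := eventually_comp_ne_zero (hmd Q') (hne Q' hQ') id 1 one_ne_zero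
    (fun z _ => hasDerivAt_id z) (fun z hz => hz)
  have e2 := eventually_comp_ne_zero (hmd Q) (hne Q hQ) (fun w : ℂ => (p : ℂ) * w) p hp0
    (fun z _ => hasDerivAt_scale p z) (fun z hz => scale_mem_U hp.pos hz)
  have e3 : ∀ᶠ z in codiscreteWithin U, ∀ b ∈ Finset.range p,
      ev Q₂ (ofComplex ((z + b) / p)) ≠ 0 := by
    rw [Filter.eventually_all_finset]
    intro b _
    exact eventually_comp_ne_zero (hmd Q₂) (hne Q₂ hQ₂) (fun w : ℂ => (w + b) / (p : ℂ))
      (1 / (p : ℂ)) (one_div_ne_zero hp0) (fun z _ => hasDerivAt_twist p b z)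
      (fun z hz => twist_mem_U hp.pos b hz)
  filter_upwards [e0, m1, m2, m3, e1, e2, e3] with z hzU hm1 hm2 hm3 h1 h2 h3
  have hid := ev_norm_identity fm ev p hq y y₂ Y hN P Q P₂ Q₂ P' Q' hQ hy hQ₂ hy₂ hQ' hY ⟨z, hzU⟩
  have hτ : ofComplex z = ⟨z, hzU⟩ := ofComplex_apply_of_im_pos hzU
  simp only [id] at h1
  rw [hm1, hm2, Finset.prod_congr rfl hm3]
  rw [hτ] at h1 ⊢
  rw [Finset.prod_div_distrib, div_mul_div_comm,
    div_eq_div_iff h1 (mul_ne_zero h2 (Finset.prod_ne_zero_iff.2 h3))]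
  rw [mul_comm _ (ev Q' _)]
  exact hid

end Generic

/-! ### The product over the Hecke system `tStarRep p σ` -/

section Act

open Fermat.Agent.G1 Matrix.SpecialLinearGroup ModularForm

theorem actG_heckeDiagMatrix {p : ℕ} (hp : p ≠ 0) {z : ℂ} (hz : z ∈ U) :
    actG (heckeDiagMatrix p) z = (p : ℂ) * z := by
  have h := actG_coe (heckeDiagMatrix p) ⟨z, hz⟩
  rw [coe_heckeDiagMatrix_smul hp] at h
  exact h

theorem actG_heckeMatrix {p : ℕ} (hp : p ≠ 0) (j : ℕ) {z : ℂ} (hz : z ∈ U) :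
    actG (heckeMatrix p j) z = (z + j) / p := by
  have h := actG_coe (heckeMatrix p j) ⟨z, hz⟩
  rw [coe_heckeMatrix_smul hp] at h
  exact h

/-- The product over the system `tStarRep p σ`: `∞ ↦ (z ↦ p z)`, `b ↦ (z ↦ σ((z + b)/p))`. -/
theorem prod_actG_tStarRep {p : ℕ} [NeZero p] (σ : SL(2, ℤ)) (g : ℂ → ℂ) {z : ℂ} (hz : z ∈ U) :
    ∏ x : OnePoint (ZMod p), g (actG (tStarRep p σ x) z)
      = g ((p : ℂ) * z) * ∏ b ∈ Finset.range p, g (mob σ ((z + b) / p)) := by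
  have hp : p ≠ 0 := NeZero.ne p
  have h1 : (∏ x : OnePoint (ZMod p), g (actG (tStarRep p σ x) z))
      = g (actG (tStarRep p σ OnePoint.infty) z)
        * ∏ j : ZMod p, g (actG (tStarRep p σ (j : OnePoint (ZMod p))) z) :=
    Fintype.prod_option (fun x : Option (ZMod p) => g (actG (tStarRep p σ x) z))
  rw [h1, tStarRep_infty, actG_heckeDiagMatrix hp hz]
  congr 1
  rw [← prod_zmod_val (fun b => g (mob σ ((z + b) / p)))]
  refine Finset.prod_congr rfl (fun j _ => ?_)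
  rw [tStarRep_coe, actG_mul, actG_heckeMatrix hp j.val hz,
    actG_mapGL σ (twist_mem_U (Nat.pos_of_ne_zero hp) j.val hz)]

end Act

section GenericAct

variable {I : Type*} {F : IntermediateField KQ (LaurentSeries KQ)}
  (fm : MvPolynomial I KQ →+* F) (ev : MvPolynomial I KQ →+* (ℍ → ℂ))
  (p : ℕ) [NeZero p]

/-- **The norm identity for the Hecke system `tStarRep p σ`** (generic): if
`Y(t^p) = y(t^{p²}) ∏_b y₂(ζ^b t)` and `mer y₂ = mer y ∘ σ`, then
`mer Y = ∏_x mer y ∘ a_x`, `a = tStarRep p σ`, off a discrete subset of `U`. -/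
theorem mer_norm_actG (hp : p.Prime) (mer : F → ℂ → ℂ)
    (hrep : ∀ f : F, ∃ P Q, fm Q ≠ 0 ∧ f = fm P / fm Q)
    (hq : ∀ P, HasQExp 1 (ev P) (coeffMap iotaK ((fm P : F) : LaurentSeries KQ)))
    (hmd : ∀ P, MDiff (ev P))
    (hmer : ∀ (f : F) (P Q : MvPolynomial I KQ), fm Q ≠ 0 → f = fm P / fm Q →
      mer f =ᶠ[codiscreteWithin U] fun z => ev P (ofComplex z) / ev Q (ofComplex z))
    (σ : SL(2, ℤ)) (y y₂ Y : F)
    (hN : ∀ ζ : KQˣ, IsPrimitiveRoot ζ p →
      qExpand KQ p (Y : LaurentSeries KQ) = qExpand KQ (p * p) (y : LaurentSeries KQ) *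
        ∏ b ∈ Finset.range p, rot (ζ ^ b) (y₂ : LaurentSeries KQ))
    (hδ : mer y₂ =ᶠ[codiscreteWithin U] fun z => mer y (mob σ z)) :
    mer Y =ᶠ[codiscreteWithin U]
      fun z => ∏ x : OnePoint (ZMod p), mer y (actG (Fermat.Agent.G1.tStarRep p σ x) z) := by
  have hp0 : (p : ℂ) ≠ 0 := by exact_mod_cast hp.ne_zero
  have h1 := mer_norm_eventuallyEq fm ev p hp mer hrep hq hmd hmer y y₂ Y hN
  have h2 : ∀ᶠ z in codiscreteWithin U, ∀ b ∈ Finset.range p,
      mer y₂ ((z + b) / p) = mer y (mob σ ((z + b) / p)) := by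
    rw [Filter.eventually_all_finset]
    intro b _
    exact eventually_comp_codiscreteWithin hδ
      (fun w : ℂ => (w + b) / (p : ℂ)) (1 / (p : ℂ)) (one_div_ne_zero hp0)
      (fun z _ => hasDerivAt_twist p b z) (fun z hz => twist_mem_U hp.pos b hz)
  have e0 : ∀ᶠ z in codiscreteWithin U, z ∈ U := Filter.self_mem_codiscreteWithin U
  filter_upwards [e0, h1, h2] with z hzU hz1 hz2
  rw [hz1, prod_actG_tStarRep σ (mer y) hzU, Finset.prod_congr rfl hz2]

end GenericAct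

/-! ### The members of `tStarRep p σ` act holomorphically -/

theorem holAct_tStarRep {p : ℕ} (hp : p ≠ 0) (σ : SL(2, ℤ)) (x : OnePoint (ZMod p)) :
    HolAct (Fermat.Agent.G1.tStarRep p σ x) := by
  induction x using OnePoint.rec with
  | infty =>
    rw [Fermat.Agent.G1.tStarRep_infty]
    exact holAct_heckeDiagMatrix hp
  | coe j =>
    rw [Fermat.Agent.G1.tStarRep_coe]
    exact (holAct_mapGL σ).mul (holAct_heckeMatrix hp j.val)

/-! ### The instance for the dictionary objects of `Γ₁(M) ∩ Γ₀(M a)` -/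

section Dict1

open Fermat.Agent.G1 Fermat.Agent.G1.Dict

variable {K : Type} [Field K] [Algebra ℚ K] (ι : K →+* ℂ) (M a : ℕ) [NeZero M] [NeZero a]

omit ι in
theorem coe_fm1K (P : MvPolynomial (Ix M a) K) :
    ((fm1K K M a P : F1aK K M a) : LaurentSeries K)
      = MvPolynomial.aeval (fun i : Ix M a => coeffEmb K (gen1Q M a i)) P := by
  have := MvPolynomial.comp_aeval (R := K) (gen1K K M a)
    (IntermediateField.val (laurentBaseChange K (F1a M a)))
  exact congrArg (fun φ => φ P) this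

theorem hasQExp_gen1Fun (i : Ix M a) :
    HasQExp 1 (gen1Fun M a i) (coeffMap (algebraMap ℚ ℂ) (gen1Q M a i)) := by
  rcases i with d | u
  · have : NeZero d.1 := d.neZero
    show HasQExp 1 (Jabd d.1 0 1) (coeffMap (algebraMap ℚ ℂ) (qExpand ℚ d.1 jq))
    rw [coeffMap_qExpand]
    exact hasQExp_Jabd_scale d.1
  · exact hasQExp_xfun' u

/-- **Formal = analytic**: `ev1K ι M a P` has the `q`-expansion `fm1K K M a P`. -/
theorem hasQExp_ev1K (P : MvPolynomial (Ix M a) K) :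
    HasQExp 1 (ev1K ι M a P)
      (coeffMap ι ((fm1K K M a P : F1aK K M a) : LaurentSeries K)) := by
  rw [coe_fm1K]
  refine HasQExp.mvPolynomial ι (gen1Fun M a) _ (fun g => ?_) P
  have e : coeffMap ι (coeffEmb K (gen1Q M a g)) = coeffMap (algebraMap ℚ ℂ) (gen1Q M a g) := by
    rw [coeffEmb, coeffMap_coeffMap]
    exact coeffMap_congr (RingHom.ext_rat _ _) _
  rw [e]
  exact hasQExp_gen1Fun M a g

/-- **The analytic Hecke norm identity for `mer1K`** (elementwise form): if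
`Y(t^p) = y(t^{p²}) · ∏_{b<p} y₂(ζ^b t)` in `ℚ̄((t))` and `mer y₂ = mer y ∘ σ` off a discrete set,
then `mer Y (z) = ∏_x mer y (a_x z)` off a discrete subset of `U`, `a = tStarRep p σ`
(`a_∞ z = p z`, `a_b z = σ((z + b)/p)`). -/
theorem mer1K_norm_actG (hD : IsDict1 iotaK M a) (p : ℕ) [NeZero p] (hp : p.Prime)
    (σ : SL(2, ℤ)) (y y₂ Y : F1aK KQ M a)
    (hN : ∀ ζ : KQˣ, IsPrimitiveRoot ζ p →
      qExpand KQ p (Y : LaurentSeries KQ) = qExpand KQ (p * p) (y : LaurentSeries KQ) *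
        ∏ b ∈ Finset.range p, rot (ζ ^ b) (y₂ : LaurentSeries KQ))
    (hδ : mer1K iotaK M a y₂ =ᶠ[codiscreteWithin U] fun z => mer1K iotaK M a y (mob σ z)) :
    mer1K iotaK M a Y =ᶠ[codiscreteWithin U]
      fun z => ∏ x : OnePoint (ZMod p), mer1K iotaK M a y (actG (tStarRep p σ x) z) :=
  mer_norm_actG (fm1K KQ M a).toRingHom (ev1K iotaK M a) p hp (mer1K iotaK M a)
    (fun f => by
      obtain ⟨P, Q, h⟩ := hD.exists_isRep1K f
      exact ⟨P, Q, h.1, h.2⟩)
    (hasQExp_ev1K iotaK M a) hD.mdiff_ev1K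
    (fun f P Q hQ hf => hD.mer1K_eq_div_ae f P Q ⟨hQ, hf⟩) σ y y₂ Y hN hδ

/-- The intermediate form: `mer Y (z) = mer y (p z) · ∏_{b<p} mer y₂ ((z + b)/p)`. -/
theorem mer1K_norm_eventuallyEq (hD : IsDict1 iotaK M a) (p : ℕ) [NeZero p] (hp : p.Prime)
    (y y₂ Y : F1aK KQ M a)
    (hN : ∀ ζ : KQˣ, IsPrimitiveRoot ζ p →
      qExpand KQ p (Y : LaurentSeries KQ) = qExpand KQ (p * p) (y : LaurentSeries KQ) *
        ∏ b ∈ Finset.range p, rot (ζ ^ b) (y₂ : LaurentSeries KQ)) :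
    mer1K iotaK M a Y =ᶠ[codiscreteWithin U] fun z => mer1K iotaK M a y ((p : ℂ) * z) *
      ∏ b ∈ Finset.range p, mer1K iotaK M a y₂ ((z + b) / p) :=
  mer_norm_eventuallyEq (fm1K KQ M a).toRingHom (ev1K iotaK M a) p hp (mer1K iotaK M a)
    (fun f => by
      obtain ⟨P, Q, h⟩ := hD.exists_isRep1K f
      exact ⟨P, Q, h.1, h.2⟩)
    (hasQExp_ev1K iotaK M a) hD.mdiff_ev1K
    (fun f P Q hQ hf => hD.mer1K_eq_div_ae f P Q ⟨hQ, hf⟩) y y₂ Y hN

/-- **The analytic Hecke norm identity for `mer1K`** (function form: `NT` the norm operator,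
`δ` the diamond operator) — literally the hypothesis `hnorm` of
`Jac.isKummerCharG_of_heckeSystem` for the system `tStarRep p σ`. -/
theorem mer1K_norm_actG' (hD : IsDict1 iotaK M a) (p : ℕ) [NeZero p] (hp : p.Prime)
    (σ : SL(2, ℤ)) (NT δ : F1aK KQ M a → F1aK KQ M a)
    (hN : ∀ ζ : KQˣ, IsPrimitiveRoot ζ p → ∀ y : F1aK KQ M a,
      qExpand KQ p ((NT y : F1aK KQ M a) : LaurentSeries KQ)
        = qExpand KQ (p * p) (y : LaurentSeries KQ) *
          ∏ b ∈ Finset.range p, rot (ζ ^ b) ((δ y : F1aK KQ M a) : LaurentSeries KQ))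
    (hδ : ∀ y : F1aK KQ M a,
      mer1K iotaK M a (δ y) =ᶠ[codiscreteWithin U] fun z => mer1K iotaK M a y (mob σ z))
    (y : F1aK KQ M a) :
    mer1K iotaK M a (NT y) =ᶠ[codiscreteWithin U]
      fun z => ∏ x : OnePoint (ZMod p), mer1K iotaK M a y (actG (tStarRep p σ x) z) :=
  mer1K_norm_actG M a hD p hp σ y (δ y) (NT y) (fun ζ hζ => hN ζ hζ y) (hδ y)

/-- **The Kummer character of the Hecke norm**: if `χ` is the Kummer character of `y` for `Γ`
and `tStarRep p σ` is a Hecke system for `Γ`, the Kummer character of `Y` is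
`heckeCharG hT χ`. -/
theorem isKummerCharG_norm1 (hD : IsDict1 iotaK M a) (p : ℕ) [NeZero p] (hp : p.Prime)
    (σ : SL(2, ℤ)) {Γ : Subgroup SL(2, ℤ)}
    (hT : IsHeckeSystem (jSub Γ) (tStarRep p σ)) {n : ℕ} {χ : Γ →* ℂˣ}
    (y y₂ Y : F1aK KQ M a)
    (hN : ∀ ζ : KQˣ, IsPrimitiveRoot ζ p →
      qExpand KQ p (Y : LaurentSeries KQ) = qExpand KQ (p * p) (y : LaurentSeries KQ) *
        ∏ b ∈ Finset.range p, rot (ζ ^ b) (y₂ : LaurentSeries KQ))
    (hδ : mer1K iotaK M a y₂ =ᶠ[codiscreteWithin U] fun z => mer1K iotaK M a y (mob σ z))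
    (h : IsKummerCharG Γ (mer1K iotaK M a) n y χ) :
    IsKummerCharG Γ (mer1K iotaK M a) n Y (heckeCharG hT χ) :=
  isKummerCharG_of_heckeSystem hT (holAct_tStarRep hp.ne_zero σ) h
    (mer1K_norm_actG M a hD p hp σ y y₂ Y hN hδ)

end Dict1

end Fermat.Agent.G1.Jac.HeckeMer1
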