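/-
G1 / JAC (helper92) — the assembly of the Kummer isomorphism, abstract in the function field
`F / K`, the group `Γ ≤ SL(2, ℤ)` and the "Kummer character" relation `R f χ`
(generalisation of `ESJ/Jac/System.lean`, which is the case `F = ℚ̄(X₀(N))`, `Γ = Γ₀(N)`).

* `KummerInjG K F Γ n R` : the formal properties of `R` giving an injective homomorphism
  `Pic⁰(F)[n] → Hom_pe(Γ, ℤ/n)` (`exists_kummerHomG`);
* `finite_peHoms_zmod` : `Hom_pe(Γ, ℤ/n)` is finite for `Γ` of finite index (no genus formula);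
* `finite_torsion_of_kummerInjG` : `Pic⁰(F)[n]` is finite;
* `exists_kummerEquivG` : with surjectivity of the character map, the Kummer isomorphism
  `Pic⁰(F)[n] ≃ Hom_pe(Γ, ℤ/n)`;
* `kummer_comm` : compatibility of the Kummer map with a pair of operators
  (on classes / on functions / on cohomology);
* `exists_level_torsion` : for `F = ℚ̄ · F₀`, a finite torsion subgroup has finite level.
-/
import Mathlib
import Fermat.Agent.G1.Jac.Defs
import Fermat.Agent.ESJ.Jac.KummerPair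
import Fermat.Agent.ESJ.Jac.KummerElt
import Fermat.Agent.ESJ.Jac.KummerAlg
import Fermat.Agent.ESJ.Jac.FiniteLevelCore
import Fermat.Agent.ESJ.ParHom.Torsion
import Fermat.Agent.ESJ.ParHom.Quot

set_option autoImplicit false
set_option linter.style.haveILetI false

open AlgebraicCurve ModularCurve
open scoped MatrixGroups

noncomputable section

namespace Fermat.Agent.G1.Jac

open Fermat.Agent.ESJ.Jac Fermat.Agent.ESJ.ParHom

/-- The formal properties of a Kummer-character relation of exponent `n` which give an INJECTIVE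
homomorphism `Pic⁰(F)[n] → {PE characters of Γ of exponent n}`. -/
structure KummerInjG (K : Type) (F : Type) [Field K] [Field F] [Algebra K F]
    (Γ : Subgroup SL(2, ℤ)) (n : ℕ) (R : F → (Γ →* ℂˣ) → Prop) : Prop where
  ex : ∀ f, IsKummerElt K F n f → ∃ χ, R f χ
  uniq : ∀ f χ χ', IsKummerElt K F n f → R f χ → R f χ' → χ = χ'
  mul : ∀ f f' χ χ', IsKummerElt K F n f → IsKummerElt K F n f' → R f χ → R f' χ' →
    R (f * f') (χ * χ')
  isPE : ∀ f χ, IsKummerElt K F n f → R f χ → IsPEChar Γ n χ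
  inj : ∀ f, IsKummerElt K F n f → R f 1 →
    ∃ g : F, g ≠ 0 ∧ ∀ v : Place K F, v.ord f = (n : ℤ) * v.ord g
  pow : ∀ f g : F, f ≠ 0 → g ≠ 0 → (∀ v : Place K F, v.ord f = (n : ℤ) * v.ord g) → R f 1

variable {K : Type} {F : Type} [Field K] [Field F] [Algebra K F] {Γ : Subgroup SL(2, ℤ)}
  {n : ℕ} {R : F → (Γ →* ℂˣ) → Prop}

/-- The injective Kummer homomorphism, with values in `Hom_pe(Γ, ℤ/n)`, characterised by: the
character of `κ x` is the `R`-character of any Kummer function of `x`. -/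
theorem exists_kummerHomG (h : KummerInjG K F Γ n R) (hn : 0 < n) :
    haveI : NeZero n := ⟨hn.ne'⟩
    ∃ κ : Pic0.torsion K F n →+ peHoms Γ ℤ (ZMod n), Function.Injective κ ∧
      ∀ (x : Pic0.torsion K F n) (f : F) (χ : Γ →* ℂˣ),
        IsKummerPair n (x : Pic0 K F) f → R f χ →
        peChar Γ n (κ x : Additive Γ →+ ZMod n) = χ := by
  haveI : NeZero n := ⟨hn.ne'⟩
  obtain ⟨κ, hκinj, hκ⟩ := KummerAlg.exists_addMonoidHom_of_kummer (K := K) (F := F) hn
    (C := peCharSub Γ n) (fun f c => R f (c : Γ →* ℂˣ))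
    (fun f hf => by
      obtain ⟨χ, hχ⟩ := h.ex f hf
      exact ⟨⟨χ, h.isPE f χ hf hχ⟩, hχ⟩)
    (fun f c c' hf hc hc' => Subtype.ext (h.uniq f _ _ hf hc hc'))
    (fun f f' c c' hf hf' hc hc' => h.mul f f' _ _ hf hf' hc hc')
    (fun f hf h1 => h.inj f hf h1)
    (fun f g hf hg hfg => h.pow f g hf hg hfg)
  refine ⟨(peCharEquiv Γ n).symm.toAddMonoidHom.comp κ,
    (peCharEquiv Γ n).symm.injective.comp hκinj, ?_⟩
  intro x f χ hpair hR
  obtain ⟨hf, D, hD, hDf⟩ := hpair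
  have hel : IsKummerElt K F n f := ⟨hf, fun v => ⟨_, (hDf v).symm⟩⟩
  have h1 := hκ x D f ⟨χ, h.isPE f χ hel hR⟩ hD hf hDf hR
  have h2 : peCharEquiv Γ n ((peCharEquiv Γ n).symm (κ x)) = κ x :=
    AddEquiv.apply_symm_apply _ _
  have h3 := coe_peCharEquiv_apply Γ n ((peCharEquiv Γ n).symm (κ x))
  rw [h2] at h3
  show peChar Γ n (((peCharEquiv Γ n).symm (κ x) :
    peHoms Γ ℤ (ZMod n)) : Additive Γ →+ ZMod n) = χ
  rw [← h3, h1]
  rfl

/-- A finitely generated group has only finitely many characters of exponent `n > 0`. -/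
theorem finite_torsionCharsG {G : Type*} [Group G] (hfg : Group.FG G) {n : ℕ} (hn : 0 < n) :
    {χ : G →* ℂˣ | ∀ γ : G, χ γ ^ n = 1}.Finite := by
  obtain ⟨S, hS, hSfin⟩ := Group.fg_iff.mp hfg
  have : NeZero n := ⟨hn.ne'⟩
  have : Finite S := hSfin
  have : Finite (S → rootsOfUnity n ℂ) := Pi.finite
  rw [← Set.finite_coe_iff]
  let Φ : {χ : G →* ℂˣ | ∀ γ : G, χ γ ^ n = 1} → (S → rootsOfUnity n ℂ) :=
    fun χ s => ⟨χ.1 s, (mem_rootsOfUnity _ _).2 (χ.2 s)⟩
  refine Finite.of_injective Φ ?_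
  intro χ χ' h
  apply Subtype.ext
  apply MonoidHom.eq_of_eqOn_dense hS
  intro s hs
  have h2 := congrFun h ⟨s, hs⟩
  exact congrArg Subtype.val h2

/-- A subgroup of finite index of `SL(2, ℤ)` is finitely generated. -/
theorem fg_of_finiteIndex (Γ : Subgroup SL(2, ℤ)) [Γ.FiniteIndex] : Group.FG Γ := by
  have : Group.FG SL(2, ℤ) := fg_SL2Z
  exact Subgroup.fg_of_index_ne_zero Γ

/-- `Hom_pe(Γ, ℤ/n)` is finite for `Γ` of finite index. -/
theorem finite_peHoms_zmod (Γ : Subgroup SL(2, ℤ)) [Γ.FiniteIndex] (n : ℕ) [NeZero n] :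
    Finite (peHoms Γ ℤ (ZMod n)) := by
  have hn : 0 < n := Nat.pos_of_ne_zero (NeZero.ne n)
  have hfin := finite_torsionCharsG (fg_of_finiteIndex Γ) hn
  have : Finite {χ : Γ →* ℂˣ | ∀ γ : Γ, χ γ ^ n = 1} := hfin
  let Φ : peHoms Γ ℤ (ZMod n) → {χ : Γ →* ℂˣ | ∀ γ : Γ, χ γ ^ n = 1} :=
    fun φ => ⟨peChar Γ n (φ : Additive Γ →+ ZMod n), (isPEChar_peChar Γ n φ.2).1⟩
  refine Finite.of_injective Φ ?_
  intro φ ψ h
  apply Subtype.ext
  apply peChar_injective Γ n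
  exact congrArg Subtype.val h

/-- **(J1)**: the `n`-torsion of `Pic⁰(F)` is finite. -/
theorem finite_torsion_of_kummerInjG [Γ.FiniteIndex] (h : KummerInjG K F Γ n R) (hn : 0 < n) :
    Finite (Pic0.torsion K F n) := by
  haveI : NeZero n := ⟨hn.ne'⟩
  obtain ⟨κ, hκ, -⟩ := exists_kummerHomG h hn
  haveI : Finite (peHoms Γ ℤ (ZMod n)) := finite_peHoms_zmod Γ n
  exact Finite.of_injective κ hκ

/-- The Kummer isomorphism of exponent `n`. -/
theorem exists_kummerEquivG [HasPrincipalDivisors K F] (h : KummerInjG K F Γ n R) (hn : 0 < n)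
    (hsurj : ∀ χ : Γ →* ℂˣ, IsPEChar Γ n χ → ∃ f, IsKummerElt K F n f ∧ R f χ) :
    haveI : NeZero n := ⟨hn.ne'⟩
    ∃ κ : Pic0.torsion K F n ≃+ peHoms Γ ℤ (ZMod n),
      ∀ (x : Pic0.torsion K F n) (f : F) (χ : Γ →* ℂˣ),
        IsKummerPair n (x : Pic0 K F) f → R f χ →
        peChar Γ n (κ x : Additive Γ →+ ZMod n) = χ := by
  haveI : NeZero n := ⟨hn.ne'⟩
  obtain ⟨κ, hκinj, hκ⟩ := exists_kummerHomG h hn
  have hsurj' : Function.Surjective κ := by
    intro φ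
    obtain ⟨f, hf, hR⟩ := hsurj (peChar Γ n (φ : Additive Γ →+ ZMod n))
      (isPEChar_peChar Γ n φ.2)
    obtain ⟨x, hx⟩ := exists_isKummerPair_of_dvd hn.ne' hf.1 hf.2
    refine ⟨⟨x, hx.mem_torsion⟩, ?_⟩
    apply Subtype.ext
    apply peChar_injective Γ n
    exact hκ ⟨x, hx.mem_torsion⟩ f _ hx hR
  exact ⟨AddEquiv.ofBijective κ ⟨hκinj, hsurj'⟩, hκ⟩

/-- **Operator compatibility.**  Let `κ` be a Kummer map (characterised as in
`exists_kummerHomG`), `Tpic` an operator on classes, `NT` on functions and `Tcoh` on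
`Hom_pe(Γ, ℤ/n)` such that `NT` maps Kummer functions of `x` to Kummer functions of `Tpic x` and
transforms Kummer characters by `Tcoh`.  Then `κ ∘ Tpic = Tcoh ∘ κ` on the `n`-torsion. -/
theorem kummer_comm (h : KummerInjG K F Γ n R) (hn : 0 < n)
    (κ : haveI : NeZero n := ⟨hn.ne'⟩; Pic0.torsion K F n → peHoms Γ ℤ (ZMod n))
    (hκ : haveI : NeZero n := ⟨hn.ne'⟩; ∀ (x : Pic0.torsion K F n) (f : F) (χ : Γ →* ℂˣ),
        IsKummerPair n (x : Pic0 K F) f → R f χ →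
        peChar Γ n (κ x : Additive Γ →+ ZMod n) = χ)
    (Tpic : Pic0 K F → Pic0 K F) (NT : F → F)
    (Tcoh : haveI : NeZero n := ⟨hn.ne'⟩; peHoms Γ ℤ (ZMod n) → peHoms Γ ℤ (ZMod n))
    (hpair : ∀ (x : Pic0 K F) (f : F), IsKummerPair n x f → IsKummerPair n (Tpic x) (NT f))
    (hchar : haveI : NeZero n := ⟨hn.ne'⟩; ∀ (f : F) (φ : peHoms Γ ℤ (ZMod n)),
        IsKummerElt K F n f → R f (peChar Γ n (φ : Additive Γ →+ ZMod n)) →
        R (NT f) (peChar Γ n (Tcoh φ : Additive Γ →+ ZMod n)))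
    (x : Pic0 K F) (hx : x ∈ Pic0.torsion K F n) (hx' : Tpic x ∈ Pic0.torsion K F n) :
    κ ⟨Tpic x, hx'⟩ = Tcoh (κ ⟨x, hx⟩) := by
  haveI : NeZero n := ⟨hn.ne'⟩
  obtain ⟨f, hf⟩ := exists_isKummerPair hx
  obtain ⟨χ, hχ⟩ := h.ex f hf.isKummerElt
  have h1 := hκ ⟨x, hx⟩ f χ hf hχ
  have h2 : R f (peChar Γ n (κ ⟨x, hx⟩ : Additive Γ →+ ZMod n)) := by rw [h1]; exact hχ
  have h3 := hchar f (κ ⟨x, hx⟩) hf.isKummerElt h2
  have h4 := hκ ⟨Tpic x, hx'⟩ (NT f) _ (hpair x f hf) h3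
  apply Subtype.ext
  exact peChar_injective Γ n h4

/-- **(J2)**: for `F = ℚ̄ · F₀`, a finite `n`-torsion subgroup has finite level: it is fixed
pointwise by `Gal(ℚ̄ / L)` for a finite extension `L / ℚ`. -/
theorem exists_level_torsion (F₀ : IntermediateField ℚ (LaurentSeries ℚ))
    [HasPrincipalDivisors (AlgebraicClosure ℚ) (laurentBaseChange (AlgebraicClosure ℚ) F₀)]
    (n : ℕ)
    (hfin : Finite (Pic0.torsion (AlgebraicClosure ℚ)
      (laurentBaseChange (AlgebraicClosure ℚ) F₀) n)) :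
    ∃ L : IntermediateField ℚ (AlgebraicClosure ℚ), FiniteDimensional ℚ L ∧
      ∀ σ : AlgebraicClosure ℚ ≃ₐ[ℚ] AlgebraicClosure ℚ, (∀ a ∈ L, σ a = a) →
        ∀ z ∈ Pic0.torsion (AlgebraicClosure ℚ) (laurentBaseChange (AlgebraicClosure ℚ) F₀) n,
          σ • z = z :=
  Fermat.Agent.ESJ.Jac.FiniteLevel.exists_level_of_finite F₀ _ (Set.toFinite _)

end Fermat.Agent.G1.Jac
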