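import Mathlib
import Fermat.Agent.G1.Jac.SystemG
import Fermat.Agent.G1.Jac.HeckeG
import Fermat.Agent.G1.HeckeStar1
import Fermat.Agent.G1.HeckeComm1

/-!
# G1 / JAC : equivariance of the Kummer map for the Hecke and diamond operators of `Γ₁(M)`

Let `κ : Pic⁰(F)[n] → Hom_pe(Γ₁(M), ℤ/n)` be a Kummer map for the avatar `mer` (the character
of `κ x` is the Kummer character of any Kummer function of `x`; this is the output of
`Jac.exists_kummerEquivG` / `Jac.exists_kummerHomG` with `R = IsKummerCharG (Gamma1 M) mer n`).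

* `kappa_heckeSystem` (any `Γ`, any Hecke system `a`): if `Tpic` on classes and `NT` on functions
  are compatible on Kummer pairs and `mer (NT f) = ∏ i, mer f ∘ a_i` off a discrete set, then
  `κ ∘ Tpic = (transfer operator of a) ∘ κ`.
* `kappa_TStar` : for the system `tStarRep p σ = {(p 0; 0 1)} ∪ {σ (1 b; 0 p)}` (`σ ∈ Γ₀(M)`,
  lower-right entry `≡ p⁻¹`) — the system of the correspondence `(incl, V_p)` —
  `κ ∘ Tpic = ⟨p⟩⁻¹ T_p ∘ κ`.
* `kappa_single` : for `δ` with `mer (δ f) = mer f ∘ σ`, `σ ∈ Γ₀(M)` with lower-right entry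
  `≡ d`: `κ ∘ Dpic = ⟨d⟩ ∘ κ`.
* `uStar M p = ⟨p⟩⁻¹` (as a total function of `p`), and `hκT_star`, `hκD₂_star`, `hκD₁_id`,
  `hu_star` : the hypotheses `hκT`, `hκD₂`, `hκD₁`, `hu` of `G1.hesAt_of_kappa_rel`
  (`G1/Main.lean`) at a prime `p ∤ M`, for the convention
  `u_T = p⁻¹`, `u₁ = 1`, `u₂ = p⁻¹`, `j = 0`  (`D₁ = id`, `D₂ = ⟨p⟩⁻¹`, `κ ∘ T = ⟨p⟩⁻¹ T_p ∘ κ`).
-/

set_option autoImplicit false

open UpperHalfPlane AlgebraicCurve Filter ModularForm CongruenceSubgroup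
open scoped MatrixGroups OnePoint

noncomputable section

namespace Fermat.Agent.G1.Jac

open Fermat.Agent.ESJ.Jac Fermat.Agent.ESJ.ParHom Fermat.Agent.DS.Hecke1 Fermat.Agent.G1
open Matrix.SpecialLinearGroup

/-! ### Any group, any Hecke system -/

section Abstract

variable {K : Type} {F : Type} [Field K] [Field F] [Algebra K F] {Γ : Subgroup SL(2, ℤ)}
  {mer : F → ℂ → ℂ} {n : ℕ} [NeZero n]

/-- **The Kummer map intertwines a Hecke norm with the transfer operator of its system.** -/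
theorem kappa_heckeSystem (hK : KummerInjG K F Γ n (IsKummerCharG Γ mer n))
    (κ : Pic0.torsion K F n → peHoms Γ ℤ (ZMod n))
    (hκ : ∀ (x : Pic0.torsion K F n) (f : F) (χ : Γ →* ℂˣ),
      IsKummerPair n (x : Pic0 K F) f → IsKummerCharG Γ mer n f χ →
      peChar Γ n (κ x : Additive Γ →+ ZMod n) = χ)
    {ι : Type} [Fintype ι] {a : ι → GL (Fin 2) ℝ} (hT : IsHeckeSystem (jSub Γ) a)
    (ha : ∀ i, HolAct (a i)) (Tpic : Pic0 K F → Pic0 K F) (NT : F → F)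
    (hpair : ∀ (x : Pic0 K F) (f : F), IsKummerPair n x f → IsKummerPair n (Tpic x) (NT f))
    (hnorm : ∀ f : F, f ≠ 0 →
      mer (NT f) =ᶠ[codiscreteWithin U] fun z => ∏ i, mer f (actG (a i) z))
    (x y : Pic0.torsion K F n) (hxy : (y : Pic0 K F) = Tpic (x : Pic0 K F)) :
    (κ y : Additive Γ →+ ZMod n) = hT.hecke (κ x : Additive Γ →+ ZMod n) := by
  have hn : 0 < n := Nat.pos_of_ne_zero (NeZero.ne n)
  have hx' : Tpic (x : Pic0 K F) ∈ Pic0.torsion K F n := hxy ▸ y.2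
  have h := kummer_comm hK hn κ hκ Tpic NT
    (fun φ => ⟨hT.hecke (φ : Additive Γ →+ ZMod n),
      mem_peHoms_iff.mpr (hT.isPEHom_hecke (mem_peHoms_iff.mp φ.2))⟩) hpair
    (fun f φ hf hR => by
      have h1 := isKummerCharG_of_heckeSystem hT ha hR (hnorm f hf.1)
      rw [heckeCharG_peChar] at h1
      exact h1) (x : Pic0 K F) x.2 hx'
  have e : y = ⟨Tpic (x : Pic0 K F), hx'⟩ := Subtype.ext hxy
  rw [e, h]

end Abstract

/-! ### `Γ₁(M)` -/

section Gamma1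

variable {K : Type} {F : Type} [Field K] [Field F] [Algebra K F] {M : ℕ} [NeZero M]
  {mer : F → ℂ → ℂ} {n : ℕ} [NeZero n]

theorem holAct_tStarRep {p : ℕ} (hp : p ≠ 0) (σ : SL(2, ℤ)) (x : OnePoint (ZMod p)) :
    HolAct (tStarRep p σ x) := by
  induction x using OnePoint.rec with
  | infty => exact holAct_heckeDiagMatrix hp
  | coe b => exact (holAct_mapGL σ).mul (holAct_heckeMatrix hp b.val)

/-- `⟨1⟩` is the identity on `Hom(Γ₁(M), A)`. -/
theorem heckeCoh1D_one_eq {A : Type*} [AddCommGroup A] (φ : Additive (Gamma1 M) →+ A) :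
    heckeCoh1D M 1 φ = φ := by
  refine AddMonoidHom.ext fun γ => ?_
  obtain ⟨γ, rfl⟩ := Additive.ofMul.surjective γ
  have hd : lr M (1 : SL(2, ℤ)) = ((1 : (ZMod M)ˣ) : ZMod M) := by
    rw [lr_one, Units.val_one]
  rw [heckeCoh1D_apply M 1 φ γ 1 (Subgroup.one_mem _) hd]
  congr 2
  apply Subtype.ext
  simp

/-- **`κ ∘ T = ⟨p⟩⁻¹ T_p ∘ κ`** for the correspondence with system `tStarRep p σ`. -/
theorem kappa_TStar (hK : KummerInjG K F (Gamma1 M) n (IsKummerCharG (Gamma1 M) mer n))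
    (κ : Pic0.torsion K F n → peHoms (Gamma1 M) ℤ (ZMod n))
    (hκ : ∀ (x : Pic0.torsion K F n) (f : F) (χ : Gamma1 M →* ℂˣ),
      IsKummerPair n (x : Pic0 K F) f → IsKummerCharG (Gamma1 M) mer n f χ →
      peChar (Gamma1 M) n (κ x : Additive (Gamma1 M) →+ ZMod n) = χ)
    {p : ℕ} [NeZero p] (hp : p.Prime) (hpM : ¬ p ∣ M) {σ : SL(2, ℤ)} (hσ : σ ∈ Gamma0 M)
    (hσp : lr M σ * (p : ZMod M) = 1) (Tpic : Pic0 K F → Pic0 K F) (NT : F → F)
    (hpair : ∀ (x : Pic0 K F) (f : F), IsKummerPair n x f → IsKummerPair n (Tpic x) (NT f))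
    (hnorm : ∀ f : F, f ≠ 0 → mer (NT f) =ᶠ[codiscreteWithin U]
      fun z => ∏ x : OnePoint (ZMod p), mer f (actG (tStarRep p σ x) z))
    (x y : Pic0.torsion K F n) (hxy : (y : Pic0 K F) = Tpic (x : Pic0 K F)) :
    κ y = diamond1 M (punit hp hpM)⁻¹ ℤ (ZMod n) (heckeT1 M hp hpM ℤ (ZMod n) (κ x)) := by
  haveI : Fact p.Prime := ⟨hp⟩
  have hb := isHeckeSystem_TStar1 hpM hσ hσp
  have h := kappa_heckeSystem hK κ hκ hb (holAct_tStarRep hp.ne_zero σ) Tpic NT hpair hnorm x y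
    hxy
  apply Subtype.ext
  rw [h, hecke_TStar1 hp hpM hσ hσp hb, HeckeComm1.heckeCoh1T_heckeCoh1D_comm]
  rfl

/-- **`κ ∘ D = ⟨d⟩ ∘ κ`** for a diamond automorphism `δ` realised by `σ ∈ Γ₀(M)` with
lower-right entry `≡ d`. -/
theorem kappa_single (hK : KummerInjG K F (Gamma1 M) n (IsKummerCharG (Gamma1 M) mer n))
    (κ : Pic0.torsion K F n → peHoms (Gamma1 M) ℤ (ZMod n))
    (hκ : ∀ (x : Pic0.torsion K F n) (f : F) (χ : Gamma1 M →* ℂˣ),
      IsKummerPair n (x : Pic0 K F) f → IsKummerCharG (Gamma1 M) mer n f χ →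
      peChar (Gamma1 M) n (κ x : Additive (Gamma1 M) →+ ZMod n) = χ)
    {σ : SL(2, ℤ)} (hσ : σ ∈ Gamma0 M) {d : (ZMod M)ˣ} (hd : lr M σ = d)
    (Dpic : Pic0 K F → Pic0 K F) (δ : F → F)
    (hpair : ∀ (x : Pic0 K F) (f : F), IsKummerPair n x f → IsKummerPair n (Dpic x) (δ f))
    (hδ : ∀ f : F, f ≠ 0 → mer (δ f) =ᶠ[codiscreteWithin U] fun z => mer f (mob σ z))
    (x y : Pic0.torsion K F n) (hxy : (y : Pic0 K F) = Dpic (x : Pic0 K F)) :
    κ y = diamond1 M d ℤ (ZMod n) (κ x) := by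
  have hb := isHeckeSystem_single1 (M := M) hσ
  have hnorm : ∀ f : F, f ≠ 0 → mer (δ f) =ᶠ[codiscreteWithin U]
      fun z => ∏ _i : Unit, mer f (actG (mapGL ℝ σ) z) := by
    intro f hf
    refine (hδ f hf).trans ?_
    filter_upwards [Filter.self_mem_codiscreteWithin U] with z hz
    rw [Finset.univ_unique, Finset.prod_singleton, actG_mapGL σ hz]
  have h := kappa_heckeSystem hK κ hκ hb (fun _ => holAct_mapGL σ) Dpic δ hpair hnorm x y hxy
  apply Subtype.ext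
  rw [h, hecke_single1 hσ hd hb]
  rfl

/-! ### The hypotheses of `hesAt_of_kappa_rel` -/

/-- The unit `⟨p⟩⁻¹` as a total function of `p` (junk value `1` unless `p` is a prime not
dividing `M`). -/
def uStar (M : ℕ) [NeZero M] (p : ℕ) : (ZMod M)ˣ :=
  if h : p.Prime ∧ ¬ p ∣ M then (punit h.1 h.2)⁻¹ else 1

theorem uStar_eq {p : ℕ} (hp : p.Prime) (hpM : ¬ p ∣ M) : uStar M p = (punit hp hpM)⁻¹ :=
  dif_pos ⟨hp, hpM⟩

/-- `hu` of `hesAt_of_kappa_rel` for `u_T = u₂ = uStar M`, `u₁ = 1`, `j = 0`. -/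
theorem hu_star {p : ℕ} (hp : p.Prime) (hpM : ¬ p ∣ M) :
    uStar M p = uStar M p * punit hp hpM ^ (0 : ℤ) ∧
      (1 : (ZMod M)ˣ) = uStar M p * punit hp hpM ^ (2 * (0 : ℤ) + 1) := by
  refine ⟨by rw [zpow_zero, mul_one], ?_⟩
  rw [uStar_eq hp hpM, mul_zero, zero_add, zpow_one, inv_mul_cancel]

/-- `hκT` of `hesAt_of_kappa_rel` at the prime `p`, with `u_T p = uStar M p`. -/
theorem hκT_star (hK : KummerInjG K F (Gamma1 M) n (IsKummerCharG (Gamma1 M) mer n))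
    (κ : Pic0.torsion K F n → peHoms (Gamma1 M) ℤ (ZMod n))
    (hκ : ∀ (x : Pic0.torsion K F n) (f : F) (χ : Gamma1 M →* ℂˣ),
      IsKummerPair n (x : Pic0 K F) f → IsKummerCharG (Gamma1 M) mer n f χ →
      peChar (Gamma1 M) n (κ x : Additive (Gamma1 M) →+ ZMod n) = χ)
    {p : ℕ} [NeZero p] (hp : p.Prime) (hpM : ¬ p ∣ M) {σ : SL(2, ℤ)} (hσ : σ ∈ Gamma0 M)
    (hσp : lr M σ * (p : ZMod M) = 1) (Tpic : Pic0 K F → Pic0 K F) (NT : F → F)
    (hpair : ∀ (x : Pic0 K F) (f : F), IsKummerPair n x f → IsKummerPair n (Tpic x) (NT f))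
    (hnorm : ∀ f : F, f ≠ 0 → mer (NT f) =ᶠ[codiscreteWithin U]
      fun z => ∏ x : OnePoint (ZMod p), mer f (actG (tStarRep p σ x) z)) :
    ∀ x y : Pic0.torsion K F n, (y : Pic0 K F) = Tpic (x : Pic0 K F) →
      κ y = diamond1 M (uStar M p) ℤ (ZMod n) (heckeT1 M hp hpM ℤ (ZMod n) (κ x)) := by
  intro x y hxy
  rw [uStar_eq hp hpM]
  exact kappa_TStar hK κ hκ hp hpM hσ hσp Tpic NT hpair hnorm x y hxy

/-- `hκD₂` of `hesAt_of_kappa_rel` at the prime `p`, with `u₂ p = uStar M p`: `D₂` is induced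
by a diamond automorphism `δ` realised by `σ ∈ Γ₀(M)` with lower-right entry `≡ p⁻¹`. -/
theorem hκD₂_star (hK : KummerInjG K F (Gamma1 M) n (IsKummerCharG (Gamma1 M) mer n))
    (κ : Pic0.torsion K F n → peHoms (Gamma1 M) ℤ (ZMod n))
    (hκ : ∀ (x : Pic0.torsion K F n) (f : F) (χ : Gamma1 M →* ℂˣ),
      IsKummerPair n (x : Pic0 K F) f → IsKummerCharG (Gamma1 M) mer n f χ →
      peChar (Gamma1 M) n (κ x : Additive (Gamma1 M) →+ ZMod n) = χ)
    {p : ℕ} (hp : p.Prime) (hpM : ¬ p ∣ M) {σ : SL(2, ℤ)} (hσ : σ ∈ Gamma0 M)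
    (hσp : lr M σ * (p : ZMod M) = 1) (Dpic : Pic0 K F → Pic0 K F) (δ : F → F)
    (hpair : ∀ (x : Pic0 K F) (f : F), IsKummerPair n x f → IsKummerPair n (Dpic x) (δ f))
    (hδ : ∀ f : F, f ≠ 0 → mer (δ f) =ᶠ[codiscreteWithin U] fun z => mer f (mob σ z)) :
    ∀ x y : Pic0.torsion K F n, (y : Pic0 K F) = Dpic (x : Pic0 K F) →
      κ y = diamond1 M (uStar M p) ℤ (ZMod n) (κ x) := by
  intro x y hxy
  have hd : lr M σ = ((uStar M p : (ZMod M)ˣ) : ZMod M) := by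
    rw [uStar_eq hp hpM]
    refine Units.eq_inv_of_mul_eq_one_left ?_
    rw [coe_punit, mul_comm]
    exact hσp
  exact kappa_single hK κ hκ hσ hd Dpic δ hpair hδ x y hxy

omit [NeZero n] in
/-- `hκD₁` of `hesAt_of_kappa_rel` for `D₁ = id`, `u₁ = 1`. -/
theorem hκD₁_id (κ : Pic0.torsion K F n → peHoms (Gamma1 M) ℤ (ZMod n)) :
    ∀ x y : Pic0.torsion K F n, (y : Pic0 K F) = AddMonoidHom.id (Pic0 K F) (x : Pic0 K F) →
      κ y = diamond1 M 1 ℤ (ZMod n) (κ x) := by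
  intro x y hxy
  have e : y = x := Subtype.ext hxy
  rw [e]
  exact (Subtype.ext (heckeCoh1D_one_eq (κ x : Additive (Gamma1 M) →+ ZMod n))).symm

end Gamma1

end Fermat.Agent.G1.Jac
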