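import Mathlib
import Fermat.Agent.ESJ.Jac.GalOf
import Fermat.Agent.ESJ.Jac.HFin
import Fermat.Agent.ESJ.Jac.DescentField

/-!
# G1 / JAC (abstract): injectivity of the Kummer map and the finiteness `hfin`, for an ARBITRARY
field with a "meromorphic avatar" and an ARBITRARY subgroup `Γ ≤ SL(2, ℤ)`

This is the port of `ESJ/Jac/GalOf.lean` and `ESJ/Jac/HFin.lean` away from `Γ₀(N)`: nothing in
those two files uses more of the analytic dictionary than the calculus below.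

* `MerCalc Γ mer` : the calculus of a map `mer : F → (ℂ → ℂ)` (`F` a field): meromorphic on
  `U`, `Γ`-invariant, multiplicative/additive off a discrete set, faithful, meromorphic at the
  cusps;
* `IsKummerCharAbs Γ mer n f χ` : `χ` is the multiplier of a meromorphic `n`-th root of `mer f`
  (for `Γ = Γ₀(N)`, `mer = merK ι N` this is `ESJ.Jac.IsKummerChar ι N n f χ`, by `Iff.rfl`);
* `GalStmt Γ mer` : every `Γ`-invariant meromorphic function on `U`, meromorphic at the cusps,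
  is `mer G` for some `G : F`;
* `IsKummerCharAbs.mul`, `isKummerCharAbs_pow`, `isKummerCharAbs_one`, `IsKummerCharAbs.npow`,
  `IsKummerCharAbs.unique`, `IsKummerCharAbs.pow_eq_one` : the algebra of Kummer characters;
* `exists_pow_eq_of_kummerChar_one` : **injectivity of the Kummer map** (trivial character ⇒
  `n`-th power), from `GalStmt`;
* `exists_pow_eq_of_kummerChar_one_descent` : the same over `ℚ̄`, for `ℚ̄·F₀` inside `ℂ·F₀`;
* `exists_finset_classes`, `hfin`, `descent_of` : the Kummer elements lie in finitely many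
  classes modulo `n`-th powers; the hypothesis `hfin` of `ESJ.Jac.descent_field`; descent of
  Kummer elements from `ℂ·F₀` to `ℚ̄·F₀`.
-/

set_option autoImplicit false

open UpperHalfPlane Filter
open scoped MatrixGroups Topology

noncomputable section

namespace Fermat.Agent.G1.Jac.InjAbs

open Fermat.Agent.ESJ.Jac Fermat.Agent.Lib.Analysis.NthRoot ModularCurve AlgebraicCurve
open Fermat.Agent.S24

/-- **The calculus of a meromorphic avatar** `mer : F → (ℂ → ℂ)` of a field `F`, for a subgroup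
`Γ ≤ SL(2, ℤ)`. -/
structure MerCalc (Γ : Subgroup SL(2, ℤ)) {F : Type*} [Field F] (mer : F → ℂ → ℂ) : Prop where
  meromorphicOn : ∀ f : F, MeromorphicOn (mer f) U
  mob : ∀ (f : F) (γ : SL(2, ℤ)), γ ∈ Γ → ∀ z ∈ U, mer f (mob γ z) = mer f z
  one : mer 1 =ᶠ[codiscreteWithin U] fun _ => (1 : ℂ)
  mul : ∀ f g : F, mer (f * g) =ᶠ[codiscreteWithin U] fun z => mer f z * mer g z
  add : ∀ f g : F, mer (f + g) =ᶠ[codiscreteWithin U] fun z => mer f z + mer g z
  eq_zero_iff : ∀ f : F, mer f =ᶠ[codiscreteWithin U] (fun _ => (0 : ℂ)) ↔ f = 0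
  merAtCusps : ∀ f : F, MerAtCusps (mer f)

/-- `χ` is the Kummer character of exponent `n` of `f` (with respect to `Γ` and `mer`): some
meromorphic `n`-th root `h` of `mer f` on `U` satisfies `h (γ z) = χ γ * h z` for `γ ∈ Γ`. -/
def IsKummerCharAbs (Γ : Subgroup SL(2, ℤ)) {F : Type*} (mer : F → ℂ → ℂ) (n : ℕ) (f : F)
    (χ : Γ →* ℂˣ) : Prop :=
  ∃ h : ℂ → ℂ, IsRootOn n (mer f) h U ∧ HasMultiplier Γ h χ

/-- **(Gal)**: every `Γ`-invariant meromorphic function on `U` which is meromorphic at the cusps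
is the function of an element of `F`. -/
def GalStmt (Γ : Subgroup SL(2, ℤ)) {F : Type*} (mer : F → ℂ → ℂ) : Prop :=
  ∀ φ : ℂ → ℂ, MeromorphicOn φ U → (∀ γ ∈ Γ, ∀ z ∈ U, φ (mob γ z) = φ z) → MerAtCusps φ →
    ∃ G : F, mer G =ᶠ[codiscreteWithin U] φ

/-- For `Γ₀(N)` and `merK` the abstract Kummer character is the Kummer character of `ESJ/Jac`. -/
theorem isKummerCharAbs_iff_gamma0 {K : Type} [Field K] [Algebra ℚ K] (ι : K →+* ℂ) (N n : ℕ)
    [NeZero N] (f : FNK K N) (χ : CongruenceSubgroup.Gamma0 N →* ℂˣ) :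
    IsKummerCharAbs (CongruenceSubgroup.Gamma0 N) (merK ι N) n f χ ↔ IsKummerChar ι N n f χ :=
  Iff.rfl

/-- **Sanity check / the `Γ₀(N)` instance**: the analytic dictionary of `ESJ/Dict` gives the
calculus for `Γ₀(N)` and `merK`. -/
theorem merCalc_of_isDict {K : Type} [Field K] [Algebra ℚ K] {ι : K →+* ℂ} {N : ℕ} [NeZero N]
    (hD : Fermat.Agent.ESJ.Dict.IsDict ι N) :
    MerCalc (CongruenceSubgroup.Gamma0 N) (merK ι N) where
  meromorphicOn := hD.meromorphicOn_merK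
  mob := hD.merK_mob
  one := GalOf.merK_one hD
  mul := hD.merK_mul
  add := hD.merK_add
  eq_zero_iff := hD.merK_eq_zero_iff
  merAtCusps := hD.merAtCusps_merK

/-! ### The calculus -/

namespace MerCalc

variable {Γ : Subgroup SL(2, ℤ)} {F : Type*} [Field F] {mer : F → ℂ → ℂ}

theorem zero (hC : MerCalc Γ mer) : mer 0 =ᶠ[codiscreteWithin U] fun _ => (0 : ℂ) :=
  (hC.eq_zero_iff 0).2 rfl

theorem pow (hC : MerCalc Γ mer) (f : F) (n : ℕ) :
    mer (f ^ n) =ᶠ[codiscreteWithin U] fun z => mer f z ^ n := by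
  induction n with
  | zero =>
    filter_upwards [hC.one] with z hz
    rw [pow_zero, hz, pow_zero]
  | succ n ih =>
    rw [pow_succ]
    filter_upwards [hC.mul (f ^ n) f, ih] with z hz hz'
    rw [hz, hz', pow_succ]

theorem neg (hC : MerCalc Γ mer) (f : F) :
    mer (-f) =ᶠ[codiscreteWithin U] fun z => -mer f z := by
  have h1 := hC.add f (-f)
  rw [add_neg_cancel] at h1
  filter_upwards [h1, hC.zero] with z hz1 hz2
  rw [hz2] at hz1
  exact eq_neg_of_add_eq_zero_right hz1.symm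

/-- `mer` is injective up to equality off a discrete set. -/
theorem injective (hC : MerCalc Γ mer) {f g : F}
    (h : mer f =ᶠ[codiscreteWithin U] mer g) : f = g := by
  rw [← sub_eq_zero, ← hC.eq_zero_iff, sub_eq_add_neg]
  refine (hC.add f (-g)).trans ?_
  filter_upwards [hC.neg g, h] with z hz1 hz2
  rw [hz1, hz2, add_neg_cancel]

/-- The orders of the meromorphic function of `f ≠ 0` are finite. -/
theorem order_ne_top (hC : MerCalc Γ mer) {f : F} (hf : f ≠ 0) :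
    ∀ z ∈ U, meromorphicOrderAt (mer f) z ≠ ⊤ := by
  by_contra hcon
  push Not at hcon
  obtain ⟨z₀, hz₀, hz₀top⟩ := hcon
  have hconn : IsConnected U := ⟨⟨Complex.I, I_mem_U⟩, isPreconnected_U⟩
  have hall : ∀ z ∈ U, meromorphicOrderAt (mer f) z = ⊤ := by
    intro z hz
    by_contra hne
    exact ((hC.meromorphicOn f).exists_meromorphicOrderAt_ne_top_iff_forall hconn).1
      ⟨⟨z, hz⟩, hne⟩ ⟨z₀, hz₀⟩ hz₀top
  apply hf
  rw [← hC.eq_zero_iff]
  exact GalOf.codiscreteWithin_of_eventuallyEq_nhdsNE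
    (fun z hz => meromorphicOrderAt_eq_top_iff.1 (hall z hz))

end MerCalc

/-! ### The algebra of Kummer characters -/

section Char

variable {Γ : Subgroup SL(2, ℤ)} {F : Type*} [Field F] {mer : F → ℂ → ℂ}

/-- Kummer characters are multiplicative. -/
theorem IsKummerCharAbs.mul (hC : MerCalc Γ mer) {n : ℕ} (hn : 0 < n) {f f' : F}
    {χ χ' : Γ →* ℂˣ} (h : IsKummerCharAbs Γ mer n f χ) (h' : IsKummerCharAbs Γ mer n f' χ') :
    IsKummerCharAbs Γ mer n (f * f') (χ * χ') := by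
  obtain ⟨h₁, hr₁, hm₁⟩ := h
  obtain ⟨h₂, hr₂, hm₂⟩ := h'
  obtain ⟨h₃, hr₃, hm₃⟩ := exists_isRootOn_mul Γ hn.ne' hr₁ hr₂
  refine ⟨h₃, hr₃.congr (fun z hz => ?_), hm₃ χ χ' hm₁ hm₂⟩
  exact (GalOf.eventuallyEq_nhdsNE_of_codiscreteWithin (hC.mul f f') hz).symm

/-- The Kummer character of an `n`-th power is trivial. -/
theorem isKummerCharAbs_pow (hC : MerCalc Γ mer) {n : ℕ} (hn : 0 < n) (g : F) :
    IsKummerCharAbs Γ mer n (g ^ n) 1 := by
  obtain ⟨h, hr, hm⟩ := exists_isRootOn_pow Γ hn.ne' (hC.meromorphicOn g)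
  refine ⟨h, hr.congr (fun z hz => ?_), hm (fun γ hγ z hz => hC.mob g γ hγ z hz)⟩
  exact (GalOf.eventuallyEq_nhdsNE_of_codiscreteWithin (hC.pow g n) hz).symm

/-- The Kummer character of `1` is trivial. -/
theorem isKummerCharAbs_one (hC : MerCalc Γ mer) {n : ℕ} (hn : 0 < n) :
    IsKummerCharAbs Γ mer n (1 : F) 1 := by
  have h := isKummerCharAbs_pow hC hn (1 : F)
  rwa [one_pow] at h

/-- Kummer characters of powers. -/
theorem IsKummerCharAbs.npow (hC : MerCalc Γ mer) {n : ℕ} (hn : 0 < n) {f : F}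
    {χ : Γ →* ℂˣ} (h : IsKummerCharAbs Γ mer n f χ) (m : ℕ) :
    IsKummerCharAbs Γ mer n (f ^ m) (χ ^ m) := by
  induction m with
  | zero =>
    rw [pow_zero f, pow_zero χ]
    exact isKummerCharAbs_one hC hn
  | succ m ih =>
    rw [pow_succ f m, pow_succ χ m]
    exact IsKummerCharAbs.mul hC hn ih h

/-- The Kummer character of `f ≠ 0` is unique. -/
theorem IsKummerCharAbs.unique (hC : MerCalc Γ mer) {n : ℕ} (hn : 0 < n) {f : F} (hf : f ≠ 0)
    {χ χ' : Γ →* ℂˣ} (h : IsKummerCharAbs Γ mer n f χ) (h' : IsKummerCharAbs Γ mer n f χ') :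
    χ = χ' := by
  obtain ⟨h₁, hr₁, hm₁⟩ := h
  obtain ⟨h₂, hr₂, hm₂⟩ := h'
  have hfin := hC.order_ne_top hf
  exact HasMultiplier.unique hn.ne' hfin hr₂
    (HasMultiplier.of_isRootOn hn.ne' hfin hr₁ hr₂ hm₁) hm₂

/-- The Kummer character of `f ≠ 0` has exponent `n`. -/
theorem IsKummerCharAbs.pow_eq_one (hC : MerCalc Γ mer) {n : ℕ} (hn : 0 < n) {f : F}
    (hf : f ≠ 0) {χ : Γ →* ℂˣ} (h : IsKummerCharAbs Γ mer n f χ) (γ : Γ) : χ γ ^ n = 1 := by
  obtain ⟨h₁, hr, hm⟩ := h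
  exact Kummer.multiplier_pow_eq_one hn.ne' (hC.order_ne_top hf) hr
    (fun γ hγ z hz => hC.mob f γ hγ z hz) hm γ

/-- Existence of the Kummer character, from the divisibility of the orders on `U`. -/
theorem exists_isKummerCharAbs_of_dvd (hC : MerCalc Γ mer) {n : ℕ} (hn : 0 < n) {f : F}
    (hf : f ≠ 0)
    (hdiv : ∀ z : ℂ, 0 < z.im → (n : ℤ) ∣ (meromorphicOrderAt (mer f) z).untop₀) :
    ∃ χ : Γ →* ℂˣ, IsKummerCharAbs Γ mer n f χ := by
  have hfin := hC.order_ne_top hf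
  obtain ⟨h, hh⟩ := exists_isRootOn_upperHalfPlane hn.ne' (hC.meromorphicOn f)
    (fun z hz => hfin z hz) hdiv
  obtain ⟨χ, hχ, -⟩ := exists_multiplier Γ hn.ne' hfin hh
    (fun γ hγ z hz => hC.mob f γ hγ z hz)
  exact ⟨χ, h, hh, hχ⟩

end Char

/-! ### Injectivity of the Kummer map -/

section Inj

variable {Γ : Subgroup SL(2, ℤ)} {F : Type*} [Field F] {mer : F → ℂ → ℂ}

/-- **Injectivity of the Kummer map**: an element with trivial Kummer character of exponent `n`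
is an `n`-th power. -/
theorem exists_pow_eq_of_kummerChar_one (hC : MerCalc Γ mer) (hG : GalStmt Γ mer) {n : ℕ}
    (hn : 0 < n) {G : F} (h : IsKummerCharAbs Γ mer n G 1) : ∃ g : F, G = g ^ n := by
  obtain ⟨r, hr, hmult⟩ := h
  have hn0 : n ≠ 0 := hn.ne'
  -- the root is invariant
  have hinv : ∀ γ ∈ Γ, ∀ z ∈ U, r (mob γ z) = r z := by
    intro γ hγ z hz
    have := hmult ⟨γ, hγ⟩ z hz
    simpa using this
  -- the root is meromorphic at the cusps
  have hc : MerAtCusps r := by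
    intro g
    obtain ⟨Y, M, -, hY0, -, hYM⟩ := GalCore.merAtCusps_exists_ge (hC.merAtCusps G) g 0 0
    have hsub : ∀ z : ℂ, Y < z.im → z ∈ U := fun z hz => lt_of_le_of_lt hY0 hz
    have hroot : IsRootOn n (fun w => mer G (mob g w)) (fun w => r (mob g w))
        {z : ℂ | Y < z.im} := by
      refine ⟨fun z hz => ?_, fun z hz => ?_⟩
      · exact (hr.1 (mob_mem_U g (hsub z hz))).comp_analyticAt (analyticAt_mob g (hsub z hz))
      · exact (tendsto_mob_nhdsNE g (hsub z hz)).eventually (hr.2 _ (mob_mem_U g (hsub z hz)))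
    exact ⟨Y, M / n, Fermat.Agent.ESJ.Jac.IsRootOn.exp_growth hn0 hroot
      (fun z hz => (hYM z hz).1) (fun z hz => (hYM z hz).2)⟩
  obtain ⟨g₀, hg₀⟩ := hG r hr.1.meromorphicOn hinv hc
  refine ⟨g₀, ?_⟩
  apply hC.injective
  refine EventuallyEq.trans ?_ (hC.pow g₀ n).symm
  have h1 : (r ^ n) =ᶠ[codiscreteWithin U] mer G :=
    GalOf.codiscreteWithin_of_eventuallyEq_nhdsNE hr.2
  filter_upwards [h1, hg₀] with z hz1 hz2
  rw [hz2, ← hz1]
  rfl

/-- **Injectivity of the Kummer map over `ℚ̄`**, for `ℚ̄·F₀ ⊆ ℂ·F₀` (`F₀` any field of rational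
`q`-expansions): `merC` is the avatar over `ℂ` (with `MerCalc` and `GalStmt`), `merQ` the avatar
over `ℚ̄`, and `hbc` says that the coefficientwise base change `ℚ̄·F₀ → ℂ·F₀` is compatible with
them. -/
theorem exists_pow_eq_of_kummerChar_one_descent (F₀ : IntermediateField ℚ (LaurentSeries ℚ))
    {merC : ↥(laurentBaseChange ℂ F₀) → ℂ → ℂ} {merQ : ↥(laurentBaseChange KQ F₀) → ℂ → ℂ}
    (hC : MerCalc Γ merC) (hG : GalStmt Γ merC)
    (hbc : ∀ f : ↥(laurentBaseChange KQ F₀), ∃ f' : ↥(laurentBaseChange ℂ F₀),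
      ((f' : ↥(laurentBaseChange ℂ F₀)) : LaurentSeries ℂ) =
          coeffMap iotaK ((f : ↥(laurentBaseChange KQ F₀)) : LaurentSeries KQ) ∧
        merC f' =ᶠ[codiscreteWithin U] merQ f)
    {n : ℕ} (hn : 0 < n) {f : ↥(laurentBaseChange KQ F₀)} (h : IsKummerCharAbs Γ merQ n f 1) :
    ∃ g : ↥(laurentBaseChange KQ F₀), f = g ^ n := by
  obtain ⟨f', hf'coe, hf'mer⟩ := hbc f
  obtain ⟨r, hr, hmult⟩ := h
  have hK : IsKummerCharAbs Γ merC n f' 1 :=
    ⟨r, hr.congr (fun z hz => (GalOf.eventuallyEq_nhdsNE_of_codiscreteWithin hf'mer hz).symm),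
      hmult⟩
  obtain ⟨g', hg'⟩ := exists_pow_eq_of_kummerChar_one hC hG hn hK
  have h5 : ((g' : ↥(laurentBaseChange ℂ F₀)) : LaurentSeries ℂ) ^ n =
      coeffMap iotaK ((f : ↥(laurentBaseChange KQ F₀)) : LaurentSeries KQ) := by
    rw [← hf'coe, hg']
    rfl
  obtain ⟨y₀, hy₀⟩ := Fermat.Agent.Lib.LaurentDescent.exists_coeffMap_eq_of_pow iotaK hn _ _ h5
  have hmem : y₀ ∈ laurentBaseChange KQ F₀ :=
    Fermat.Agent.Lib.LaurentDescent.mem_laurentBaseChange_of_coeffMap_mem iotaK _ y₀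
      (by rw [hy₀]; exact g'.2)
  refine ⟨⟨y₀, hmem⟩, ?_⟩
  apply Subtype.ext
  apply LevelOneInv.coeffMap_injective iotaK
  show coeffMap iotaK (f : LaurentSeries KQ) = coeffMap iotaK (y₀ ^ n)
  rw [map_pow, hy₀, h5]

end Inj

/-! ### The finiteness statement `hfin` and descent of Kummer elements -/

section HFin

variable {Γ : Subgroup SL(2, ℤ)}

/-- **JAC-HFIN, abstract form**: if `Γ` is finitely generated, Kummer elements have Kummer
characters (`hex`) and the Kummer map is injective (`GalStmt`), there is a finite set `S ⊆ F`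
such that EVERY Kummer element of exponent `n` of `F` is of the form `c ^ n * s` with `s ∈ S`,
`c ≠ 0`. -/
theorem exists_finset_classes {K F : Type*} [Field K] [Field F] [Algebra K F]
    {mer : F → ℂ → ℂ} (hC : MerCalc Γ mer) (hG : GalStmt Γ mer) (hfg : Group.FG Γ) {n : ℕ}
    (hn : 0 < n)
    (hex : ∀ G : F, IsKummerElt K F n G → ∃ χ : Γ →* ℂˣ, IsKummerCharAbs Γ mer n G χ) :
    ∃ S : Finset F, ∀ G : F, IsKummerElt K F n G →
      ∃ s ∈ S, ∃ c : F, c ≠ 0 ∧ G = c ^ n * s := by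
  classical
  -- the characters which occur
  set C : Set (Γ →* ℂˣ) := {χ | ∃ s : F, IsKummerElt K F n s ∧ IsKummerCharAbs Γ mer n s χ}
    with hCdef
  have hCfin : C.Finite := by
    refine (HFin.finite_torsionChars hfg hn).subset ?_
    rintro χ ⟨s, hs, hχ⟩
    exact fun γ => hχ.pow_eq_one hC hn hs.1 γ
  have hchoice : ∀ χ : C, ∃ s : F, IsKummerElt K F n s ∧ IsKummerCharAbs Γ mer n s χ.1 :=
    fun χ => χ.2
  choose rep hrepK hrepχ using hchoice
  have : Fintype C := hCfin.fintype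
  refine ⟨Finset.univ.image rep, fun G hGK => ?_⟩
  obtain ⟨χ, hχ⟩ := hex G hGK
  have hχC : χ ∈ C := ⟨G, hGK, hχ⟩
  set s := rep ⟨χ, hχC⟩ with hs
  have hsK : IsKummerElt K F n s := hrepK ⟨χ, hχC⟩
  have hsχ : IsKummerCharAbs Γ mer n s χ := hrepχ ⟨χ, hχC⟩
  have hs0 : s ≠ 0 := hsK.1
  refine ⟨s, Finset.mem_image.2 ⟨⟨χ, hχC⟩, Finset.mem_univ _, rfl⟩, ?_⟩
  -- `G * s ^ (n - 1)` has trivial Kummer character
  have hχn : χ ^ n = 1 := by
    ext γ
    have := hχ.pow_eq_one hC hn hGK.1 γ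
    simp [this]
  have h1 : IsKummerCharAbs Γ mer n (G * s ^ (n - 1)) 1 := by
    have h2 := IsKummerCharAbs.mul hC hn hχ (hsχ.npow hC hn (n - 1))
    have h3 : χ * χ ^ (n - 1) = 1 := by
      rw [← pow_succ' χ (n - 1), Nat.sub_add_cancel hn, hχn]
    rwa [h3] at h2
  obtain ⟨g, hg⟩ := exists_pow_eq_of_kummerChar_one hC hG hn h1
  have hg0 : g ≠ 0 := by
    intro h0
    rw [h0, zero_pow hn.ne'] at hg
    exact mul_ne_zero hGK.1 (pow_ne_zero _ hs0) hg
  refine ⟨g / s, div_ne_zero hg0 hs0, ?_⟩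
  have h4 : s ^ n = s ^ (n - 1) * s := by
    rw [← pow_succ, Nat.sub_add_cancel hn]
  rw [div_pow, ← hg, h4]
  field_simp

/-- **JAC-HFIN** for `ℂ·F₀`: the coefficientwise `Aut(ℂ/ℚ)`-translates of a Kummer element lie
in finitely many classes modulo `n`-th powers (the hypothesis `hfin` of
`ESJ.Jac.descent_field`). -/
theorem hfin (F₀ : IntermediateField ℚ (LaurentSeries ℚ))
    {mer : ↥(laurentBaseChange ℂ F₀) → ℂ → ℂ} (hC : MerCalc Γ mer) (hG : GalStmt Γ mer)
    (hfg : Group.FG Γ) {n : ℕ} (hn : 0 < n)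
    (hex : ∀ G : ↥(laurentBaseChange ℂ F₀), IsKummerElt ℂ ↥(laurentBaseChange ℂ F₀) n G →
      ∃ χ : Γ →* ℂˣ, IsKummerCharAbs Γ mer n G χ)
    (G : ↥(laurentBaseChange ℂ F₀)) (hGK : IsKummerElt ℂ ↥(laurentBaseChange ℂ F₀) n G) :
    ∃ S : Finset ↥(laurentBaseChange ℂ F₀), ∀ σ : ℂ ≃ₐ[ℚ] ℂ, ∃ s ∈ S,
      ∃ c : ↥(laurentBaseChange ℂ F₀), c ≠ 0 ∧ arithmeticGalois F₀ σ • G = c ^ n * s := by
  obtain ⟨S, hS⟩ := exists_finset_classes (K := ℂ) hC hG hfg hn hex
  exact ⟨S, fun σ => hS _ (HFin.isKummerElt_semilinear_smul _ hGK)⟩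

/-- **Descent of Kummer elements** for `ℂ·F₀` (`F₀` any field of rational `q`-expansions with an
element `j₀` of non-zero `q`-order over which `ℂ·F₀` is finite): every Kummer element of
exponent `n` of `ℂ·F₀` is, up to an `n`-th power, the coefficientwise image of an element of
`ℚ̄·F₀`. -/
theorem descent_of (F₀ : IntermediateField ℚ (LaurentSeries ℚ)) (j₀ : F₀)
    (hj₀ : (j₀ : LaurentSeries ℚ).order ≠ 0)
    [FiniteDimensional (IntermediateField.adjoin ℂ {baseElt F₀ ℂ j₀}) (laurentBaseChange ℂ F₀)]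
    {mer : ↥(laurentBaseChange ℂ F₀) → ℂ → ℂ} (hC : MerCalc Γ mer) (hG : GalStmt Γ mer)
    (hfg : Group.FG Γ) {n : ℕ} (hn : 0 < n)
    (hex : ∀ G : ↥(laurentBaseChange ℂ F₀), IsKummerElt ℂ ↥(laurentBaseChange ℂ F₀) n G →
      ∃ χ : Γ →* ℂˣ, IsKummerCharAbs Γ mer n G χ)
    (G : ↥(laurentBaseChange ℂ F₀)) (hGK : IsKummerElt ℂ ↥(laurentBaseChange ℂ F₀) n G) :
    ∃ x : ↥(laurentBaseChange ℂ F₀), x ≠ 0 ∧ ∃ f : ↥(laurentBaseChange KQ F₀),
      ((x ^ n * G : ↥(laurentBaseChange ℂ F₀)) : LaurentSeries ℂ)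
        = coeffMap iotaK (f : LaurentSeries KQ) :=
  descent_field F₀ j₀ hj₀ hn G hGK.1 (hfin F₀ hC hG hfg hn hex G hGK)

end HFin

end Fermat.Agent.G1.Jac.InjAbs
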