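import Mathlib
import Fermat.Agent.G1.Jac.Defs
import Fermat.Agent.G1.Jac.SystemG
import Fermat.Agent.G1.Jac.InjAbs

/-!
# G1 / JAC (P3): injectivity of the Kummer map and the finiteness `hfin`, over the abstract
dictionary `MerDict ι Γ mer`

Port of `ESJ/Jac/GalOf.lean` (second half), `ESJ/Jac/SurjC.isKummerChar_bc_iff` and
`ESJ/Jac/HFin.lean` to the vocabulary of `G1/Jac/Defs.lean` (an arbitrary function field `F`, an
arbitrary subgroup `Γ ≤ SL(2, ℤ)`, an arbitrary meromorphic avatar `mer`).  The proofs are in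
`G1/Jac/InjAbs.lean` (which needs only the "calculus" part of the dictionary); this file restates
them with the names of the JAC1 port map.

* `MerDict.merCalc` : a dictionary gives the calculus `InjAbs.MerCalc`;
* `exists_pow_eq_of_isKummerCharG_one_complex` : injectivity of the Kummer map, given `MerFull`;
* `isKummerCharG_congr`, `isKummerCharG_bc` : the Kummer character does not see `MerBc`;
* `exists_pow_eq_of_isKummerCharG_one` : injectivity of the Kummer map over `ℚ̄`;
* `exists_isKummerCharG_of_dvd_pts` : existence of the Kummer character from the point criterion;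
* `exists_finset_classesG`, `hfinG` : finitely many classes of Kummer elements modulo `n`-th
  powers; the hypothesis `hfin` of `ESJ.Jac.descent_field`;
* `descentG` : every Kummer element of `ℂ·F₀` is, up to an `n`-th power, defined over `ℚ̄`.
-/

set_option autoImplicit false

open UpperHalfPlane Filter AlgebraicCurve ModularCurve
open scoped MatrixGroups Topology

noncomputable section

namespace Fermat.Agent.G1.Jac

open Fermat.Agent.ESJ.Jac Fermat.Agent.S24

section Calc

variable {K : Type} [Field K] [Algebra ℚ K] {ι : K →+* ℂ} {F : Type} [Field F] [Algebra K F]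
  {Γ : Subgroup SL(2, ℤ)} {mer : F → ℂ → ℂ}

/-- A dictionary gives the calculus of `G1/Jac/InjAbs.lean`. -/
theorem MerDict.merCalc (hD : MerDict ι Γ mer) : InjAbs.MerCalc Γ mer where
  meromorphicOn := hD.meromorphicOn_mer
  mob := hD.mer_mob
  one := by
    have h := hD.mer_algebraMap 1
    rw [map_one] at h
    filter_upwards [h] with z hz
    rw [hz, map_one]
  mul := hD.mer_mul
  add := hD.mer_add
  eq_zero_iff := hD.mer_eq_zero_iff
  merAtCusps := hD.merAtCusps_mer

omit [Field F] in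
/-- `IsKummerCharG` is the abstract Kummer character of `InjAbs`. -/
theorem isKummerCharG_iff_abs (n : ℕ) (f : F) (χ : Γ →* ℂˣ) :
    IsKummerCharG Γ mer n f χ ↔ InjAbs.IsKummerCharAbs Γ mer n f χ :=
  Iff.rfl

/-- **Existence of the Kummer character from the point criterion**: if `n` divides the orders
of `mer f` at all points of the upper half plane, `f` has a Kummer character of exponent `n`. -/
theorem exists_isKummerCharG_of_dvd_pts (hD : MerDict ι Γ mer) {n : ℕ} (hn : 0 < n) {f : F}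
    (hf : f ≠ 0)
    (hdiv : ∀ τ : ℍ, (n : ℤ) ∣ (meromorphicOrderAt (mer f) (τ : ℂ)).untop₀) :
    ∃ χ : Γ →* ℂˣ, IsKummerCharG Γ mer n f χ :=
  InjAbs.exists_isKummerCharAbs_of_dvd hD.merCalc hn hf (fun z hz => hdiv ⟨z, hz⟩)

end Calc

/-! ### Injectivity of the Kummer map -/

section Inj

variable {Γ : Subgroup SL(2, ℤ)}

/-- **Injectivity of the Kummer map over `ℂ`**: an element with trivial Kummer character of
exponent `n` is an `n`-th power. -/
theorem exists_pow_eq_of_isKummerCharG_one_complex {F : Type} [Field F] [Algebra ℂ F]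
    {merC : F → ℂ → ℂ} (hD : MerDict (RingHom.id ℂ) Γ merC) (hfull : MerFull Γ merC) {n : ℕ}
    (hn : 0 < n) {G : F} (h : IsKummerCharG Γ merC n G 1) : ∃ g : F, G = g ^ n :=
  InjAbs.exists_pow_eq_of_kummerChar_one hD.merCalc hfull hn h

/-- Elements with the same avatar (off a discrete set) have the same Kummer characters. -/
theorem isKummerCharG_congr {F F' : Type} {mer : F → ℂ → ℂ} {mer' : F' → ℂ → ℂ} {f : F}
    {f' : F'} (h : mer' f' =ᶠ[codiscreteWithin U] mer f) (n : ℕ) (χ : Γ →* ℂˣ) :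
    IsKummerCharG Γ mer' n f' χ ↔ IsKummerCharG Γ mer n f χ := by
  constructor
  · rintro ⟨r, hr, hm⟩
    exact ⟨r, hr.congr (fun z hz => GalOf.eventuallyEq_nhdsNE_of_codiscreteWithin h hz), hm⟩
  · rintro ⟨r, hr, hm⟩
    exact ⟨r, hr.congr (fun z hz => (GalOf.eventuallyEq_nhdsNE_of_codiscreteWithin h hz).symm),
      hm⟩

/-- **The Kummer character does not see the base change `ℚ̄ → ℂ`**: if `f'` is the coefficientwise
image of `f`, then `f'` (over `ℂ`) and `f` (over `ℚ̄`) have the same Kummer characters. -/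
theorem isKummerCharG_bc {F₀ : IntermediateField ℚ (LaurentSeries ℚ)}
    {merQ : ↥(laurentBaseChange KQ F₀) → ℂ → ℂ} {merC : ↥(laurentBaseChange ℂ F₀) → ℂ → ℂ}
    (hbc : MerBc F₀ merQ merC) {f : ↥(laurentBaseChange KQ F₀)}
    {f' : ↥(laurentBaseChange ℂ F₀)}
    (hf' : ((f' : ↥(laurentBaseChange ℂ F₀)) : LaurentSeries ℂ) =
      coeffMap iotaK ((f : ↥(laurentBaseChange KQ F₀)) : LaurentSeries KQ))
    (n : ℕ) (χ : Γ →* ℂˣ) :
    IsKummerCharG Γ merC n f' χ ↔ IsKummerCharG Γ merQ n f χ := by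
  obtain ⟨f'', h1, h2⟩ := hbc f
  have e : f' = f'' := Subtype.ext (hf'.trans h1.symm)
  rw [e]
  exact isKummerCharG_congr h2 n χ

/-- **Injectivity of the Kummer map over `ℚ̄`**: an element of `ℚ̄·F₀` with trivial Kummer
character of exponent `n` is an `n`-th power in `ℚ̄·F₀`. -/
theorem exists_pow_eq_of_isKummerCharG_one (F₀ : IntermediateField ℚ (LaurentSeries ℚ))
    {merQ : ↥(laurentBaseChange KQ F₀) → ℂ → ℂ} {merC : ↥(laurentBaseChange ℂ F₀) → ℂ → ℂ}
    (hDC : MerDict (RingHom.id ℂ) Γ merC) (hfull : MerFull Γ merC) (hbc : MerBc F₀ merQ merC)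
    {n : ℕ} (hn : 0 < n) {f : ↥(laurentBaseChange KQ F₀)} (h : IsKummerCharG Γ merQ n f 1) :
    ∃ g : ↥(laurentBaseChange KQ F₀), f = g ^ n :=
  InjAbs.exists_pow_eq_of_kummerChar_one_descent F₀ hDC.merCalc hfull hbc hn h

end Inj

/-! ### The finiteness statement and descent of Kummer elements -/

section HFin

variable {Γ : Subgroup SL(2, ℤ)}

/-- **JAC-HFIN, general form**: there is a finite set `S ⊆ F` such that EVERY Kummer element of
exponent `n` of `F` is of the form `c ^ n * s` with `s ∈ S`, `c ≠ 0`.  (The regularity hypothesis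
is not used; it is kept to match the port map.) -/
theorem exists_finset_classesG {F : Type} [Field F] [Algebra ℂ F] {merC : F → ℂ → ℂ}
    (hDC : MerDict (RingHom.id ℂ) Γ merC) (hfull : MerFull Γ merC) (_hreg : IsReg Γ)
    [Γ.FiniteIndex] {n : ℕ} (hn : 0 < n) :
    ∃ S : Finset F, ∀ G : F, IsKummerElt ℂ F n G → ∃ s ∈ S, ∃ c : F, c ≠ 0 ∧ G = c ^ n * s :=
  InjAbs.exists_finset_classes (K := ℂ) hDC.merCalc hfull (fg_of_finiteIndex Γ) hn
    (fun G hG => exists_isKummerCharG_of_dvd_pts hDC hn hG.1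
      ((hDC.forall_dvd_ord_iff n G hG.1).1 hG.2).1)

/-- **JAC-HFIN** for `ℂ·F₀`: the coefficientwise `Aut(ℂ/ℚ)`-translates of a Kummer element lie
in finitely many classes modulo `n`-th powers — the hypothesis `hfin` of
`ESJ.Jac.descent_field`. -/
theorem hfinG (F₀ : IntermediateField ℚ (LaurentSeries ℚ))
    {merC : ↥(laurentBaseChange ℂ F₀) → ℂ → ℂ} (hDC : MerDict (RingHom.id ℂ) Γ merC)
    (hfull : MerFull Γ merC) (hreg : IsReg Γ) [Γ.FiniteIndex] {n : ℕ} (hn : 0 < n) :
    ∀ G : ↥(laurentBaseChange ℂ F₀), IsKummerElt ℂ ↥(laurentBaseChange ℂ F₀) n G →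
      ∃ S : Finset ↥(laurentBaseChange ℂ F₀), ∀ σ : ℂ ≃ₐ[ℚ] ℂ, ∃ s ∈ S,
        ∃ c : ↥(laurentBaseChange ℂ F₀), c ≠ 0 ∧ arithmeticGalois F₀ σ • G = c ^ n * s := by
  intro G hG
  obtain ⟨S, hS⟩ := exists_finset_classesG hDC hfull hreg hn
  exact ⟨S, fun σ => hS _ (HFin.isKummerElt_semilinear_smul _ hG)⟩

/-- **Descent of Kummer elements** (`ESJ.Jac.descent_field` with `hfinG`): for `F₀` with an
element `j₀` of non-zero `q`-order over which `ℂ·F₀` is finite, every Kummer element of exponent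
`n` of `ℂ·F₀` is, up to an `n`-th power, the coefficientwise image of an element of `ℚ̄·F₀`. -/
theorem descentG (F₀ : IntermediateField ℚ (LaurentSeries ℚ)) (j₀ : F₀)
    (hj₀ : (j₀ : LaurentSeries ℚ).order ≠ 0)
    [FiniteDimensional (IntermediateField.adjoin ℂ {baseElt F₀ ℂ j₀}) (laurentBaseChange ℂ F₀)]
    {merC : ↥(laurentBaseChange ℂ F₀) → ℂ → ℂ} (hDC : MerDict (RingHom.id ℂ) Γ merC)
    (hfull : MerFull Γ merC) (hreg : IsReg Γ) [Γ.FiniteIndex] {n : ℕ} (hn : 0 < n)
    (G : ↥(laurentBaseChange ℂ F₀)) (hG : IsKummerElt ℂ ↥(laurentBaseChange ℂ F₀) n G) :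
    ∃ x : ↥(laurentBaseChange ℂ F₀), x ≠ 0 ∧ ∃ f : ↥(laurentBaseChange KQ F₀),
      ((x ^ n * G : ↥(laurentBaseChange ℂ F₀)) : LaurentSeries ℂ)
        = coeffMap iotaK (f : LaurentSeries KQ) :=
  descent_field F₀ j₀ hj₀ hn G hG.1 (hfinG F₀ hDC hfull hreg hn G hG)

end HFin

end Fermat.Agent.G1.Jac
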