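import Mathlib
import Fermat.Agent.G1.Jac.Defs
import Fermat.Agent.ESJ.Jac.Kummer

/-!
# G1 / JAC (P1): Kummer elements and parabolic-elliptic characters for a general group

The port of `ESJ/Jac/Kummer.lean` to the abstract dictionary `MerDict ι Γ mer` of
`G1/Jac/Defs.lean`: `F / K` is any function field, `Γ ≤ SL(2, ℤ)` any subgroup, `mer : F → ℂ → ℂ`
any meromorphic avatar.

* `exists_isKummerCharG` : a Kummer element of exponent `n` has a Kummer character;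
* `IsKummerCharG.unique`, `IsKummerCharG.mul`, `isKummerCharG_pow`, `IsKummerCharG.pow_mul` :
  uniqueness and the algebra of Kummer characters;
* `cusp_multiplierG_iff` : the multiplier of `g⁻¹ T ^ w g` on a root of `f` is trivial iff `n`
  divides the order of `f` at the cusp `g⁻¹ ∞` in the parameter `q_w`;
* `IsKummerCharG.isPEChar` : for a regular group, the Kummer character of a Kummer element is
  parabolic-elliptic;
* `isKummerElt_of_isPECharG` : conversely, if the Kummer character of `f ≠ 0` is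
  parabolic-elliptic, then `f` is a Kummer element.
-/

set_option autoImplicit false

open UpperHalfPlane Complex Filter Topology
open scoped MatrixGroups

noncomputable section

namespace Fermat.Agent.G1.Jac

open Fermat.Agent.ESJ.Jac Fermat.Agent.Lib.Analysis.NthRoot Fermat.Agent.ESJ.Jac.Kummer

variable {K : Type} [Field K] [Algebra ℚ K] {ι : K →+* ℂ} {F : Type} [Field F] [Algebra K F]
  {Γ : Subgroup SL(2, ℤ)} {mer : F → ℂ → ℂ}

/-! ### Generalities -/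

/-- The avatar of a power. -/
theorem MerDict.mer_pow (hD : MerDict ι Γ mer) (g : F) (n : ℕ) :
    mer (g ^ n) =ᶠ[codiscreteWithin U] fun z => mer g z ^ n := by
  induction n with
  | zero =>
    have h := hD.mer_algebraMap 1
    rw [map_one] at h
    filter_upwards [h] with z hz
    rw [pow_zero, hz, pow_zero, map_one]
  | succ k ih =>
    rw [pow_succ]
    filter_upwards [hD.mer_mul (g ^ k) g, ih] with z hz hz'
    rw [hz, hz', pow_succ]

/-- `n * ord_τ h = ord_τ (mer f)` for a root `h` of the avatar of `f ≠ 0`. -/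
theorem MerDict.mul_order_root (hD : MerDict ι Γ mer) {n : ℕ} (hn : 0 < n) {f : F} (hf : f ≠ 0)
    {h : ℂ → ℂ} (hh : IsRootOn n (mer f) h U) {z : ℂ} (hz : z ∈ U) :
    (n : ℤ) * (meromorphicOrderAt h z).untop₀ = (meromorphicOrderAt (mer f) z).untop₀ :=
  hh.untop₀_order_mul hn.ne' hz (hD.order_ne_top f hf z hz)

/-! ### Existence, uniqueness, algebra -/

/-- A Kummer element of exponent `n` has a Kummer character. -/
theorem exists_isKummerCharG (hD : MerDict ι Γ mer) {n : ℕ} (hn : 0 < n) {f : F}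
    (hf : IsKummerElt K F n f) : ∃ χ, IsKummerCharG Γ mer n f χ := by
  obtain ⟨hf0, hdvd⟩ := hf
  have hfin := hD.order_ne_top f hf0
  have hpt := ((hD.forall_dvd_ord_iff n f hf0).1 hdvd).1
  have hdiv : ∀ z : ℂ, 0 < z.im → (n : ℤ) ∣ (meromorphicOrderAt (mer f) z).untop₀ :=
    fun z hz => hpt ⟨z, hz⟩
  obtain ⟨h, hh⟩ := exists_isRootOn_upperHalfPlane hn.ne' (hD.meromorphicOn_mer f)
    (fun z hz => hfin z hz) hdiv
  obtain ⟨χ, hχ, -⟩ := exists_multiplier Γ hn.ne' hfin hh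
    (fun γ hγ z hz => hD.mer_mob f γ hγ z hz)
  exact ⟨χ, h, hh, hχ⟩

/-- The Kummer character of `f ≠ 0` is unique. -/
theorem IsKummerCharG.unique (hD : MerDict ι Γ mer) {n : ℕ} (hn : 0 < n) {f : F} (hf : f ≠ 0)
    {χ χ' : Γ →* ℂˣ} (h : IsKummerCharG Γ mer n f χ) (h' : IsKummerCharG Γ mer n f χ') :
    χ = χ' := by
  obtain ⟨h₁, hr₁, hm₁⟩ := h
  obtain ⟨h₂, hr₂, hm₂⟩ := h'
  have hfin := hD.order_ne_top f hf
  exact HasMultiplier.unique hn.ne' hfin hr₂
    (HasMultiplier.of_isRootOn hn.ne' hfin hr₁ hr₂ hm₁) hm₂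

/-- Kummer characters are multiplicative. -/
theorem IsKummerCharG.mul (hD : MerDict ι Γ mer) {n : ℕ} (hn : 0 < n) {f f' : F}
    {χ χ' : Γ →* ℂˣ} (h : IsKummerCharG Γ mer n f χ) (h' : IsKummerCharG Γ mer n f' χ') :
    IsKummerCharG Γ mer n (f * f') (χ * χ') := by
  obtain ⟨h₁, hr₁, hm₁⟩ := h
  obtain ⟨h₂, hr₂, hm₂⟩ := h'
  obtain ⟨h₃, hr₃, hm₃⟩ := exists_isRootOn_mul Γ hn.ne' hr₁ hr₂
  refine ⟨h₃, hr₃.congr (fun z hz => ?_), hm₃ χ χ' hm₁ hm₂⟩
  exact (eventuallyEq_nhdsNE_of_codiscreteWithin (hD.mer_mul f f') hz).symm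

/-- The Kummer character of an `n`-th power is trivial. -/
theorem isKummerCharG_pow (hD : MerDict ι Γ mer) {n : ℕ} (hn : 0 < n) (g : F) :
    IsKummerCharG Γ mer n (g ^ n) 1 := by
  obtain ⟨h, hr, hm⟩ := exists_isRootOn_pow Γ hn.ne' (hD.meromorphicOn_mer g)
  refine ⟨h, hr.congr (fun z hz => ?_), hm (fun γ hγ z hz => hD.mer_mob g γ hγ z hz)⟩
  exact (eventuallyEq_nhdsNE_of_codiscreteWithin (hD.mer_pow g n) hz).symm

/-- Compatibility with the exponent: the character of exponent `n` of `f` is the character of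
exponent `n * m` of `f ^ m`. -/
theorem IsKummerCharG.pow_mul (hD : MerDict ι Γ mer) {n m : ℕ} {f : F}
    {χ : Γ →* ℂˣ} (h : IsKummerCharG Γ mer n f χ) :
    IsKummerCharG Γ mer (n * m) (f ^ m) χ := by
  obtain ⟨h₁, hr₁, hm₁⟩ := h
  refine ⟨h₁, ⟨hr₁.1, fun z hz => ?_⟩, hm₁⟩
  have e1 := hr₁.2 z hz
  have e2 := eventuallyEq_nhdsNE_of_codiscreteWithin (hD.mer_pow f m) hz
  filter_upwards [e1, e2] with y hy hy2
  simp only [Pi.pow_apply] at hy ⊢
  rw [_root_.pow_mul, hy, hy2]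

/-! ### The multiplier at the cusps -/

/-- **The multiplier at a cusp.**  Let `w` be a width of the cusp `g⁻¹ ∞` (`g⁻¹ T ^ w g ∈ Γ`) and
let `f` have the local shape `q_w ^ m * ψ(q_w)` at this cusp.  Then the multiplier of
`g⁻¹ T ^ w g` on an `n`-th root of `f` is trivial iff `n ∣ m`. -/
theorem cusp_multiplierG_iff (hD : MerDict ι Γ mer) {n : ℕ} (hn : 0 < n) {f : F} (hf : f ≠ 0)
    {h : ℂ → ℂ} (hh : IsRootOn n (mer f) h U) {χ : Γ →* ℂˣ}
    (hχ : HasMultiplier Γ h χ) (g : SL(2, ℤ)) (w : ℕ) (hw : 0 < w)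
    (hmem : g⁻¹ * ModularGroup.T ^ w * g ∈ Γ) (m : ℤ)
    (hm : CuspShape (fun z => mer f (mob g⁻¹ z)) w m) :
    χ ⟨g⁻¹ * ModularGroup.T ^ w * g, hmem⟩ = 1 ↔ (n : ℤ) ∣ m := by
  obtain ⟨ψ, hψ, hψ0, hshape⟩ := hm
  have hfin := hD.order_ne_top f hf
  have hwR : (0 : ℝ) < (w : ℝ) := by exact_mod_cast hw
  set γw : Γ := ⟨g⁻¹ * ModularGroup.T ^ w * g, hmem⟩ with hγw
  have hroot' : IsRootOn n (fun z => mer f (mob g⁻¹ z)) (fun z => h (mob g⁻¹ z))
      {z : ℂ | 0 < z.im} := isRootOn_comp_mob hh g⁻¹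
  -- the multiplier of the translation
  have hζ : ∀ z : ℂ, 0 < z.im →
      (fun z => h (mob g⁻¹ z)) (z + ((w : ℝ) : ℂ)) =
        ((χ γw : ℂˣ) : ℂ) * (fun z => h (mob g⁻¹ z)) z := by
    intro z hz
    have hzU : z ∈ U := hz
    have e1 : mob g⁻¹ (z + (w : ℂ)) = mob (g⁻¹ * ModularGroup.T ^ w * g) (mob g⁻¹ z) := by
      rw [← mob_mul' _ _ hzU]
      have e2 : g⁻¹ * ModularGroup.T ^ w * g * g⁻¹ = g⁻¹ * ModularGroup.T ^ w := by group
      rw [e2, mob_mul' _ _ hzU, mob_T_pow]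
    show h (mob g⁻¹ (z + ((w : ℝ) : ℂ))) = ((χ γw : ℂˣ) : ℂ) * h (mob g⁻¹ z)
    rw [Complex.ofReal_natCast, e1]
    exact hχ γw (mob g⁻¹ z) (mob_mem_U' g⁻¹ hzU)
  have hζn : ((χ γw : ℂˣ) : ℂ) ^ n = 1 := by
    have h1 := multiplier_pow_eq_one hn.ne' hfin hh
      (fun γ hγ z hz => hD.mer_mob f γ hγ z hz) hχ γw
    rw [← Units.val_pow_eq_pow_val, h1, Units.val_one]
  -- analyticity near `i∞`
  obtain ⟨Y₂, -, hY₂'⟩ := MultCusp.exists_analyticAt_ne_zero
    (φ := fun z => mer f (mob g⁻¹ z)) (Y := 0) hwR m ψ hψ hψ0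
    (fun z hz => hshape z hz)
  -- the limit at `i∞`
  have hlim : Tendsto (fun z : ℂ => Function.Periodic.qParam (w : ℝ) z ^ (-m) *
      (fun z => mer f (mob g⁻¹ z)) z) (comap Complex.im atTop) (𝓝 (ψ 0)) := by
    have h1 : Tendsto (fun z : ℂ => ψ (Function.Periodic.qParam (w : ℝ) z))
        (comap Complex.im atTop) (𝓝 (ψ 0)) :=
      hψ.continuousAt.tendsto.comp
        ((Function.Periodic.qParam_tendsto hwR).mono_right nhdsWithin_le_nhds)
    refine h1.congr' ?_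
    have h2 : ∀ᶠ z : ℂ in comap Complex.im atTop, 0 < z.im :=
      tendsto_comap.eventually (eventually_gt_atTop 0)
    filter_upwards [h2] with z hz
    have hq0 : Function.Periodic.qParam (w : ℝ) z ≠ 0 := Complex.exp_ne_zero _
    show ψ (Function.Periodic.qParam (w : ℝ) z) = Function.Periodic.qParam (w : ℝ) z ^ (-m) *
      mer f (mob g⁻¹ z)
    have e3 : mer f (mob g⁻¹ z) = Function.Periodic.qParam (w : ℝ) z ^ m *
        ψ (Function.Periodic.qParam (w : ℝ) z) := hshape z hz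
    rw [e3, ← mul_assoc, ← zpow_add₀ hq0, neg_add_cancel, zpow_zero, one_mul]
  have key := Fermat.Agent.Lib.Analysis.CuspMultiplier.cusp_multiplier_eq_one_iff hn.ne' hroot'
    hwR hζn hζ hψ0 (fun z hz => (hY₂' z hz).1) hlim
  rw [← key, ← Units.val_eq_one]

/-- The multiplier of a parabolic element `g⁻¹ T ^ k g` on a root of a Kummer element is
trivial. -/
theorem par_multiplierG_eq_one (hD : MerDict ι Γ mer) {n : ℕ} (hn : 0 < n) {f : F}
    (hf : IsKummerElt K F n f) {h : ℂ → ℂ} (hh : IsRootOn n (mer f) h U)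
    {χ : Γ →* ℂˣ} (hχ : HasMultiplier Γ h χ) (γ : Γ) (g : SL(2, ℤ))
    (k : ℕ) (hγ : (γ : SL(2, ℤ)) = g⁻¹ * ModularGroup.T ^ k * g) : χ γ = 1 := by
  obtain ⟨hf0, hdvd⟩ := hf
  rcases Nat.eq_zero_or_pos k with hk | hk
  · have h1 : γ = 1 := by
      apply Subtype.ext
      rw [hγ, hk, pow_zero, mul_one, inv_mul_cancel, Subgroup.coe_one]
    rw [h1, map_one]
  · have hmem : g⁻¹ * ModularGroup.T ^ k * g ∈ Γ := hγ ▸ γ.2
    obtain ⟨m, hm⟩ := hD.mer_cusp_shape f hf0 g k hk hmem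
    have h1 := ((hD.forall_dvd_ord_iff n f hf0).1 hdvd).2 g k hk hmem m hm
    have h2 : χ ⟨g⁻¹ * ModularGroup.T ^ k * g, hmem⟩ = 1 :=
      (cusp_multiplierG_iff hD hn hf0 hh hχ g k hk hmem m hm).2 h1
    have h3 : γ = (⟨g⁻¹ * ModularGroup.T ^ k * g, hmem⟩ : Γ) := Subtype.ext hγ
    rw [h3, h2]

/-! ### Parabolic-elliptic characters -/

/-- For a regular group, the Kummer character of a Kummer element is parabolic-elliptic: of
exponent `n` and trivial on the elements with `tr² ≤ 4` (which are all parabolic of trace `2`). -/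
theorem IsKummerCharG.isPEChar (hD : MerDict ι Γ mer) (hreg : IsReg Γ) {n : ℕ} (hn : 0 < n)
    {f : F} (hf : IsKummerElt K F n f) {χ : Γ →* ℂˣ} (h : IsKummerCharG Γ mer n f χ) :
    IsPEChar Γ n χ := by
  obtain ⟨h₁, hr, hm⟩ := h
  have hf0 := hf.1
  have hfin := hD.order_ne_top f hf0
  have hinv : ∀ γ ∈ Γ, ∀ z ∈ U, mer f (mob γ z) = mer f z :=
    fun γ hγ z hz => hD.mer_mob f γ hγ z hz
  refine ⟨fun γ => multiplier_pow_eq_one hn.ne' hfin hr hinv hm γ, ?_⟩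
  intro γ ht
  have ht2 := hreg (γ : SL(2, ℤ)) γ.2 ht
  obtain ⟨g, k, hk⟩ := exists_eq_conj_T_zpow (γ : SL(2, ℤ)) ht2
  rcases lt_or_ge k 0 with hk0 | hk0
  · -- `γ⁻¹ = g⁻¹ T^(-k) g`
    obtain ⟨k', hk'⟩ := Int.eq_ofNat_of_zero_le (by omega : 0 ≤ -k)
    have h1 : ((γ⁻¹ : Γ) : SL(2, ℤ)) = g⁻¹ * ModularGroup.T ^ k' * g := by
      rw [Subgroup.coe_inv, hk, conj_T_zpow_inv, hk', zpow_natCast]
    have h2 := par_multiplierG_eq_one hD hn hf hr hm γ⁻¹ g k' h1
    rwa [map_inv, inv_eq_one] at h2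
  · obtain ⟨k', hk'⟩ := Int.eq_ofNat_of_zero_le hk0
    exact par_multiplierG_eq_one hD hn hf hr hm γ g k' (by rw [hk, hk', zpow_natCast])

/-- Conversely, if the Kummer character of exponent `n` of `f ≠ 0` is parabolic-elliptic, then
all orders of `f` are divisible by `n`. -/
theorem isKummerElt_of_isPECharG (hD : MerDict ι Γ mer) {n : ℕ} (hn : 0 < n) {f : F}
    (hf : f ≠ 0) {χ : Γ →* ℂˣ} (h : IsKummerCharG Γ mer n f χ)
    (hχ : IsPEChar Γ n χ) : IsKummerElt K F n f := by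
  obtain ⟨h₁, hr, hm⟩ := h
  refine ⟨hf, (hD.forall_dvd_ord_iff n f hf).2 ⟨?_, ?_⟩⟩
  · intro τ
    rw [← hD.mul_order_root hn hf hr τ.im_pos]
    exact dvd_mul_right _ _
  · intro g w hw hmem m hshape
    have h1 : χ ⟨g⁻¹ * ModularGroup.T ^ w * g, hmem⟩ = 1 := by
      apply hχ.2
      show ((g⁻¹ * ModularGroup.T ^ w * g : SL(2, ℤ)) : Matrix (Fin 2) (Fin 2) ℤ).trace ^ 2 ≤ 4
      rw [← zpow_natCast, trace_conj_T_zpow]
      norm_num
    exact (cusp_multiplierG_iff hD hn hf hr hm g w hw hmem m hshape).1 h1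

end Fermat.Agent.G1.Jac
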