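import Mathlib
import Fermat.Agent.Lib.Analysis.EisensteinChar
import Fermat.Agent.ESJ.Jac.Resolvent
import Fermat.Agent.G1.Jac.Defs

/-!
# G1 / JAC (P2) : a holomorphic function on `U` with a given PE character, for a general group

Generalisation of `Lib/Analysis/EisensteinChar` (character part) and `ESJ/Jac/Resolvent` from
`Γ₀(N)` to an ARBITRARY subgroup `Γ ≤ SL(2, ℤ)` (neither `T ∈ Γ` nor `-1 ∈ Γ` is assumed).

* `EisCharG.wEis_tendsto'` : a weighted Eisenstein series `Σ φ(v) (v₀ z + v₁)⁻ᵏ` (`φ` bounded,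
  `k ≥ 4`) tends to its constant term at `i∞` — WITHOUT any translation invariance.
* `EisCharG.eisCharG χ k` : the Eisenstein series with the character `χ` of `Γ`
  (`χ` trivial on all elements with `tr² ≤ 4`), `eisCharG_spec`, `eisCharG_ne_zero`.
* `exists_resolvent_analyticG`, `exists_resolventG` : for a parabolic-elliptic character `χ` of
  `Γ` of exponent `n > 0`, the function `u = E_{χ,12} / Δ` is analytic on `U`, not locally zero,
  has multiplier `χ` on `Γ` and is meromorphic at all cusps.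
-/

set_option autoImplicit false

open Complex UpperHalfPlane Filter Topology Matrix ModularGroup EisensteinSeries
  CongruenceSubgroup ModularForm
open scoped MatrixGroups Manifold Real

noncomputable section

namespace Fermat.Agent.G1.Jac

namespace EisCharG

open Fermat.Agent.Lib.Analysis.EisensteinChar

/-! ### The limit at `i∞` without translation invariance -/

lemma vecMul_T_zpow_of_zero (n : ℤ) (v : Fin 2 → ℤ) (h0 : v 0 = 0) :
    v ᵥ* ((T ^ n : SL(2, ℤ)) : Matrix (Fin 2) (Fin 2) ℤ) = v := by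
  rw [ModularGroup.coe_T_zpow]
  ext i
  fin_cases i
  · simp [Matrix.vecMul, dotProduct, Fin.sum_univ_two, h0]
  · simp [Matrix.vecMul, dotProduct, Fin.sum_univ_two, h0]

lemma vecMul_T_zpow_zero (n : ℤ) (v : Fin 2 → ℤ) :
    (v ᵥ* ((T ^ n : SL(2, ℤ)) : Matrix (Fin 2) (Fin 2) ℤ)) 0 = v 0 := by
  rw [ModularGroup.coe_T_zpow]
  simp [Matrix.vecMul, dotProduct, Fin.sum_univ_two]

/-- The constant term does not change when the weight is translated by a power of `T`. -/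
lemma constTerm_comp_T_zpow (φ : (Fin 2 → ℤ) → ℂ) (k : ℤ) (n : ℤ) :
    constTerm (fun v => φ (v ᵥ* ((T ^ n : SL(2, ℤ)) : Matrix (Fin 2) (Fin 2) ℤ))) k
      = constTerm φ k := by
  unfold constTerm
  refine tsum_congr fun v => ?_
  by_cases h0 : v 0 = 0
  · rw [if_pos h0, if_pos h0]
    show φ (v ᵥ* ((T ^ n : SL(2, ℤ)) : Matrix (Fin 2) (Fin 2) ℤ)) * _ = _
    rw [vecMul_T_zpow_of_zero n v h0]
  · rw [if_neg h0, if_neg h0]

/-- Translation of the variable by `T ^ n` = translation of the weight. -/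
lemma wEis_T_zpow_smul (φ : (Fin 2 → ℤ) → ℂ) (k : ℤ) (n : ℤ) (z : ℍ) :
    wEis φ k (T ^ n • z)
      = wEis (fun v => φ (v ᵥ* (((T ^ n : SL(2, ℤ))⁻¹ : SL(2, ℤ)) :
          Matrix (Fin 2) (Fin 2) ℤ))) k z := by
  have h1 := congrFun (wEis_slash φ k (T ^ n)) z
  rw [SL_slash_apply, denom_T_zpow, _root_.one_zpow, mul_one] at h1
  exact h1

/-- **The limit at `i∞`** of a weighted Eisenstein series (no invariance needed). -/
theorem wEis_tendsto' {φ : (Fin 2 → ℤ) → ℂ} {k : ℤ} (hφ : ∀ v, ‖φ v‖ ≤ 1) (hk : 4 ≤ k) :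
    Tendsto (wEis φ k) atImInfty (𝓝 (constTerm φ k)) := by
  rw [Metric.tendsto_nhds]
  intro ε hε
  rw [Filter.Eventually, UpperHalfPlane.atImInfty_mem]
  have hC : 0 ≤ tailConst k := by
    unfold tailConst
    refine tsum_nonneg (fun x => ?_)
    have := (r_pos ⟨⟨1, 1⟩, one_pos⟩).le
    positivity
  refine ⟨max 1 (tailConst k / ε + 1), fun z hz => ?_⟩
  have hz1 : 1 ≤ z.im := (le_max_left _ _).trans hz
  have hz2 : tailConst k / ε + 1 ≤ z.im := (le_max_right _ _).trans hz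
  obtain ⟨n, hn⟩ := ModularGroup_T_zpow_mem_verticalStrip z (N := 1) one_pos
  set m : ℤ := ((1 : ℕ) : ℤ) * n with hm
  have hn' : T ^ m • z ∈ verticalStrip 1 1 := by
    have := verticalStrip_anti_right _ hz1 hn
    simpa using this
  have him : (T ^ m • z).im = z.im := ModularGroup.im_T_zpow_smul z _
  -- `z = T ^ (-m) • (T ^ m • z)`
  have hz' : z = T ^ (-m) • (T ^ m • z) := by
    rw [← mul_smul, ← _root_.zpow_add, neg_add_cancel, zpow_zero, one_smul]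
  have hinv : ((T ^ (-m) : SL(2, ℤ))⁻¹ : SL(2, ℤ)) = T ^ m := by
    rw [_root_.zpow_neg, inv_inv]
  have h0 : wEis φ k z
      = wEis (fun v => φ (v ᵥ* ((T ^ m : SL(2, ℤ)) : Matrix (Fin 2) (Fin 2) ℤ))) k (T ^ m • z) := by
    conv_lhs => rw [hz']
    rw [wEis_T_zpow_smul, hinv]
  have h1 := norm_wEis_sub_constTerm_le (φ := fun v => φ (v ᵥ* ((T ^ m : SL(2, ℤ)) :
    Matrix (Fin 2) (Fin 2) ℤ))) (fun v => hφ _) hk hn'
  rw [← h0, constTerm_comp_T_zpow, him] at h1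
  rw [Set.mem_ofPred_eq, dist_eq_norm]
  refine lt_of_le_of_lt h1 ?_
  rw [div_lt_iff₀ z.im_pos]
  have : tailConst k / ε < z.im := by linarith
  rw [div_lt_iff₀ hε] at this
  linarith

/-! ### The character part, for a general subgroup -/

section Character

variable {Γ : Subgroup SL(2, ℤ)} (χ : ↥Γ →* ℂˣ)

/-- The trace of a power of `T` is `2`. -/
lemma trace_T_zpow (m : ℤ) : ((T ^ m : SL(2, ℤ)) : Matrix (Fin 2) (Fin 2) ℤ).trace = 2 := by
  rw [ModularGroup.coe_T_zpow, Matrix.trace_fin_two]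
  simp

/-- A character which is trivial on the parabolic elements takes the same value on elements with
the same bottom row. -/
lemma chi_eq_of_row_eq
    (hpe : ∀ γ : ↥Γ, ((γ : SL(2, ℤ)) : Matrix (Fin 2) (Fin 2) ℤ).trace ^ 2 ≤ 4 → χ γ = 1)
    (δ δ' : ↥Γ) (h : (δ : SL(2, ℤ)) 1 = (δ' : SL(2, ℤ)) 1) : χ δ = χ δ' := by
  obtain ⟨m, hm⟩ := exists_T_zpow_mul_of_row_eq (δ : SL(2, ℤ)) (δ' : SL(2, ℤ)) h
  have hmem : T ^ m ∈ Γ := by
    have h1 : T ^ m = (δ' : SL(2, ℤ)) * (δ : SL(2, ℤ))⁻¹ := by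
      rw [hm, mul_inv_cancel_right]
    rw [h1]
    exact Γ.mul_mem δ'.2 (Γ.inv_mem δ.2)
  have h1 : δ' = (⟨T ^ m, hmem⟩ : ↥Γ) * δ := Subtype.ext hm
  have h2 : χ ⟨T ^ m, hmem⟩ = 1 := hpe _ (by
    show ((T ^ m : SL(2, ℤ)) : Matrix (Fin 2) (Fin 2) ℤ).trace ^ 2 ≤ 4
    rw [trace_T_zpow]
    norm_num)
  rw [h1, map_mul, h2, one_mul]

open scoped Classical in
/-- The weight attached to a character: `χ(δ)⁻¹` on the bottom row of `δ ∈ Γ`, zero on
vectors which are not bottom rows of elements of `Γ`. -/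
def chiTildeG (v : Fin 2 → ℤ) : ℂ :=
  if h : ∃ δ : ↥Γ, (δ : SL(2, ℤ)) 1 = v then ((χ h.choose)⁻¹ : ℂˣ) else 0

variable (hpe : ∀ γ : ↥Γ, ((γ : SL(2, ℤ)) : Matrix (Fin 2) (Fin 2) ℤ).trace ^ 2 ≤ 4 → χ γ = 1)

include hpe in
lemma chiTildeG_of_row (δ : ↥Γ) :
    chiTildeG χ ((δ : SL(2, ℤ)) 1) = ((χ δ)⁻¹ : ℂˣ) := by
  have h : ∃ δ' : ↥Γ, (δ' : SL(2, ℤ)) 1 = (δ : SL(2, ℤ)) 1 := ⟨δ, rfl⟩
  unfold chiTildeG
  rw [dif_pos h, chi_eq_of_row_eq χ hpe _ _ h.choose_spec]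

lemma chiTildeG_of_not_row {v : Fin 2 → ℤ}
    (h : ¬ ∃ δ : ↥Γ, (δ : SL(2, ℤ)) 1 = v) : chiTildeG χ v = 0 := by
  unfold chiTildeG
  rw [dif_neg h]

lemma norm_chiTildeG_le (hχ : ∀ δ, ‖(χ δ : ℂ)‖ = 1) (v : Fin 2 → ℤ) : ‖chiTildeG χ v‖ ≤ 1 := by
  unfold chiTildeG
  split_ifs with h
  · rw [Units.val_inv_eq_inv_val, norm_inv, hχ, inv_one]
  · simp

include hpe in
/-- Transformation of the weight under right multiplication by `γ ∈ Γ`. -/
lemma chiTildeG_vecMul (γ : ↥Γ) (v : Fin 2 → ℤ) :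
    chiTildeG χ (v ᵥ* ((γ : SL(2, ℤ)) : Matrix (Fin 2) (Fin 2) ℤ))
      = chiTildeG χ v * ((χ γ)⁻¹ : ℂˣ) := by
  by_cases h : ∃ δ : ↥Γ, (δ : SL(2, ℤ)) 1 = v
  · obtain ⟨δ, rfl⟩ := h
    have h1 : ((δ : SL(2, ℤ)) 1) ᵥ* ((γ : SL(2, ℤ)) : Matrix (Fin 2) (Fin 2) ℤ)
        = ((δ * γ : ↥Γ) : SL(2, ℤ)) 1 := by
      rw [Subgroup.coe_mul, Matrix.SpecialLinearGroup.coe_mul, Matrix.mul_apply_eq_vecMul]
    rw [h1, chiTildeG_of_row χ hpe, chiTildeG_of_row χ hpe, map_mul, _root_.mul_inv_rev,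
      Units.val_mul, mul_comm]
  · have h' : ¬ ∃ δ : ↥Γ,
        (δ : SL(2, ℤ)) 1 = v ᵥ* ((γ : SL(2, ℤ)) : Matrix (Fin 2) (Fin 2) ℤ) := by
      rintro ⟨δ, hδ⟩
      apply h
      refine ⟨δ * γ⁻¹, ?_⟩
      rw [Subgroup.coe_mul, Matrix.SpecialLinearGroup.coe_mul, Matrix.mul_apply_eq_vecMul, hδ,
        Subgroup.coe_inv, vecMul_vecMul, ← Matrix.SpecialLinearGroup.coe_mul, mul_inv_cancel,
        Matrix.SpecialLinearGroup.coe_one, vecMul_one]
    rw [chiTildeG_of_not_row χ h, chiTildeG_of_not_row χ h', zero_mul]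

/-- The Eisenstein series of weight `k` attached to the character `χ` of `Γ`. -/
def eisCharG (k : ℤ) (z : ℍ) : ℂ := wEis (chiTildeG χ) k z

include hpe in
/-- Transformation law, in slash form. -/
theorem eisCharG_slash (k : ℤ) (γ : ↥Γ) :
    eisCharG χ k ∣[k] (γ : SL(2, ℤ)) = ((χ γ : ℂˣ) : ℂ) • eisCharG χ k := by
  have h1 : eisCharG χ k = wEis (chiTildeG χ) k := rfl
  rw [h1, wEis_slash]
  ext z
  simp only [Pi.smul_apply, smul_eq_mul, wEis]
  rw [← tsum_mul_left]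
  refine tsum_congr (fun v => ?_)
  have h2 := chiTildeG_vecMul χ hpe γ⁻¹ v
  rw [Subgroup.coe_inv] at h2
  rw [h2, map_inv, inv_inv]
  ring

include hpe in
/-- Transformation law, in value form. -/
theorem eisCharG_smul (k : ℤ) (γ : ↥Γ) (z : ℍ) :
    eisCharG χ k ((γ : SL(2, ℤ)) • z)
      = ((χ γ : ℂˣ) : ℂ) * denom (γ : SL(2, ℤ)) z ^ k * eisCharG χ k z := by
  have h1 := congrFun (eisCharG_slash χ hpe k γ) z
  rw [SL_slash_apply] at h1
  simp only [Pi.smul_apply, smul_eq_mul] at h1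
  have h3 : denom (γ : SL(2, ℤ)) z ≠ 0 := denom_ne_zero _ z
  have h4 : eisCharG χ k ((γ : SL(2, ℤ)) • z)
      = eisCharG χ k ((γ : SL(2, ℤ)) • z) * denom (γ : SL(2, ℤ)) z ^ (-k)
        * denom (γ : SL(2, ℤ)) z ^ k := by
    rw [mul_assoc, ← zpow_add₀ h3]
    simp
  rw [h4, h1]
  ring

include hpe in
/-- The constant term of the Eisenstein series with character is `1` or `2`. -/
lemma constTerm_chiTildeG {k : ℤ} (hk : Even k) :
    constTerm (chiTildeG χ) k = 1 ∨ constTerm (chiTildeG χ) k = 2 := by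
  have hne : (![0, 1] : Fin 2 → ℤ) ≠ ![0, -1] := by
    intro h
    have := congrFun h 1
    simp at this
  have e1 : chiTildeG χ ![0, 1] = 1 := by
    have h1 : (((1 : ↥Γ) : SL(2, ℤ)) 1) = ![0, 1] := by
      ext i
      fin_cases i <;> simp
    rw [← h1, chiTildeG_of_row χ hpe, map_one]
    simp
  have e3 : (((-1 : ℤ) : ℂ)) ^ (-k) = 1 := by
    push_cast
    exact Even.neg_one_zpow hk.neg
  have hsum : constTerm (chiTildeG χ) k = 1 + chiTildeG χ ![0, -1] := by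
    unfold constTerm
    rw [tsum_eq_sum (s := {![0, 1], ![0, -1]})]
    · rw [Finset.sum_pair hne]
      simp only [Matrix.cons_val_zero, if_true, Matrix.cons_val_one, e1, one_mul]
      rw [e3]
      simp
    · intro v hv
      by_cases h0 : v 0 = 0
      · rw [if_pos h0]
        have hrow : ¬ ∃ δ : ↥Γ, (δ : SL(2, ℤ)) 1 = v := by
          rintro ⟨δ, hδ⟩
          have hcop := ModularGroup.bottom_row_coprime (δ : SL(2, ℤ))
          have h10 : (δ : SL(2, ℤ)) 1 0 = 0 := by rw [hδ]; exact h0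
          have h11 : (δ : SL(2, ℤ)) 1 1 = v 1 := by rw [hδ]
          rw [h10, h11, isCoprime_zero_left] at hcop
          rcases Int.isUnit_iff.mp hcop with h1 | h1
          · apply hv
            have : v = ![0, 1] := by
              ext i
              fin_cases i
              · simpa using h0
              · simpa using h1
            simp [this]
          · apply hv
            have : v = ![0, -1] := by
              ext i
              fin_cases i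
              · simpa using h0
              · simpa using h1
            simp [this]
        rw [chiTildeG_of_not_row χ hrow, zero_mul]
      · rw [if_neg h0]
  by_cases hm : ∃ δ : ↥Γ, (δ : SL(2, ℤ)) 1 = ![0, -1]
  · right
    obtain ⟨δ, hδ⟩ := hm
    have e2 : chiTildeG χ ![0, -1] = 1 := by
      rw [← hδ, chiTildeG_of_row χ hpe]
      -- `δ` has trace `-2`
      have h10 : (δ : SL(2, ℤ)) 1 0 = 0 := by rw [hδ]; rfl
      have h11 : (δ : SL(2, ℤ)) 1 1 = -1 := by rw [hδ]; rfl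
      have hdet : (δ : SL(2, ℤ)) 0 0 * (δ : SL(2, ℤ)) 1 1
          - (δ : SL(2, ℤ)) 0 1 * (δ : SL(2, ℤ)) 1 0 = 1 := by
        have := (δ : SL(2, ℤ)).det_coe
        rw [Matrix.det_fin_two] at this
        exact this
      rw [h10, h11] at hdet
      have h00 : (δ : SL(2, ℤ)) 0 0 = -1 := by linarith
      have htr : ((δ : SL(2, ℤ)) : Matrix (Fin 2) (Fin 2) ℤ).trace ^ 2 ≤ 4 := by
        rw [Matrix.trace_fin_two]
        have e00 : ((δ : SL(2, ℤ)) : Matrix (Fin 2) (Fin 2) ℤ) 0 0 = -1 := h00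
        have e11 : ((δ : SL(2, ℤ)) : Matrix (Fin 2) (Fin 2) ℤ) 1 1 = -1 := h11
        rw [e00, e11]
        norm_num
      rw [hpe δ htr]
      simp
    rw [hsum, e2]
    norm_num
  · left
    rw [hsum, chiTildeG_of_not_row χ hm, add_zero]

include hpe in
/-- **Eisenstein series with a character of an arbitrary subgroup `Γ`.** For a character `χ` of
`Γ` with values of absolute value one which is trivial on the elements with `tr² ≤ 4`, and an
even weight `k ≥ 4`, the series `eisCharG χ k` is holomorphic, transforms under `Γ` with the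
character `χ`, has a nonzero limit at `i∞` and is bounded at every cusp. -/
theorem eisCharG_spec (hχ : ∀ δ, ‖(χ δ : ℂ)‖ = 1) {k : ℤ} (hk : 4 ≤ k) (hk2 : Even k) :
    MDiff (eisCharG χ k) ∧
    (∀ (γ : ↥Γ) (z : ℍ), eisCharG χ k ((γ : SL(2, ℤ)) • z)
      = ((χ γ : ℂˣ) : ℂ) * denom (γ : SL(2, ℤ)) z ^ k * eisCharG χ k z) ∧
    (∃ c : ℂ, c ≠ 0 ∧ Tendsto (eisCharG χ k) atImInfty (𝓝 c)) ∧
    ∀ g : SL(2, ℤ), IsBoundedAtImInfty (eisCharG χ k ∣[k] g) := by
  have hk3 : 3 ≤ k := by omega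
  have hφ := norm_chiTildeG_le χ hχ
  refine ⟨wEis_mdifferentiable hφ hk3, eisCharG_smul χ hpe k, ?_, ?_⟩
  · refine ⟨constTerm (chiTildeG χ) k, ?_, wEis_tendsto' hφ hk⟩
    rcases constTerm_chiTildeG χ hpe hk2 with h | h <;> rw [h] <;> norm_num
  · intro g
    exact wEis_slash_isBoundedAtImInfty hφ hk3 g

/-- A character of finite order has values of absolute value one. -/
lemma norm_eq_one_of_pow_eq_one {n : ℕ} (hn : n ≠ 0) (hχn : ∀ δ, χ δ ^ n = 1) (δ : ↥Γ) :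
    ‖(χ δ : ℂ)‖ = 1 := by
  have h1 : ((χ δ : ℂˣ) : ℂ) ^ n = 1 := by
    rw [← Units.val_pow_eq_pow_val, hχn δ, Units.val_one]
  have h2 : ‖(χ δ : ℂ)‖ ^ n = 1 := by
    rw [← norm_pow, h1, norm_one]
  exact (pow_eq_one_iff_of_nonneg (norm_nonneg _) hn).mp h2

include hpe in
/-- The Eisenstein series with character is not identically zero. -/
theorem eisCharG_ne_zero (hχ : ∀ δ, ‖(χ δ : ℂ)‖ = 1) {k : ℤ} (hk : 4 ≤ k) (hk2 : Even k) :
    eisCharG χ k ≠ 0 := by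
  intro h0
  obtain ⟨c, hc, h1⟩ := (eisCharG_spec χ hpe hχ hk hk2).2.2.1
  rw [h0] at h1
  have h2 : Tendsto (0 : ℍ → ℂ) atImInfty (𝓝 0) := tendsto_const_nhds
  exact hc (tendsto_nhds_unique h1 h2)

end Character

end EisCharG

open Fermat.Agent.ESJ.Jac Fermat.Agent.ESJ.Jac.Resolvent EisCharG

/-- **(P2), without the regularity hypothesis**: for a PE character `χ` of exponent `n > 0` of an
ARBITRARY subgroup `Γ ≤ SL(2, ℤ)` there is a function `u`, ANALYTIC on `U`, not locally zero,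
with `u (γ z) = χ γ · u z` for `γ ∈ Γ` and meromorphic at all cusps. -/
theorem exists_resolvent_analyticG' (Γ : Subgroup SL(2, ℤ)) {n : ℕ} (hn : 0 < n)
    (χ : Γ →* ℂˣ) (hχ : IsPEChar Γ n χ) :
    ∃ u : ℂ → ℂ, (∀ z ∈ U, AnalyticAt ℂ u z) ∧ (∀ z ∈ U, meromorphicOrderAt u z ≠ ⊤) ∧
      HasMultiplier Γ u χ ∧ MerAtCusps u := by
  have hχn : ∀ δ, χ δ ^ n = 1 := hχ.1
  have hpe := hχ.2
  have hχ1 := norm_eq_one_of_pow_eq_one χ hn.ne' hχn
  have h12 : Even (12 : ℤ) := ⟨6, by norm_num⟩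
  obtain ⟨hG, hsmul, -, hbdd⟩ := eisCharG_spec χ hpe hχ1 (k := 12) (by norm_num) h12
  have hG0 := eisCharG_ne_zero χ hpe hχ1 (k := 12) (by norm_num) h12
  refine ⟨quot (eisCharG χ 12), fun z hz => analyticAt_quot hG hz, order_quot_ne_top hG hG0,
    ?_, merAtCusps_quot hG hbdd⟩
  intro γ z hz
  have h1 : mob (γ : SL(2, ℤ)) z = (((γ : SL(2, ℤ)) • (⟨z, hz⟩ : ℍ) : ℍ) : ℂ) :=
    mob_coe _ ⟨z, hz⟩
  have h2 : quot (eisCharG χ 12) z
      = eisCharG χ 12 ⟨z, hz⟩ / ModularForm.discriminant ⟨z, hz⟩ :=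
    quot_coe _ ⟨z, hz⟩
  rw [h1, quot_coe, h2, hsmul γ ⟨z, hz⟩, discriminant_smul]
  have h3 : denom (γ : SL(2, ℤ)) (⟨z, hz⟩ : ℍ) ^ (12 : ℤ) ≠ 0 :=
    zpow_ne_zero _ (denom_ne_zero _ _)
  have h4 : ModularForm.discriminant (⟨z, hz⟩ : ℍ) ≠ 0 := discriminant_ne_zero _
  generalize denom (γ : SL(2, ℤ)) (⟨z, hz⟩ : ℍ) ^ (12 : ℤ) = D at h3 ⊢
  generalize ModularForm.discriminant (⟨z, hz⟩ : ℍ) = E at h4 ⊢
  field_simp

/-- **(P2)** in the shape of the JAC1 port map (the regularity hypothesis is not used). -/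
theorem exists_resolvent_analyticG (Γ : Subgroup SL(2, ℤ)) (_hreg : IsReg Γ) {n : ℕ}
    (hn : 0 < n) (χ : Γ →* ℂˣ) (hχ : IsPEChar Γ n χ) :
    ∃ u : ℂ → ℂ, (∀ z ∈ U, AnalyticAt ℂ u z) ∧ (∀ z ∈ U, meromorphicOrderAt u z ≠ ⊤) ∧
      HasMultiplier Γ u χ ∧ MerAtCusps u :=
  exists_resolvent_analyticG' Γ hn χ hχ

/-- **(P2)**, `MeromorphicNFOn` form. -/
theorem exists_resolventG (Γ : Subgroup SL(2, ℤ)) {n : ℕ} (hn : 0 < n)
    (χ : Γ →* ℂˣ) (hχ : IsPEChar Γ n χ) :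
    ∃ u : ℂ → ℂ, MeromorphicNFOn u U ∧ (∀ z ∈ U, meromorphicOrderAt u z ≠ ⊤) ∧
      HasMultiplier Γ u χ ∧ MerAtCusps u := by
  obtain ⟨u, han, hfin, hmult, hcusp⟩ := exists_resolvent_analyticG' Γ hn χ hχ
  exact ⟨u, fun z hz => (han z hz).meromorphicNFAt, hfin, hmult, hcusp⟩

end Fermat.Agent.G1.Jac
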