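import Mathlib
import Fermat.Agent.ESJ.Jac.GalCore
import Fermat.Agent.G1.Jac.Defs
import Fermat.Agent.G1.Jac.ResolventG
import Fermat.Agent.G1.Jac.KummerG

/-!
# G1 / JAC (P4a) : surjectivity of the Kummer map over `ℂ`, for an abstract dictionary

`exists_isKummerCharG_of_isPEChar_complex` : let `(F, Γ, mer)` satisfy the analytic dictionary
`MerDict (RingHom.id ℂ) Γ mer` and `MerFull Γ mer` (every `Γ`-invariant meromorphic function,
meromorphic at the cusps, is the avatar of an element of `F`).  Then every parabolic-elliptic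
character `χ` of `Γ` of exponent `n > 0` is the Kummer character of a Kummer element `G ∈ F`:
the resolvent `u` of `G1/Jac/ResolventG` has multiplier `χ`, `u ^ n` is invariant, hence the
avatar of some `G`, and `u` is an `n`-th root of it.

The Kummer-algebra input (`isKummerElt_of_isPECharG`, `G1/Jac/KummerG`) enters as the hypothesis
`hK` in the `..._of` form; the final forms `exists_isKummerCharG_of_isPEChar_complex` (with the
unused hypothesis `T ∈ Γ`, the requested signature) and `exists_isKummerCharG_of_isPEChar_complex'`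
(without it) discharge it.
-/

set_option autoImplicit false

open UpperHalfPlane Filter AlgebraicCurve
open scoped MatrixGroups Topology

noncomputable section

namespace Fermat.Agent.G1.Jac

open Fermat.Agent.ESJ.Jac Fermat.Agent.Lib.Analysis.NthRoot

/-- Codiscrete equality on `U` gives equality on punctured neighbourhoods of the points of `U`. -/
theorem eventuallyEq_nhdsNE_of_codiscreteWithin_U {f g : ℂ → ℂ}
    (h : f =ᶠ[codiscreteWithin U] g) {z : ℂ} (hz : z ∈ U) : f =ᶠ[𝓝[≠] z] g := by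
  have h1 := (mem_codiscreteWithin_iff_forall_mem_nhdsNE.1 h) z hz
  have h2 : U ∈ 𝓝[≠] z := mem_nhdsWithin_of_mem_nhds (isOpen_U.mem_nhds hz)
  filter_upwards [h1, h2] with w hw hwU
  rcases hw with hw | hw
  · exact hw
  · exact absurd hwU hw

variable {F : Type} [Field F] [Algebra ℂ F] {Γ : Subgroup SL(2, ℤ)} {merC : F → ℂ → ℂ}

/-- **Surjectivity of the Kummer map over `ℂ`** for an abstract dictionary, given the Kummer
criterion `hK` (= `isKummerElt_of_isPECharG`). -/
theorem exists_isKummerCharG_of_isPEChar_complex_of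
    (hD : MerDict (RingHom.id ℂ) Γ merC) (hfull : MerFull Γ merC) {n : ℕ} (hn : 0 < n)
    (hK : ∀ (f : F), f ≠ 0 → ∀ χ : Γ →* ℂˣ, IsKummerCharG Γ merC n f χ → IsPEChar Γ n χ →
      IsKummerElt ℂ F n f)
    (χ : Γ →* ℂˣ) (hχ : IsPEChar Γ n χ) :
    ∃ G : F, IsKummerElt ℂ F n G ∧ IsKummerCharG Γ merC n G χ := by
  obtain ⟨u, han, hfin, hmult, hcusp⟩ := exists_resolvent_analyticG' Γ hn χ hχ
  -- `u ^ n` is meromorphic on `U`, meromorphic at the cusps and `Γ`-invariant
  have huMA : u ∈ GalCore.MA := ⟨fun z hz => (han z hz).meromorphicAt, hcusp⟩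
  have hφMA : u ^ n ∈ GalCore.MA := pow_mem huMA n
  have hinv : ∀ γ : SL(2, ℤ), γ ∈ Γ → ∀ z ∈ U, (u ^ n) (mob γ z) = (u ^ n) z := by
    intro γ hγ z hz
    have h1 := hmult ⟨γ, hγ⟩ z hz
    have h2 : ((χ ⟨γ, hγ⟩ : ℂˣ) : ℂ) ^ n = 1 := by
      have := hχ.1 ⟨γ, hγ⟩
      rw [← Units.val_pow_eq_pow_val, this, Units.val_one]
    simp only [Pi.pow_apply]
    rw [h1, mul_pow, h2, one_mul]
  obtain ⟨G, hG⟩ := hfull (u ^ n) hφMA.1 hinv hφMA.2
  -- `u` is an `n`-th root of the avatar of `G`
  have hroot : IsRootOn n (merC G) u U :=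
    ⟨fun z hz => (han z hz).meromorphicNFAt,
      fun z hz => (eventuallyEq_nhdsNE_of_codiscreteWithin_U hG hz).symm⟩
  have hchar : IsKummerCharG Γ merC n G χ := ⟨u, hroot, hmult⟩
  -- `G ≠ 0`
  have hG0 : G ≠ 0 := by
    rintro rfl
    have h0 := (hD.mer_eq_zero_iff (0 : F)).2 rfl
    have hI : (Complex.I : ℂ) ∈ U := by simp [U]
    have h1 : u ^ n =ᶠ[𝓝[≠] Complex.I] fun _ => (0 : ℂ) :=
      (eventuallyEq_nhdsNE_of_codiscreteWithin_U hG hI).symm.trans
        (eventuallyEq_nhdsNE_of_codiscreteWithin_U h0 hI)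
    have h2 : meromorphicOrderAt (u ^ n) Complex.I = ⊤ :=
      meromorphicOrderAt_eq_top_iff.2 (by filter_upwards [h1] with x hx using hx)
    have h3 := meromorphicOrderAt_pow (han _ hI).meromorphicAt (n := n)
    rw [h2] at h3
    have h4 : meromorphicOrderAt u Complex.I ≠ ⊤ := hfin _ hI
    lift meromorphicOrderAt u Complex.I to ℤ using h4 with k hk
    have : ((n • k : ℤ) : WithTop ℤ) = ⊤ := by
      rw [h3]
      push_cast
      rfl
    exact WithTop.coe_ne_top this
  exact ⟨G, hK G hG0 χ hchar hχ, hchar⟩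

/-- **Surjectivity of the Kummer map over `ℂ`** for an abstract dictionary `(F, Γ, merC)`:
every parabolic-elliptic character of `Γ` of exponent `n > 0` is the Kummer character of a
Kummer element of `F`.  (No hypothesis on `Γ` beyond the dictionary.) -/
theorem exists_isKummerCharG_of_isPEChar_complex'
    (hD : MerDict (RingHom.id ℂ) Γ merC) (hfull : MerFull Γ merC) {n : ℕ} (hn : 0 < n)
    (χ : Γ →* ℂˣ) (hχ : IsPEChar Γ n χ) :
    ∃ G : F, IsKummerElt ℂ F n G ∧ IsKummerCharG Γ merC n G χ :=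
  exists_isKummerCharG_of_isPEChar_complex_of hD hfull hn
    (fun _ hf _ h hχ' => isKummerElt_of_isPECharG hD hn hf h hχ') χ hχ

/-- **Surjectivity of the Kummer map over `ℂ`**, in the signature of the JAC1 port map (the
hypothesis `T ∈ Γ` is not needed). -/
theorem exists_isKummerCharG_of_isPEChar_complex
    (hD : MerDict (RingHom.id ℂ) Γ merC) (hfull : MerFull Γ merC)
    (_hTm : ModularGroup.T ∈ Γ) {n : ℕ} (hn : 0 < n)
    (χ : Γ →* ℂˣ) (hχ : IsPEChar Γ n χ) :
    ∃ G : F, IsKummerElt ℂ F n G ∧ IsKummerCharG Γ merC n G χ :=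
  exists_isKummerCharG_of_isPEChar_complex' hD hfull hn χ hχ

end Fermat.Agent.G1.Jac
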