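import Mathlib
import Fermat.Agent.G1.Jac.SurjCG
import Fermat.Agent.G1.Jac.InjG

/-!
# G1 / JAC (P4b) : surjectivity of the Kummer map over `ℚ̄`, for an abstract dictionary

`exists_isKummerCharG_of_isPEChar` : let `F₀ ⊆ ℚ((q))` be a field of `q`-expansions with an
element `j₀` of non-zero `q`-order over which `ℂ·F₀` is finite, and let `merQ`, `merC` be avatars
of `ℚ̄·F₀` and `ℂ·F₀` satisfying the analytic dictionaries for `Γ` (`MerDict`), compatible with
the base change (`MerBc`), `merC` being full (`MerFull`).  Then every parabolic-elliptic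
character `χ` of `Γ` of exponent `n > 0` is the Kummer character of a Kummer element of `ℚ̄·F₀`.

Proof: over `ℂ` the character is the Kummer character of a Kummer element `G` (`SurjCG`); by
descent (`descentG`) `x ^ n * G` is the coefficientwise image of some `f ∈ ℚ̄·F₀`, which has the
same Kummer character (`isKummerCharG_bc`) and is therefore a Kummer element
(`isKummerElt_of_isPECharG`).
-/

set_option autoImplicit false

open UpperHalfPlane Filter AlgebraicCurve ModularCurve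
open scoped MatrixGroups Topology

noncomputable section

namespace Fermat.Agent.G1.Jac

open Fermat.Agent.ESJ.Jac Fermat.Agent.S24

variable {Γ : Subgroup SL(2, ℤ)}

/-- **Surjectivity of the Kummer map over `ℚ̄`** for an abstract dictionary. -/
theorem exists_isKummerCharG_of_isPEChar (F₀ : IntermediateField ℚ (LaurentSeries ℚ)) (j₀ : F₀)
    (hj₀ : (j₀ : LaurentSeries ℚ).order ≠ 0)
    [FiniteDimensional (IntermediateField.adjoin ℂ {baseElt F₀ ℂ j₀}) (laurentBaseChange ℂ F₀)]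
    {merQ : ↥(laurentBaseChange KQ F₀) → ℂ → ℂ} {merC : ↥(laurentBaseChange ℂ F₀) → ℂ → ℂ}
    (hDQ : MerDict iotaK Γ merQ) (hDC : MerDict (RingHom.id ℂ) Γ merC)
    (hfull : MerFull Γ merC) (hbc : MerBc F₀ merQ merC) (hreg : IsReg Γ) [Γ.FiniteIndex]
    {n : ℕ} (hn : 0 < n) (χ : Γ →* ℂˣ) (hχ : IsPEChar Γ n χ) :
    ∃ f : ↥(laurentBaseChange KQ F₀),
      IsKummerElt KQ ↥(laurentBaseChange KQ F₀) n f ∧ IsKummerCharG Γ merQ n f χ := by
  obtain ⟨G, hG, hGχ⟩ := exists_isKummerCharG_of_isPEChar_complex' hDC hfull hn χ hχ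
  obtain ⟨x, hx, f, hf⟩ := descentG F₀ j₀ hj₀ hDC hfull hreg hn G hG
  have hxG : IsKummerCharG Γ merC n (x ^ n * G) χ := by
    have h := IsKummerCharG.mul hDC hn (isKummerCharG_pow hDC hn x) hGχ
    have e : (1 : Γ →* ℂˣ) * χ = χ := one_mul χ
    rwa [e] at h
  have hfχ : IsKummerCharG Γ merQ n f χ := (isKummerCharG_bc hbc hf n χ).1 hxG
  have hf0 : f ≠ 0 := by
    rintro rfl
    have h0 : ((x ^ n * G : ↥(laurentBaseChange ℂ F₀)) : LaurentSeries ℂ) = 0 := by
      rw [hf]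
      show coeffMap iotaK (0 : LaurentSeries KQ) = 0
      exact map_zero _
    have h1 : x ^ n * G = 0 := Subtype.ext h0
    exact mul_ne_zero (pow_ne_zero n hx) hG.1 h1
  exact ⟨f, isKummerElt_of_isPECharG hDQ hn hf0 hfχ hχ, hfχ⟩

/-- The same in the signature of the JAC1 port map (the hypothesis `T ∈ Γ` is not needed). -/
theorem exists_isKummerCharG_of_isPEChar_of_T (F₀ : IntermediateField ℚ (LaurentSeries ℚ))
    (j₀ : F₀) (hj₀ : (j₀ : LaurentSeries ℚ).order ≠ 0)
    [FiniteDimensional (IntermediateField.adjoin ℂ {baseElt F₀ ℂ j₀}) (laurentBaseChange ℂ F₀)]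
    {merQ : ↥(laurentBaseChange KQ F₀) → ℂ → ℂ} {merC : ↥(laurentBaseChange ℂ F₀) → ℂ → ℂ}
    (hDQ : MerDict iotaK Γ merQ) (hDC : MerDict (RingHom.id ℂ) Γ merC)
    (hfull : MerFull Γ merC) (hbc : MerBc F₀ merQ merC) (_hTm : ModularGroup.T ∈ Γ)
    (hreg : IsReg Γ) [Γ.FiniteIndex]
    {n : ℕ} (hn : 0 < n) (χ : Γ →* ℂˣ) (hχ : IsPEChar Γ n χ) :
    ∃ f : ↥(laurentBaseChange KQ F₀),
      IsKummerElt KQ ↥(laurentBaseChange KQ F₀) n f ∧ IsKummerCharG Γ merQ n f χ :=
  exists_isKummerCharG_of_isPEChar F₀ j₀ hj₀ hDQ hDC hfull hbc hreg hn χ hχ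

end Fermat.Agent.G1.Jac
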