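import Mathlib
import Fermat.Agent.G1.Jac.Defs
import Fermat.Agent.G1.Jac.SystemG
import Fermat.Agent.G1.Jac.HeckeG
import Fermat.Agent.G1.Jac.KummerG
import Fermat.Agent.G1.Jac.InjG
import Fermat.Agent.G1.Jac.SurjG
import Fermat.Agent.ESJ.Jac.Const
import Fermat.Agent.Lib.FF.ExtPrincipal

/-!
# G1 / JAC (P7, abstract half) : the Kummer isomorphism of an abstract dictionary and its
universal compatibility with operators

Setting: `F₀ ⊆ ℚ((q))` a field of `q`-expansions, `F = ℚ̄·F₀`, `Γ ≤ SL(2, ℤ)` regular of finite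
index, avatars `merQ` (of `ℚ̄·F₀`) and `merC` (of `ℂ·F₀`) with the dictionaries `MerDict`,
`MerFull Γ merC`, the base-change compatibility `MerBc`, an element `j₀ ∈ F₀` of non-zero
`q`-order over which `ℂ·F₀` and `ℚ̄·F₀` are finite.

* `isKummerCharG_one_of_ord_eq` : the field `pow` (functions whose divisor is `n` times a
  principal divisor have trivial Kummer character);
* `kummerInjG_of_merDict` : the structure `KummerInjG` for `R f χ := IsKummerCharG Γ merQ n f χ`;
* `finite_torsion_of_merDict` : **(J1)** `Pic⁰(F)[n]` is finite;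
* `exists_level_torsion_of_merDict` : **(J2)** the Galois action on `Pic⁰(F)[n]` has finite level;
* `hasPrincipalDivisors_of_finite` : `HasPrincipalDivisors ℚ̄ F`;
* `exists_kummerEquiv_universal` : **(J3)** there is an additive isomorphism
  `κ : Pic⁰(F)[n] ≃+ Hom_pe(Γ, ℤ/n)` such that (a) the character of `κ x` is the Kummer character
  of any Kummer function of `x`, and (b) for EVERY operator `Op` on `Pic⁰(F)` with a Kummer
  transfer `NOp` (`(x, f)` Kummer pair ⟹ `(Op x, NOp f)` Kummer pair) whose avatar is the product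
  of the avatar of `f` over a Hecke system `a` of `Γ` (`merQ (NOp f) = ∏_i merQ f ∘ a_i` off a
  discrete set), `κ (Op x) = T_a (κ x)`, `T_a` the transfer operator of the system on
  `Hom(Γ, ℤ/n)`.
-/

set_option autoImplicit false
set_option linter.style.haveILetI false

open UpperHalfPlane Filter AlgebraicCurve ModularCurve
open scoped MatrixGroups Topology IntermediateField

noncomputable section

namespace Fermat.Agent.G1.Jac

open Fermat.Agent.ESJ.Jac Fermat.Agent.ESJ.ParHom Fermat.Agent.S24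

/-- The field `pow` of the Kummer system: a function whose divisor is `n` times the divisor of a
function has trivial Kummer character (over an algebraically closed field of constants). -/
theorem isKummerCharG_one_of_ord_eq {K : Type} [Field K] [Algebra ℚ K] [IsAlgClosed K]
    {ι : K →+* ℂ} {F : Type} [Field F] [Algebra K F] {Γ : Subgroup SL(2, ℤ)} {mer : F → ℂ → ℂ}
    (x : F) [FiniteDimensional K⟮x⟯ F] (hD : MerDict ι Γ mer) {n : ℕ} (hn : 0 < n) {f g : F}
    (hf : f ≠ 0) (hg : g ≠ 0) (h : ∀ v : Place K F, v.ord f = (n : ℤ) * v.ord g) :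
    IsKummerCharG Γ mer n f 1 := by
  have : CharZero K := charZero_of_injective_algebraMap (algebraMap ℚ K).injective
  obtain ⟨g', -, rfl⟩ := Const.exists_pow_eq_of_ord_eq x hn hf hg h
  exact isKummerCharG_pow hD hn g'

section Abstract

variable (F₀ : IntermediateField ℚ (LaurentSeries ℚ)) (j₀ : F₀) {Γ : Subgroup SL(2, ℤ)}
  {merQ : ↥(laurentBaseChange KQ F₀) → ℂ → ℂ} {merC : ↥(laurentBaseChange ℂ F₀) → ℂ → ℂ}

/-- `HasPrincipalDivisors` for `ℚ̄·F₀`, finite over `ℚ̄(j₀)`. -/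
theorem hasPrincipalDivisors_of_finite
    [FiniteDimensional (IntermediateField.adjoin KQ {baseElt F₀ KQ j₀}) (laurentBaseChange KQ F₀)] :
    HasPrincipalDivisors KQ ↥(laurentBaseChange KQ F₀) :=
  Fermat.Agent.Lib.FF.Ext.hasPrincipalDivisors (baseElt F₀ KQ j₀)

/-- The injective part of the Kummer system for the relation `IsKummerCharG Γ merQ n`. -/
theorem kummerInjG_of_merDict
    [FiniteDimensional (IntermediateField.adjoin KQ {baseElt F₀ KQ j₀}) (laurentBaseChange KQ F₀)]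
    (hDQ : MerDict iotaK Γ merQ) (hDC : MerDict (RingHom.id ℂ) Γ merC)
    (hfull : MerFull Γ merC) (hbc : MerBc F₀ merQ merC) (hreg : IsReg Γ) {n : ℕ} (hn : 0 < n) :
    KummerInjG KQ ↥(laurentBaseChange KQ F₀) Γ n (fun f χ => IsKummerCharG Γ merQ n f χ) where
  ex f hf := exists_isKummerCharG hDQ hn hf
  uniq f χ χ' hf h h' := IsKummerCharG.unique hDQ hn hf.1 h h'
  mul f f' χ χ' _ _ h h' := IsKummerCharG.mul hDQ hn h h'
  isPE f χ hf h := IsKummerCharG.isPEChar hDQ hreg hn hf h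
  inj f hf h := by
    obtain ⟨g, rfl⟩ := exists_pow_eq_of_isKummerCharG_one F₀ hDC hfull hbc hn h
    have hg : g ≠ 0 := by
      rintro rfl
      exact hf.1 (zero_pow hn.ne')
    exact ⟨g, hg, fun v => Fermat.Agent.ESJ.Jac.ord_pow v g n⟩
  pow f g hf hg h := isKummerCharG_one_of_ord_eq (baseElt F₀ KQ j₀) hDQ hn hf hg h

/-- **(J1)**: the `n`-torsion of `Pic⁰(ℚ̄·F₀)` is finite. -/
theorem finite_torsion_of_merDict
    [FiniteDimensional (IntermediateField.adjoin KQ {baseElt F₀ KQ j₀}) (laurentBaseChange KQ F₀)]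
    (hDQ : MerDict iotaK Γ merQ) (hDC : MerDict (RingHom.id ℂ) Γ merC)
    (hfull : MerFull Γ merC) (hbc : MerBc F₀ merQ merC) (hreg : IsReg Γ) [Γ.FiniteIndex]
    {n : ℕ} (hn : 0 < n) :
    Finite (Pic0.torsion KQ ↥(laurentBaseChange KQ F₀) n) :=
  finite_torsion_of_kummerInjG (kummerInjG_of_merDict F₀ j₀ hDQ hDC hfull hbc hreg hn) hn

/-- **(J2)**: the Galois action on the `n`-torsion of `Pic⁰(ℚ̄·F₀)` has finite level. -/
theorem exists_level_torsion_of_merDict
    [FiniteDimensional (IntermediateField.adjoin KQ {baseElt F₀ KQ j₀}) (laurentBaseChange KQ F₀)]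
    (hDQ : MerDict iotaK Γ merQ) (hDC : MerDict (RingHom.id ℂ) Γ merC)
    (hfull : MerFull Γ merC) (hbc : MerBc F₀ merQ merC) (hreg : IsReg Γ) [Γ.FiniteIndex]
    {n : ℕ} (hn : 0 < n) :
    ∃ L : IntermediateField ℚ KQ, FiniteDimensional ℚ L ∧
      ∀ σ : KQ ≃ₐ[ℚ] KQ, (∀ a ∈ L, σ a = a) →
        ∀ z ∈ Pic0.torsion KQ ↥(laurentBaseChange KQ F₀) n, σ • z = z := by
  haveI := hasPrincipalDivisors_of_finite F₀ j₀
  exact exists_level_torsion F₀ n (finite_torsion_of_merDict F₀ j₀ hDQ hDC hfull hbc hreg hn)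

/-- **(J3), universal form**: the Kummer isomorphism `κ : Pic⁰(ℚ̄·F₀)[n] ≃+ Hom_pe(Γ, ℤ/n)`,
characterised by Kummer characters, intertwines every operator which has a Kummer transfer
whose avatar is a product over a Hecke system `a` of `Γ` with the transfer operator of `a`. -/
theorem exists_kummerEquiv_universal (hj₀ : (j₀ : LaurentSeries ℚ).order ≠ 0)
    [FiniteDimensional (IntermediateField.adjoin ℂ {baseElt F₀ ℂ j₀}) (laurentBaseChange ℂ F₀)]
    [FiniteDimensional (IntermediateField.adjoin KQ {baseElt F₀ KQ j₀}) (laurentBaseChange KQ F₀)]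
    (hDQ : MerDict iotaK Γ merQ) (hDC : MerDict (RingHom.id ℂ) Γ merC)
    (hfull : MerFull Γ merC) (hbc : MerBc F₀ merQ merC) (hreg : IsReg Γ) [Γ.FiniteIndex]
    {n : ℕ} (hn : 0 < n) :
    haveI : NeZero n := ⟨hn.ne'⟩
    ∃ κ : Pic0.torsion KQ ↥(laurentBaseChange KQ F₀) n ≃+ peHoms Γ ℤ (ZMod n),
      (∀ (x : Pic0.torsion KQ ↥(laurentBaseChange KQ F₀) n) (f : ↥(laurentBaseChange KQ F₀))
        (χ : Γ →* ℂˣ), IsKummerPair n (x : Pic0 KQ ↥(laurentBaseChange KQ F₀)) f →
        IsKummerCharG Γ merQ n f χ → peChar Γ n (κ x : Additive Γ →+ ZMod n) = χ) ∧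
      ∀ {ι : Type} [Fintype ι] (a : ι → GL (Fin 2) ℝ) (hT : IsHeckeSystem (jSub Γ) a)
        (_ : ∀ i, HolAct (a i))
        (Op : Pic0 KQ ↥(laurentBaseChange KQ F₀) → Pic0 KQ ↥(laurentBaseChange KQ F₀))
        (NOp : ↥(laurentBaseChange KQ F₀) → ↥(laurentBaseChange KQ F₀))
        (_ : ∀ (x : Pic0 KQ ↥(laurentBaseChange KQ F₀)) (f : ↥(laurentBaseChange KQ F₀)),
          IsKummerPair n x f → IsKummerPair n (Op x) (NOp f))
        (_ : ∀ f : ↥(laurentBaseChange KQ F₀), f ≠ 0 →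
          merQ (NOp f) =ᶠ[codiscreteWithin U] fun z => ∏ i, merQ f (actG (a i) z))
        (x y : Pic0.torsion KQ ↥(laurentBaseChange KQ F₀) n),
        (y : Pic0 KQ ↥(laurentBaseChange KQ F₀)) = Op (x : Pic0 KQ ↥(laurentBaseChange KQ F₀)) →
        ((κ y : peHoms Γ ℤ (ZMod n)) : Additive Γ →+ ZMod n)
          = hT.hecke ((κ x : peHoms Γ ℤ (ZMod n)) : Additive Γ →+ ZMod n) := by
  haveI : NeZero n := ⟨hn.ne'⟩
  haveI := hasPrincipalDivisors_of_finite F₀ j₀
  have hK := kummerInjG_of_merDict F₀ j₀ hDQ hDC hfull hbc hreg hn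
  obtain ⟨κ, hκ⟩ := exists_kummerEquivG hK hn
    (fun χ hχ => exists_isKummerCharG_of_isPEChar F₀ j₀ hj₀ hDQ hDC hfull hbc hreg hn χ hχ)
  refine ⟨κ, hκ, ?_⟩
  intro ι _ a hT ha Op NOp hpair hnorm x y hxy
  obtain ⟨f, hf⟩ := exists_isKummerPair x.2
  obtain ⟨χ, hχ⟩ := exists_isKummerCharG hDQ hn hf.isKummerElt
  have h1 := hκ x f χ hf hχ
  have h2 : IsKummerCharG Γ merQ n (NOp f) (heckeCharG hT χ) :=
    isKummerCharG_of_heckeSystem hT ha hχ (hnorm f hf.ne_zero)
  have h3 : IsKummerPair n (y : Pic0 KQ ↥(laurentBaseChange KQ F₀)) (NOp f) := by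
    rw [hxy]
    exact hpair _ f hf
  have h4 := hκ y (NOp f) _ h3 h2
  rw [← h1, heckeCharG_peChar] at h4
  exact peChar_injective Γ n h4

end Abstract

end Fermat.Agent.G1.Jac
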