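import Mathlib
import Fermat.Agent.G1.Jac.HeckeG

/-!
# G1 / JAC (R2): changing the avatar off a discrete set

Identities between meromorphic avatars are stated "off a discrete subset of the upper half plane"
(`=ᶠ[codiscreteWithin U]`).  Such identities can be composed with the holomorphic, locally
injective action of an element of `GL(2, ℝ)` (`HolAct`):

* `tendsto_actG_nhdsNE` : `actG A` maps punctured neighbourhoods to punctured neighbourhoods;
* `eventuallyEq_comp_actG` : `φ =ᶠ ψ` off a discrete set gives `φ ∘ actG A =ᶠ ψ ∘ actG A`;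
* `eventuallyEq_prod_comp_actG` : the same for finite products over a family `a i`;
* `hnorm_congr` : the norm identity `mer g =ᶠ ∏ i, mer f ∘ actG (a i)` does not depend on the
  avatar (two avatars agreeing off a discrete set);
* `hnorm_single_of_mob`, `hnorm_single_congr` : the one-element form, for `mob γ`.
-/

set_option autoImplicit false

open UpperHalfPlane Filter Topology Complex
open scoped MatrixGroups

noncomputable section

namespace Fermat.Agent.G1.Jac

open Fermat.Agent.ESJ.Jac

/-- `actG A` maps punctured neighbourhoods (of points of `U`) to punctured neighbourhoods. -/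
theorem tendsto_actG_nhdsNE {A : GL (Fin 2) ℝ} (hA : HolAct A) {z : ℂ} (hz : z ∈ U) :
    Tendsto (actG A) (𝓝[≠] z) (𝓝[≠] (actG A z)) :=
  (hA z hz).1.differentiableAt.hasDerivAt.tendsto_nhdsNE (hA z hz).2

/-- The upper half plane is a member of its codiscrete filter. -/
theorem U_mem_codiscreteWithin : U ∈ codiscreteWithin U := by
  rw [mem_codiscreteWithin]
  intro x _
  simp

/-- Eventually (off a discrete subset of `U`) a point lies in `U`. -/
theorem eventually_mem_U : ∀ᶠ z in codiscreteWithin U, z ∈ U := U_mem_codiscreteWithin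

/-- **Composition with the action of `A`**: an identity off a discrete subset of `U` remains
true, off a discrete subset, after composition with `actG A`. -/
theorem eventuallyEq_comp_actG {A : GL (Fin 2) ℝ} (hA : HolAct A) {φ ψ : ℂ → ℂ}
    (h : φ =ᶠ[codiscreteWithin U] ψ) :
    (fun z => φ (actG A z)) =ᶠ[codiscreteWithin U] fun z => ψ (actG A z) := by
  have hS : {x | φ x = ψ x} ∈ codiscreteWithin U := h
  rw [mem_codiscreteWithin_iff_forall_mem_nhdsNE] at hS
  show {z | φ (actG A z) = ψ (actG A z)} ∈ codiscreteWithin U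
  rw [mem_codiscreteWithin_iff_forall_mem_nhdsNE]
  intro z hz
  have h1 := hS (actG A z) (actG_mem_U A z)
  have h2 := (tendsto_actG_nhdsNE hA hz) h1
  rw [Filter.mem_map] at h2
  filter_upwards [h2] with w hw
  rcases hw with hw | hw
  · exact Or.inl hw
  · exact absurd (actG_mem_U A w) hw

/-- The same for finite products over a family of elements of `GL(2, ℝ)`. -/
theorem eventuallyEq_prod_comp_actG {ι : Type*} [Fintype ι] {a : ι → GL (Fin 2) ℝ}
    (ha : ∀ i, HolAct (a i)) {φ ψ : ℂ → ℂ} (h : φ =ᶠ[codiscreteWithin U] ψ) :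
    (fun z => ∏ i, φ (actG (a i) z)) =ᶠ[codiscreteWithin U] fun z => ∏ i, ψ (actG (a i) z) := by
  have h1 : ∀ᶠ z in codiscreteWithin U, ∀ i, φ (actG (a i) z) = ψ (actG (a i) z) :=
    Filter.eventually_all.2 (fun i => eventuallyEq_comp_actG (ha i) h)
  filter_upwards [h1] with z hz
  exact Finset.prod_congr rfl (fun i _ => hz i)

/-- **The norm identity does not depend on the avatar**: if `mer'` and `mer` agree off a discrete
subset of `U`, the identity `mer' g = ∏ i, mer' f ∘ a_i` gives `mer g = ∏ i, mer f ∘ a_i`. -/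
theorem hnorm_congr {F : Type*} {mer mer' : F → ℂ → ℂ}
    (hmer : ∀ f, mer' f =ᶠ[codiscreteWithin U] mer f) {ι : Type*} [Fintype ι]
    {a : ι → GL (Fin 2) ℝ} (ha : ∀ i, HolAct (a i)) {f g : F}
    (h : mer' g =ᶠ[codiscreteWithin U] fun z => ∏ i, mer' f (actG (a i) z)) :
    mer g =ᶠ[codiscreteWithin U] fun z => ∏ i, mer f (actG (a i) z) :=
  ((hmer g).symm.trans h).trans (eventuallyEq_prod_comp_actG ha (hmer f))

/-- Two function fields with avatars: the norm identity transfers along any correspondence of
the elements whose avatars agree off a discrete set. -/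
theorem hnorm_congr' {F F' : Type*} {mer : F → ℂ → ℂ} {mer' : F' → ℂ → ℂ} {f g : F}
    {f' g' : F'} (hf : mer' f' =ᶠ[codiscreteWithin U] mer f)
    (hg : mer' g' =ᶠ[codiscreteWithin U] mer g) {ι : Type*} [Fintype ι]
    {a : ι → GL (Fin 2) ℝ} (ha : ∀ i, HolAct (a i))
    (h : mer' g' =ᶠ[codiscreteWithin U] fun z => ∏ i, mer' f' (actG (a i) z)) :
    mer g =ᶠ[codiscreteWithin U] fun z => ∏ i, mer f (actG (a i) z) :=
  (hg.symm.trans h).trans (eventuallyEq_prod_comp_actG ha hf)

/-- **One-element form**: an identity `Φ = φ ∘ mob γ` off a discrete set is the norm identity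
for the one-element family `{γ}`. -/
theorem hnorm_single_of_mob {Φ φ : ℂ → ℂ} (γ : SL(2, ℤ))
    (h : Φ =ᶠ[codiscreteWithin U] fun z => φ (mob γ z)) :
    Φ =ᶠ[codiscreteWithin U] fun z => ∏ i : Unit,
      φ (actG ((fun _ : Unit => Matrix.SpecialLinearGroup.mapGL ℝ γ) i) z) := by
  filter_upwards [h, eventually_mem_U] with z hz hzU
  rw [hz, Finset.univ_unique, Finset.prod_singleton, actG_mapGL γ hzU]

/-- Conversely, the norm identity for the one-element family `{γ}` is `Φ = φ ∘ mob γ`. -/
theorem mob_of_hnorm_single {Φ φ : ℂ → ℂ} (γ : SL(2, ℤ))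
    (h : Φ =ᶠ[codiscreteWithin U] fun z => ∏ i : Unit,
      φ (actG ((fun _ : Unit => Matrix.SpecialLinearGroup.mapGL ℝ γ) i) z)) :
    Φ =ᶠ[codiscreteWithin U] fun z => φ (mob γ z) := by
  filter_upwards [h, eventually_mem_U] with z hz hzU
  rw [hz, Finset.univ_unique, Finset.prod_singleton, actG_mapGL γ hzU]

/-- Composition with a Möbius map of `SL(2, ℤ)` preserves identities off a discrete set. -/
theorem eventuallyEq_comp_mob (γ : SL(2, ℤ)) {φ ψ : ℂ → ℂ}
    (h : φ =ᶠ[codiscreteWithin U] ψ) :
    (fun z => φ (mob γ z)) =ᶠ[codiscreteWithin U] fun z => ψ (mob γ z) := by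
  have h1 := eventuallyEq_comp_actG (holAct_mapGL γ) h
  filter_upwards [h1, eventually_mem_U] with z hz hzU
  rw [← actG_mapGL γ hzU]
  exact hz

/-- **One-element form of `hnorm_congr`**: if `mer'` and `mer` agree off a discrete subset of
`U`, the identity `mer' g = mer' f ∘ mob γ` gives the norm identity of `mer` for the one-element
family `{γ}` (the shape consumed by `isKummerCharG_of_heckeSystem`). -/
theorem hnorm_single_congr {F : Type*} {mer mer' : F → ℂ → ℂ}
    (hmer : ∀ f, mer' f =ᶠ[codiscreteWithin U] mer f) (γ : SL(2, ℤ)) {f g : F}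
    (h : mer' g =ᶠ[codiscreteWithin U] fun z => mer' f (mob γ z)) :
    mer g =ᶠ[codiscreteWithin U] fun z => ∏ i : Unit,
      mer f (actG ((fun _ : Unit => Matrix.SpecialLinearGroup.mapGL ℝ γ) i) z) :=
  hnorm_single_of_mob γ (((hmer g).symm.trans h).trans (eventuallyEq_comp_mob γ (hmer f)))

end Fermat.Agent.G1.Jac
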