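import Mathlib
import Fermat.Agent.G1.Jac.HeckeMer1
import Fermat.Agent.G1.GalBridge

/-!
# G1 / JAC (helper82): the analytic Hecke norm identity for `mer1K`, unconditional forms

`G1/Jac/HeckeMer1.lean` proves the norm identity from a dictionary `IsDict1 iotaK M a`.  The three
fields it uses are theorems of `G1/GalBridge.lean` (helper51), and the diamond hypothesis `hδ`
is `Gal.mer1K_diaK`.  Hence the identity holds without any hypothesis beyond the formal norm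
formula `hN`:

* `mer1K_norm_actG_uncond`, `mer1K_norm_eventuallyEq_uncond` : no dictionary hypothesis;
* `mer1K_norm_diaK` : `y₂ = diaK c y`, `σ ∈ Γ₀(M a)` with lower right entry `≡ c`;
* `isKummerCharG_norm_diaK` : the Kummer character of the norm is `heckeCharG hT χ`;
* `isKummerCharG_norm_Gamma1` : the instance `Γ = Γ₁(M)`, `a = 1`, `hT = isHeckeSystem_TStar1`;
* `isKummerCharG_diaK` : the Kummer character of `diaK c y` (one-element system `{σ}`).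
-/

set_option autoImplicit false

open UpperHalfPlane Filter Topology CongruenceSubgroup
open scoped MatrixGroups Manifold

noncomputable section

namespace Fermat.Agent.G1.Jac.HeckeMer1

open ModularCurve Fermat.Agent.S24 Fermat.Agent.S24.QExp Fermat.Agent.S28.Chain
open Fermat.Agent.ESJ.Jac Fermat.Agent.ESJ.ParHom
open Fermat.Agent.G1 Fermat.Agent.G1.Dict

variable (M a : ℕ) [NeZero M] [NeZero a]

/-- **The analytic Hecke norm identity for `mer1K`**, without dictionary hypothesis. -/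
theorem mer1K_norm_actG_uncond (p : ℕ) [NeZero p] (hp : p.Prime)
    (σ : SL(2, ℤ)) (y y₂ Y : F1aK KQ M a)
    (hN : ∀ ζ : KQˣ, IsPrimitiveRoot ζ p →
      qExpand KQ p (Y : LaurentSeries KQ) = qExpand KQ (p * p) (y : LaurentSeries KQ) *
        ∏ b ∈ Finset.range p, rot (ζ ^ b) (y₂ : LaurentSeries KQ))
    (hδ : mer1K iotaK M a y₂ =ᶠ[codiscreteWithin U] fun z => mer1K iotaK M a y (mob σ z)) :
    mer1K iotaK M a Y =ᶠ[codiscreteWithin U]
      fun z => ∏ x : OnePoint (ZMod p), mer1K iotaK M a y (actG (tStarRep p σ x) z) :=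
  mer_norm_actG (fm1K KQ M a).toRingHom (ev1K iotaK M a) p hp (mer1K iotaK M a)
    (fun f => by
      obtain ⟨P, Q, h⟩ := Gal.exists_isRep1K M a f
      exact ⟨P, Q, h.1, h.2⟩)
    (hasQExp_ev1K iotaK M a) (Gal.mdiff_ev1K iotaK M a)
    (fun f P Q hQ hf => Gal.mer1K_eventuallyEq_of_isRep1K iotaK M a ⟨hQ, hf⟩) σ y y₂ Y hN hδ

/-- The intermediate form, without dictionary hypothesis. -/
theorem mer1K_norm_eventuallyEq_uncond (p : ℕ) [NeZero p] (hp : p.Prime)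
    (y y₂ Y : F1aK KQ M a)
    (hN : ∀ ζ : KQˣ, IsPrimitiveRoot ζ p →
      qExpand KQ p (Y : LaurentSeries KQ) = qExpand KQ (p * p) (y : LaurentSeries KQ) *
        ∏ b ∈ Finset.range p, rot (ζ ^ b) (y₂ : LaurentSeries KQ)) :
    mer1K iotaK M a Y =ᶠ[codiscreteWithin U] fun z => mer1K iotaK M a y ((p : ℂ) * z) *
      ∏ b ∈ Finset.range p, mer1K iotaK M a y₂ ((z + b) / p) :=
  mer_norm_eventuallyEq (fm1K KQ M a).toRingHom (ev1K iotaK M a) p hp (mer1K iotaK M a)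
    (fun f => by
      obtain ⟨P, Q, h⟩ := Gal.exists_isRep1K M a f
      exact ⟨P, Q, h.1, h.2⟩)
    (hasQExp_ev1K iotaK M a) (Gal.mdiff_ev1K iotaK M a)
    (fun f P Q hQ hf => Gal.mer1K_eventuallyEq_of_isRep1K iotaK M a ⟨hQ, hf⟩) y y₂ Y hN

/-- **The norm identity with the diamond automorphism**: if
`Y(t^p) = y(t^{p²}) · ∏_{b<p} (δ_c y)(ζ^b t)` with `δ_c = diaK c`, and `σ ∈ Γ₀(M a)` has lower
right entry `≡ c` mod `M`, then `mer Y = ∏_x mer y ∘ a_x`, `a = tStarRep p σ`. -/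
theorem mer1K_norm_diaK (p : ℕ) [NeZero p] (hp : p.Prime) (c : (ZMod M)ˣ)
    (σ : SL(2, ℤ)) (hσ : σ ∈ Gamma0 (M * a)) (hc : (c : ZMod M) = ((σ 1 1 : ℤ) : ZMod M))
    (y Y : F1aK KQ M a)
    (hN : ∀ ζ : KQˣ, IsPrimitiveRoot ζ p →
      qExpand KQ p (Y : LaurentSeries KQ) = qExpand KQ (p * p) (y : LaurentSeries KQ) *
        ∏ b ∈ Finset.range p,
          rot (ζ ^ b) ((Gal.diaK iotaK M a c y : F1aK KQ M a) : LaurentSeries KQ)) :
    mer1K iotaK M a Y =ᶠ[codiscreteWithin U]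
      fun z => ∏ x : OnePoint (ZMod p), mer1K iotaK M a y (actG (tStarRep p σ x) z) :=
  mer1K_norm_actG_uncond M a p hp σ y (Gal.diaK iotaK M a c y) Y hN
    (Gal.mer1K_diaK iotaK M a c σ hσ hc y)

/-- Function form of `mer1K_norm_diaK` (the `hnorm` of helper92's universal operator
compatibility, for `NOp = NT`). -/
theorem mer1K_norm_diaK' (p : ℕ) [NeZero p] (hp : p.Prime) (c : (ZMod M)ˣ)
    (σ : SL(2, ℤ)) (hσ : σ ∈ Gamma0 (M * a)) (hc : (c : ZMod M) = ((σ 1 1 : ℤ) : ZMod M))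
    (NT : F1aK KQ M a → F1aK KQ M a)
    (hN : ∀ ζ : KQˣ, IsPrimitiveRoot ζ p → ∀ y : F1aK KQ M a,
      qExpand KQ p ((NT y : F1aK KQ M a) : LaurentSeries KQ)
        = qExpand KQ (p * p) (y : LaurentSeries KQ) *
          ∏ b ∈ Finset.range p,
            rot (ζ ^ b) ((Gal.diaK iotaK M a c y : F1aK KQ M a) : LaurentSeries KQ))
    (y : F1aK KQ M a) :
    mer1K iotaK M a (NT y) =ᶠ[codiscreteWithin U]
      fun z => ∏ x : OnePoint (ZMod p), mer1K iotaK M a y (actG (tStarRep p σ x) z) :=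
  mer1K_norm_diaK M a p hp c σ hσ hc y (NT y) (fun ζ hζ => hN ζ hζ y)

/-- **The Kummer character of the Hecke norm** (diamond form, any `Γ` for which `tStarRep p σ`
is a Hecke system). -/
theorem isKummerCharG_norm_diaK (p : ℕ) [NeZero p] (hp : p.Prime) (c : (ZMod M)ˣ)
    (σ : SL(2, ℤ)) (hσ : σ ∈ Gamma0 (M * a)) (hc : (c : ZMod M) = ((σ 1 1 : ℤ) : ZMod M))
    {Γ : Subgroup SL(2, ℤ)} (hT : IsHeckeSystem (jSub Γ) (tStarRep p σ)) {n : ℕ} {χ : Γ →* ℂˣ}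
    (y Y : F1aK KQ M a)
    (hN : ∀ ζ : KQˣ, IsPrimitiveRoot ζ p →
      qExpand KQ p (Y : LaurentSeries KQ) = qExpand KQ (p * p) (y : LaurentSeries KQ) *
        ∏ b ∈ Finset.range p,
          rot (ζ ^ b) ((Gal.diaK iotaK M a c y : F1aK KQ M a) : LaurentSeries KQ))
    (h : IsKummerCharG Γ (mer1K iotaK M a) n y χ) :
    IsKummerCharG Γ (mer1K iotaK M a) n Y (heckeCharG hT χ) :=
  isKummerCharG_of_heckeSystem hT (holAct_tStarRep hp.ne_zero σ) h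
    (mer1K_norm_diaK M a p hp c σ hσ hc y Y hN)

/-! ### The instance `Γ = Γ₁(M)`, `a = 1`: the literal hypotheses of `Jac.hκT_star`,
`Jac.hκD₂_star` (`G1/Jac/KappaOps.lean`) -/

section Gamma1

open Fermat.Agent.DS.Hecke1

omit [NeZero a] in
theorem coe_punit_inv_eq_lr {p : ℕ} (hp : p.Prime) (hpM : ¬ p ∣ M) {σ : SL(2, ℤ)}
    (hσp : lr M σ * (p : ZMod M) = 1) :
    (((punit hp hpM)⁻¹ : (ZMod M)ˣ) : ZMod M) = ((σ 1 1 : ℤ) : ZMod M) := by
  have h : lr M σ * ((punit hp hpM : (ZMod M)ˣ) : ZMod M) = 1 := by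
    rw [coe_punit]
    exact hσp
  exact Units.inv_eq_of_mul_eq_one_left h

/-- `hδ` of `Jac.hκD₂_star` / `Jac.kappa_single` for `δ = diaK ⟨p⟩⁻¹` on `ℚ̄·F1a M 1`. -/
theorem hδ_star {p : ℕ} (hp : p.Prime) (hpM : ¬ p ∣ M) {σ : SL(2, ℤ)} (hσ : σ ∈ Gamma0 M)
    (hσp : lr M σ * (p : ZMod M) = 1) :
    ∀ f : F1aK KQ M 1, f ≠ 0 →
      mer1K iotaK M 1 (Gal.diaK iotaK M 1 (punit hp hpM)⁻¹ f)
        =ᶠ[codiscreteWithin U] fun z => mer1K iotaK M 1 f (mob σ z) := by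
  intro f _
  have hσ' : σ ∈ Gamma0 (M * 1) := by rwa [mul_one]
  exact Gal.mer1K_diaK iotaK M 1 (punit hp hpM)⁻¹ σ hσ' (coe_punit_inv_eq_lr M hp hpM hσp) f

/-- `hnorm` of `Jac.hκT_star` / `Jac.kappa_TStar` on `ℚ̄·F1a M 1`: from the formal norm formula
`NT y (t^p) = y(t^{p²}) · ∏_{b<p} (⟨p⟩⁻¹ y)(ζ^b t)` (`⟨p⟩⁻¹ = diaK (punit)⁻¹ : x_u ↦ x_{u p}`). -/
theorem hnorm_TStar {p : ℕ} [NeZero p] (hp : p.Prime) (hpM : ¬ p ∣ M) {σ : SL(2, ℤ)}
    (hσ : σ ∈ Gamma0 M) (hσp : lr M σ * (p : ZMod M) = 1)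
    (NT : F1aK KQ M 1 → F1aK KQ M 1)
    (hN : ∀ ζ : KQˣ, IsPrimitiveRoot ζ p → ∀ y : F1aK KQ M 1,
      qExpand KQ p ((NT y : F1aK KQ M 1) : LaurentSeries KQ)
        = qExpand KQ (p * p) (y : LaurentSeries KQ) *
          ∏ b ∈ Finset.range p, rot (ζ ^ b)
            ((Gal.diaK iotaK M 1 (punit hp hpM)⁻¹ y : F1aK KQ M 1) : LaurentSeries KQ)) :
    ∀ f : F1aK KQ M 1, f ≠ 0 →
      mer1K iotaK M 1 (NT f) =ᶠ[codiscreteWithin U]
        fun z => ∏ x : OnePoint (ZMod p), mer1K iotaK M 1 f (actG (tStarRep p σ x) z) := by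
  intro f _
  have hσ' : σ ∈ Gamma0 (M * 1) := by rwa [mul_one]
  exact mer1K_norm_diaK' M 1 p hp (punit hp hpM)⁻¹ σ hσ' (coe_punit_inv_eq_lr M hp hpM hσp)
    NT hN f

/-- **The Kummer character of the Hecke norm for `Γ₁(M)`**: multiplicative form of
`T_p ∘ ⟨p⟩⁻¹` (`hecke_TStar1`). -/
theorem isKummerCharG_norm_Gamma1 {p : ℕ} [NeZero p] [Fact p.Prime] (hp : p.Prime)
    (hpM : ¬ p ∣ M) {σ : SL(2, ℤ)} (hσ : σ ∈ Gamma0 M) (hσp : lr M σ * (p : ZMod M) = 1)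
    {n : ℕ} {χ : Gamma1 M →* ℂˣ} (y Y : F1aK KQ M 1)
    (hN : ∀ ζ : KQˣ, IsPrimitiveRoot ζ p →
      qExpand KQ p (Y : LaurentSeries KQ) = qExpand KQ (p * p) (y : LaurentSeries KQ) *
        ∏ b ∈ Finset.range p, rot (ζ ^ b)
          ((Gal.diaK iotaK M 1 (punit hp hpM)⁻¹ y : F1aK KQ M 1) : LaurentSeries KQ))
    (h : IsKummerCharG (Gamma1 M) (mer1K iotaK M 1) n y χ) :
    IsKummerCharG (Gamma1 M) (mer1K iotaK M 1) n Y
      (heckeCharG (isHeckeSystem_TStar1 hpM hσ hσp) χ) := by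
  have hσ' : σ ∈ Gamma0 (M * 1) := by rwa [mul_one]
  exact isKummerCharG_norm_diaK M 1 p hp (punit hp hpM)⁻¹ σ hσ'
    (coe_punit_inv_eq_lr M hp hpM hσp) (isHeckeSystem_TStar1 hpM hσ hσp) y Y hN h

end Gamma1

end Fermat.Agent.G1.Jac.HeckeMer1
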