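import Mathlib
import Fermat.Agent.G1.MainF
import Fermat.Agent.G1.Jac.KappaOps
import Fermat.Agent.G1.Jac.HeckeMer1U

/-!
# G1 : the assembly at the model field `F1a M 1`, Kummer-map equivariance discharged

Port of `G1/Jac/KappaAsm.lean` (`hesAt_of_kappaOps`, model `F1 M`) to the model of G1 rulings
#5/#6: `F₀ := F1a M 1`, `J := JF (F1a M 1) = Pic0 ℚ̄ (ℚ̄·F1a M 1)`, avatar
`mer := mer1K iotaK M 1`, on top of `G1.hesAt_of_kappa_relF` (`G1/MainF.lean`).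

The analytic hypotheses of `hesAt_of_kappaOps` (`hnorm`, `hδ`, the matrices `σ_p`) are
discharged here: `hnorm` by `HeckeMer1.hnorm_TStar` from the FORMAL norm formula `hN`, `hδ` by
`HeckeMer1.hδ_star` for the diamond automorphism `δ_p = Gal.diaK iotaK M 1 (uStar M p)`
(`uStar M p = ⟨p⟩⁻¹`: `x_u ↦ x_{u p}`), and `σ_p ∈ Γ₀(M)` with lower right entry `≡ p⁻¹` exists
by `Gal.exists_mem_Gamma0_lowerRight`.

* `exists_sigma_star` : the matrix `σ_p`;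
* `hκT_one`, `hκD₂_one` : the hypotheses `hκT`, `hκD₂` of `hesAt_of_kappa_relF`;
* `hesAt_of_kappaOps1` : the assembly, relation form (`LocalRelF`);
* `hesAt_of_kappaOps1G` : the assembly, Gauss-ring form (`LocalESGF`).
-/

set_option autoImplicit false

open UpperHalfPlane AlgebraicCurve Filter ModularForm CongruenceSubgroup ModularCurve
open scoped MatrixGroups OnePoint

noncomputable section

namespace Fermat.Agent.G1.Jac.KappaAsm1

open Fermat.Agent.ESJ.Jac Fermat.Agent.ESJ.ParHom Fermat.Agent.DS.Hecke1 Fermat.Agent.G1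
open Fermat.Agent.ESJ.Rep Fermat.Agent.DS Fermat.Agent.G1.Jac Fermat.Agent.G1.Dict
open Fermat.Agent.S24 Fermat.Agent.S28.Chain

variable {M : ℕ} [NeZero M]

/-- A matrix `σ ∈ Γ₀(M)` with lower right entry `≡ p⁻¹` mod `M`. -/
theorem exists_sigma_star {p : ℕ} (hp : p.Prime) (hpM : ¬ p ∣ M) :
    ∃ σ : SL(2, ℤ), σ ∈ Gamma0 M ∧ lr M σ * (p : ZMod M) = 1 := by
  obtain ⟨σ, hσ, hc⟩ := Gal.exists_mem_Gamma0_lowerRight M 1 (punit hp hpM)⁻¹
  refine ⟨σ, by rwa [mul_one] at hσ, ?_⟩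
  rw [lr_def, ← hc, ← coe_punit hp hpM, ← Units.val_mul, inv_mul_cancel, Units.val_one]

variable {l : ℕ} [NeZero l]

/-- `hκT` of `hesAt_of_kappa_relF` at the model `F1a M 1`, from the formal norm formula. -/
theorem hκT_one
    (hK : KummerInjG Qb (F1aK Qb M 1) (Gamma1 M) l
      (IsKummerCharG (Gamma1 M) (mer1K iotaK M 1) l))
    (κ : JFtors (F1a M 1) l → peHoms (Gamma1 M) ℤ (ZMod l))
    (hκ : ∀ (x : JFtors (F1a M 1) l) (f : F1aK Qb M 1) (χ : Gamma1 M →* ℂˣ),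
      IsKummerPair l (x : JF (F1a M 1)) f → IsKummerCharG (Gamma1 M) (mer1K iotaK M 1) l f χ →
      peChar (Gamma1 M) l (κ x : Additive (Gamma1 M) →+ ZMod l) = χ)
    {p : ℕ} [NeZero p] (hp : p.Prime) (hpM : ¬ p ∣ M)
    (Tpic : JF (F1a M 1) → JF (F1a M 1)) (NT : F1aK Qb M 1 → F1aK Qb M 1)
    (hpair : ∀ (x : JF (F1a M 1)) (f : F1aK Qb M 1),
      IsKummerPair l x f → IsKummerPair l (Tpic x) (NT f))
    (hN : ∀ ζ : Qbˣ, IsPrimitiveRoot ζ p → ∀ y : F1aK Qb M 1,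
      qExpand Qb p ((NT y : F1aK Qb M 1) : LaurentSeries Qb)
        = qExpand Qb (p * p) (y : LaurentSeries Qb) *
          ∏ b ∈ Finset.range p, rot (ζ ^ b)
            ((Gal.diaK iotaK M 1 (uStar M p) y : F1aK Qb M 1) : LaurentSeries Qb)) :
    ∀ x y : JFtors (F1a M 1) l, (y : JF (F1a M 1)) = Tpic (x : JF (F1a M 1)) →
      κ y = diamond1 M (uStar M p) ℤ (ZMod l) (heckeT1 M hp hpM ℤ (ZMod l) (κ x)) := by
  obtain ⟨σ, hσ, hσp⟩ := exists_sigma_star (M := M) hp hpM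
  have : Fact p.Prime := ⟨hp⟩
  rw [uStar_eq hp hpM] at hN
  exact hκT_star hK κ hκ hp hpM hσ hσp Tpic NT hpair
    (HeckeMer1.hnorm_TStar M hp hpM hσ hσp NT hN)

/-- `hκD₂` of `hesAt_of_kappa_relF` at the model `F1a M 1`, for the diamond automorphism
`δ_p = diaK (uStar M p)`. -/
theorem hκD₂_one
    (hK : KummerInjG Qb (F1aK Qb M 1) (Gamma1 M) l
      (IsKummerCharG (Gamma1 M) (mer1K iotaK M 1) l))
    (κ : JFtors (F1a M 1) l → peHoms (Gamma1 M) ℤ (ZMod l))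
    (hκ : ∀ (x : JFtors (F1a M 1) l) (f : F1aK Qb M 1) (χ : Gamma1 M →* ℂˣ),
      IsKummerPair l (x : JF (F1a M 1)) f → IsKummerCharG (Gamma1 M) (mer1K iotaK M 1) l f χ →
      peChar (Gamma1 M) l (κ x : Additive (Gamma1 M) →+ ZMod l) = χ)
    {p : ℕ} (hp : p.Prime) (hpM : ¬ p ∣ M)
    (Dpic : JF (F1a M 1) → JF (F1a M 1))
    (hpair : ∀ (x : JF (F1a M 1)) (f : F1aK Qb M 1),
      IsKummerPair l x f → IsKummerPair l (Dpic x) (Gal.diaK iotaK M 1 (uStar M p) f)) :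
    ∀ x y : JFtors (F1a M 1) l, (y : JF (F1a M 1)) = Dpic (x : JF (F1a M 1)) →
      κ y = diamond1 M (uStar M p) ℤ (ZMod l) (κ x) := by
  obtain ⟨σ, hσ, hσp⟩ := exists_sigma_star (M := M) hp hpM
  have hδ := HeckeMer1.hδ_star M hp hpM hσ hσp
  rw [← uStar_eq hp hpM] at hδ
  exact hκD₂_star hK κ hκ hp hpM hσ hσp Dpic _ hpair hδ

/-- **G1-ASM at the model `F1a M 1`, with the Kummer-map equivariance discharged** (relation
form).  Conventions: `D₁ = id`, `D₂ p` induced by `δ_p = diaK (uStar M p)` (`= ⟨p⟩⁻¹`),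
`T p` induced by `NT p` with `NT p y (t^p) = y(t^{p²}) ∏_{b<p} (δ_p y)(ζ^b t)`. -/
theorem hesAt_of_kappaOps1 (M : ℕ) [NeZero M] (l : ℕ) [NeZero l] (hl : l.Prime) (k : Type)
    [Field k] [CharP k l] (θ : Hecke1.heckeAlgebra M 2 →+* k) (hsplit : SplitAt M l k θ)
    (hfin : TorsionFiniteF (F1a M 1) l) (hlev : TorsionFiniteLevelF (F1a M 1) l)
    (T D₂ : ℕ → JF (F1a M 1) →+ JF (F1a M 1))
    (hTgal : ∀ p : ℕ, p.Prime → ¬ p ∣ M → p ≠ l → GaloisCommF (F1a M 1) l (T p))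
    (hD₂gal : ∀ p : ℕ, p.Prime → ¬ p ∣ M → p ≠ l → GaloisCommF (F1a M 1) l (D₂ p))
    (hrel : ∀ p : ℕ, p.Prime → ¬ p ∣ M → p ≠ l →
      LocalRelF (F1a M 1) l p (T p) (AddMonoidHom.id (JF (F1a M 1))) (D₂ p))
    (hK : KummerInjG Qb (F1aK Qb M 1) (Gamma1 M) l
      (IsKummerCharG (Gamma1 M) (mer1K iotaK M 1) l))
    (κ : JFtors (F1a M 1) l →+ peHoms (Gamma1 M) ℤ (ZMod l)) (hκsurj : Function.Surjective κ)
    (hκ : ∀ (x : JFtors (F1a M 1) l) (f : F1aK Qb M 1) (χ : Gamma1 M →* ℂˣ),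
      IsKummerPair l (x : JF (F1a M 1)) f → IsKummerCharG (Gamma1 M) (mer1K iotaK M 1) l f χ →
      peChar (Gamma1 M) l (κ x : Additive (Gamma1 M) →+ ZMod l) = χ)
    (NT : ℕ → F1aK Qb M 1 → F1aK Qb M 1)
    (hpairT : ∀ p : ℕ, p.Prime → ¬ p ∣ M → p ≠ l → ∀ (x : JF (F1a M 1)) (f : F1aK Qb M 1),
      IsKummerPair l x f → IsKummerPair l (T p x) (NT p f))
    (hN : ∀ (p : ℕ) [NeZero p], p.Prime → ¬ p ∣ M → p ≠ l →
      ∀ ζ : Qbˣ, IsPrimitiveRoot ζ p → ∀ y : F1aK Qb M 1,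
        qExpand Qb p ((NT p y : F1aK Qb M 1) : LaurentSeries Qb)
          = qExpand Qb (p * p) (y : LaurentSeries Qb) *
            ∏ b ∈ Finset.range p, rot (ζ ^ b)
              ((Gal.diaK iotaK M 1 (uStar M p) y : F1aK Qb M 1) : LaurentSeries Qb))
    (hpairD : ∀ p : ℕ, p.Prime → ¬ p ∣ M → p ≠ l → ∀ (x : JF (F1a M 1)) (f : F1aK Qb M 1),
      IsKummerPair l x f → IsKummerPair l (D₂ p x) (Gal.diaK iotaK M 1 (uStar M p) f)) :
    HESAt M l k θ := by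
  refine hesAt_of_kappa_relF M (F1a M 1) l hl k θ hsplit hfin hlev T
    (fun _ => AddMonoidHom.id (JF (F1a M 1))) D₂
    hTgal (fun _ _ _ _ _ _ _ => rfl) hD₂gal hrel κ hκsurj 0 (uStar M) (fun _ => 1) (uStar M)
    (fun p hp hpM _ => hu_star hp hpM) ?_ ?_ ?_
  · intro p hp hpM hpl
    have : NeZero p := ⟨hp.ne_zero⟩
    exact hκT_one hK κ hκ hp hpM (T p) (NT p) (hpairT p hp hpM hpl) (hN p hp hpM hpl)
  · intro p _ _ _
    exact hκD₁_id κ
  · intro p hp hpM hpl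
    exact hκD₂_one hK κ hκ hp hpM (D₂ p) (hpairD p hp hpM hpl)

/-- **G1-ASM at the model `F1a M 1`, Gauss-ring form** (`LocalESGF`: integral scaling, Kummer
roots and a Hecke congruence datum at every `A` over `p`), Kummer-map equivariance discharged. -/
theorem hesAt_of_kappaOps1G (M : ℕ) [NeZero M] (l : ℕ) [NeZero l] (hl : l.Prime) (k : Type)
    [Field k] [CharP k l] (θ : Hecke1.heckeAlgebra M 2 →+* k) (hsplit : SplitAt M l k θ)
    (hfin : TorsionFiniteF (F1a M 1) l) (hlev : TorsionFiniteLevelF (F1a M 1) l)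
    (T D₂ : ℕ → JF (F1a M 1) →+ JF (F1a M 1))
    (hTgal : ∀ p : ℕ, p.Prime → ¬ p ∣ M → p ≠ l → GaloisCommF (F1a M 1) l (T p))
    (hloc : ∀ (p : ℕ) (hp : p.Prime), ¬ p ∣ M → p ≠ l →
      @LocalESGF (F1a M 1) l p ⟨hp.ne_zero⟩ (T p) (AddMonoidHom.id (JF (F1a M 1))) (D₂ p))
    (hK : KummerInjG Qb (F1aK Qb M 1) (Gamma1 M) l
      (IsKummerCharG (Gamma1 M) (mer1K iotaK M 1) l))
    (κ : JFtors (F1a M 1) l →+ peHoms (Gamma1 M) ℤ (ZMod l)) (hκsurj : Function.Surjective κ)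
    (hκ : ∀ (x : JFtors (F1a M 1) l) (f : F1aK Qb M 1) (χ : Gamma1 M →* ℂˣ),
      IsKummerPair l (x : JF (F1a M 1)) f → IsKummerCharG (Gamma1 M) (mer1K iotaK M 1) l f χ →
      peChar (Gamma1 M) l (κ x : Additive (Gamma1 M) →+ ZMod l) = χ)
    (NT : ℕ → F1aK Qb M 1 → F1aK Qb M 1)
    (hpairT : ∀ p : ℕ, p.Prime → ¬ p ∣ M → p ≠ l → ∀ (x : JF (F1a M 1)) (f : F1aK Qb M 1),
      IsKummerPair l x f → IsKummerPair l (T p x) (NT p f))
    (hN : ∀ (p : ℕ) [NeZero p], p.Prime → ¬ p ∣ M → p ≠ l →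
      ∀ ζ : Qbˣ, IsPrimitiveRoot ζ p → ∀ y : F1aK Qb M 1,
        qExpand Qb p ((NT p y : F1aK Qb M 1) : LaurentSeries Qb)
          = qExpand Qb (p * p) (y : LaurentSeries Qb) *
            ∏ b ∈ Finset.range p, rot (ζ ^ b)
              ((Gal.diaK iotaK M 1 (uStar M p) y : F1aK Qb M 1) : LaurentSeries Qb))
    (hpairD : ∀ p : ℕ, p.Prime → ¬ p ∣ M → p ≠ l → ∀ (x : JF (F1a M 1)) (f : F1aK Qb M 1),
      IsKummerPair l x f → IsKummerPair l (D₂ p x) (Gal.diaK iotaK M 1 (uStar M p) f)) :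
    HESAt M l k θ :=
  hesAt_of_kappaOps1 M l hl k θ hsplit hfin hlev T D₂ hTgal
    (fun p hp hpM hpl => galoisCommF_D₂_of_localESGF hl.ne_zero hp (hloc p hp hpM hpl))
    (fun p hp hpM hpl => localRelF_of_localESGF hl.ne_zero hp (hloc p hp hpM hpl))
    hK κ hκsurj hκ NT hpairT hN hpairD

end Fermat.Agent.G1.Jac.KappaAsm1
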