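import Mathlib
import Fermat.Agent.G1.MainF
import Fermat.Agent.G1.Jac.KappaOps

/-!
# G1 : the generic-model assemblies with the κ-equivariance discharged

`G1.hesAt_of_kappa_relF` and `G1.hesAt_of_kappaGF` (`G1/MainF.lean`, arbitrary model field `F₀`;
ruling #5/#6 : `F₀ := F1a M 1`) with their hypotheses `hu`, `hκT`, `hκD₁`, `hκD₂` replaced by
their sources (`G1/Jac/KappaOps.lean`), for the convention produced by the correspondence
`(incl, V_p)`: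

* `D₁ p = id`, `D₂ p` induced by a diamond automorphism `δ p` with `mer (δ p f) = mer f ∘ σ_p`,
  `σ_p ∈ Γ₀(M)` with lower-right entry `≡ p⁻¹`;
* `T p` induced by `NT p` with `mer (NT p f) = ∏_x mer f ∘ a_x`, `a = tStarRep p σ_p`;
* `κ` a surjective Kummer map for the avatar `mer`.

This is the twin of `G1/Jac/KappaAsm.lean` (model `F1 M`) for the generic model field.
-/

set_option autoImplicit false

open UpperHalfPlane AlgebraicCurve Filter ModularForm CongruenceSubgroup ModularCurve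
open scoped MatrixGroups OnePoint

noncomputable section

namespace Fermat.Agent.G1.Jac

open Fermat.Agent.ESJ.Jac Fermat.Agent.ESJ.ParHom Fermat.Agent.DS.Hecke1 Fermat.Agent.G1
open Fermat.Agent.ESJ.Rep Fermat.Agent.DS

/-- **G1-ASM (generic model field, relation form) with the Kummer-map equivariance
discharged.** -/
theorem hesAt_of_kappaOpsF (M : ℕ) [NeZero M] (F₀ : IntermediateField ℚ (LaurentSeries ℚ))
    (l : ℕ) [NeZero l] (hl : l.Prime) (k : Type)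
    [Field k] [CharP k l] (θ : Hecke1.heckeAlgebra M 2 →+* k) (hsplit : SplitAt M l k θ)
    (hfin : TorsionFiniteF F₀ l) (hlev : TorsionFiniteLevelF F₀ l)
    (T D₂ : ℕ → JF F₀ →+ JF F₀)
    (hTgal : ∀ p : ℕ, p.Prime → ¬ p ∣ M → p ≠ l → GaloisCommF F₀ l (T p))
    (hD₂gal : ∀ p : ℕ, p.Prime → ¬ p ∣ M → p ≠ l → GaloisCommF F₀ l (D₂ p))
    (hrel : ∀ p : ℕ, p.Prime → ¬ p ∣ M → p ≠ l →
      LocalRelF F₀ l p (T p) (AddMonoidHom.id (JF F₀)) (D₂ p))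
    (mer : laurentBaseChange Qb F₀ → ℂ → ℂ)
    (hK : KummerInjG Qb (laurentBaseChange Qb F₀) (Gamma1 M) l
      (IsKummerCharG (Gamma1 M) mer l))
    (κ : JFtors F₀ l →+ peHoms (Gamma1 M) ℤ (ZMod l)) (hκsurj : Function.Surjective κ)
    (hκ : ∀ (x : JFtors F₀ l) (f : laurentBaseChange Qb F₀) (χ : Gamma1 M →* ℂˣ),
      IsKummerPair l (x : JF F₀) f → IsKummerCharG (Gamma1 M) mer l f χ →
      peChar (Gamma1 M) l (κ x : Additive (Gamma1 M) →+ ZMod l) = χ)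
    (NT δ : ℕ → laurentBaseChange Qb F₀ → laurentBaseChange Qb F₀) (σ : ℕ → SL(2, ℤ))
    (hσ : ∀ p : ℕ, p.Prime → ¬ p ∣ M → p ≠ l →
      σ p ∈ Gamma0 M ∧ lr M (σ p) * (p : ZMod M) = 1)
    (hpairT : ∀ p : ℕ, p.Prime → ¬ p ∣ M → p ≠ l →
      ∀ (x : JF F₀) (f : laurentBaseChange Qb F₀),
      IsKummerPair l x f → IsKummerPair l (T p x) (NT p f))
    (hnorm : ∀ (p : ℕ) [NeZero p], p.Prime → ¬ p ∣ M → p ≠ l →
      ∀ f : laurentBaseChange Qb F₀, f ≠ 0 →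
      mer (NT p f) =ᶠ[codiscreteWithin U]
        fun z => ∏ x : OnePoint (ZMod p), mer f (actG (tStarRep p (σ p) x) z))
    (hpairD : ∀ p : ℕ, p.Prime → ¬ p ∣ M → p ≠ l →
      ∀ (x : JF F₀) (f : laurentBaseChange Qb F₀),
      IsKummerPair l x f → IsKummerPair l (D₂ p x) (δ p f))
    (hδ : ∀ p : ℕ, p.Prime → ¬ p ∣ M → p ≠ l → ∀ f : laurentBaseChange Qb F₀, f ≠ 0 →
      mer (δ p f) =ᶠ[codiscreteWithin U] fun z => mer f (mob (σ p) z)) :
    HESAt M l k θ := by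
  refine hesAt_of_kappa_relF M F₀ l hl k θ hsplit hfin hlev T
    (fun _ => AddMonoidHom.id (JF F₀)) D₂
    hTgal (fun _ _ _ _ _ _ _ => rfl) hD₂gal hrel κ hκsurj 0 (uStar M) (fun _ => 1) (uStar M)
    (fun p hp hpM _ => hu_star hp hpM) ?_ ?_ ?_
  · intro p hp hpM hpl
    haveI : NeZero p := ⟨hp.ne_zero⟩
    exact hκT_star hK κ hκ hp hpM (hσ p hp hpM hpl).1 (hσ p hp hpM hpl).2 (T p) (NT p)
      (hpairT p hp hpM hpl) (hnorm p hp hpM hpl)
  · intro p _ _ _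
    exact hκD₁_id κ
  · intro p hp hpM hpl
    exact hκD₂_star hK κ hκ hp hpM (hσ p hp hpM hpl).1 (hσ p hp hpM hpl).2 (D₂ p) (δ p)
      (hpairD p hp hpM hpl) (hδ p hp hpM hpl)

/-- **G1-ASM (generic model field, Gauss-ring form `LocalESGF`) with the Kummer-map
equivariance discharged.**  The Galois-equivariance of `D₂ p` and the local Eichler–Shimura
relation come from `LocalESGF` with `D₁ p = id`. -/
theorem hesAt_of_kappaOpsGF (M : ℕ) [NeZero M] (F₀ : IntermediateField ℚ (LaurentSeries ℚ))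
    (l : ℕ) [NeZero l] (hl : l.Prime) (k : Type)
    [Field k] [CharP k l] (θ : Hecke1.heckeAlgebra M 2 →+* k) (hsplit : SplitAt M l k θ)
    (hfin : TorsionFiniteF F₀ l) (hlev : TorsionFiniteLevelF F₀ l)
    (T D₂ : ℕ → JF F₀ →+ JF F₀)
    (hTgal : ∀ p : ℕ, p.Prime → ¬ p ∣ M → p ≠ l → GaloisCommF F₀ l (T p))
    (hloc : ∀ (p : ℕ) (hp : p.Prime), ¬ p ∣ M → p ≠ l →
      @LocalESGF F₀ l p ⟨hp.ne_zero⟩ (T p) (AddMonoidHom.id (JF F₀)) (D₂ p))
    (mer : laurentBaseChange Qb F₀ → ℂ → ℂ)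
    (hK : KummerInjG Qb (laurentBaseChange Qb F₀) (Gamma1 M) l
      (IsKummerCharG (Gamma1 M) mer l))
    (κ : JFtors F₀ l →+ peHoms (Gamma1 M) ℤ (ZMod l)) (hκsurj : Function.Surjective κ)
    (hκ : ∀ (x : JFtors F₀ l) (f : laurentBaseChange Qb F₀) (χ : Gamma1 M →* ℂˣ),
      IsKummerPair l (x : JF F₀) f → IsKummerCharG (Gamma1 M) mer l f χ →
      peChar (Gamma1 M) l (κ x : Additive (Gamma1 M) →+ ZMod l) = χ)
    (NT δ : ℕ → laurentBaseChange Qb F₀ → laurentBaseChange Qb F₀) (σ : ℕ → SL(2, ℤ))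
    (hσ : ∀ p : ℕ, p.Prime → ¬ p ∣ M → p ≠ l →
      σ p ∈ Gamma0 M ∧ lr M (σ p) * (p : ZMod M) = 1)
    (hpairT : ∀ p : ℕ, p.Prime → ¬ p ∣ M → p ≠ l →
      ∀ (x : JF F₀) (f : laurentBaseChange Qb F₀),
      IsKummerPair l x f → IsKummerPair l (T p x) (NT p f))
    (hnorm : ∀ (p : ℕ) [NeZero p], p.Prime → ¬ p ∣ M → p ≠ l →
      ∀ f : laurentBaseChange Qb F₀, f ≠ 0 →
      mer (NT p f) =ᶠ[codiscreteWithin U]
        fun z => ∏ x : OnePoint (ZMod p), mer f (actG (tStarRep p (σ p) x) z))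
    (hpairD : ∀ p : ℕ, p.Prime → ¬ p ∣ M → p ≠ l →
      ∀ (x : JF F₀) (f : laurentBaseChange Qb F₀),
      IsKummerPair l x f → IsKummerPair l (D₂ p x) (δ p f))
    (hδ : ∀ p : ℕ, p.Prime → ¬ p ∣ M → p ≠ l → ∀ f : laurentBaseChange Qb F₀, f ≠ 0 →
      mer (δ p f) =ᶠ[codiscreteWithin U] fun z => mer f (mob (σ p) z)) :
    HESAt M l k θ :=
  hesAt_of_kappaOpsF M F₀ l hl k θ hsplit hfin hlev T D₂ hTgal
    (fun p hp hpM hpl => galoisCommF_D₂_of_localESGF hl.ne_zero hp (hloc p hp hpM hpl))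
    (fun p hp hpM hpl => localRelF_of_localESGF hl.ne_zero hp (hloc p hp hpM hpl))
    mer hK κ hκsurj hκ NT δ σ hσ hpairT hnorm hpairD hδ

end Fermat.Agent.G1.Jac
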