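import Mathlib
import Fermat.Agent.G1.MainF
import Fermat.Agent.G1.Dict.Inst1
import Fermat.Agent.G1.Dict.InstBc
import Fermat.Agent.G1.Dict.FFGlue
import Fermat.Agent.G1.GalFull
import Fermat.Agent.G1.GroupFacts
import Fermat.Agent.G1.Jac.MainG
import Fermat.Agent.ESJ.Cong.GaloisRed

/-!
# G1 / JAC (P7) : the Kummer isomorphism of `J₁(M)[l]`, model field `F1a M 1`

The instance of `G1/Jac/MainG.lean` (abstract dictionary) for the model of G1 ruling #6:
`F₀ := F1a M 1`, `Γ := Gamma1 M`, `merQ := mer1K iotaK M 1`, `merC := mer1K (RingHom.id ℂ) M 1`,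
from the two dictionaries `IsDict1 iotaK M 1`, `IsDict1 (RingHom.id ℂ) M 1` (DICT) — the other
inputs are theorems on main: `Inst1.merDict_Gamma1` (adapter), `GalArt.merFull_of_isDict1` (GAL),
`InstBc.merBc_of_isDict1`, `FFGlue.finiteDimensional_j1K`, `isReg_Gamma1`.

* `j1Q M : F1a M 1` : the function `j`; `order_j1Q`, `baseElt_j1Q`, `finiteDimensional_baseElt_j1Q`
  (the finiteness hypotheses of `MainG` in their literal shape);
* `kummerInjG1` : `KummerInjG ℚ̄ (ℚ̄·F1a M 1) (Gamma1 M) l (IsKummerCharG (Gamma1 M) (mer1K iotaK M 1) l)`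
  (the `hK` of `G1/Jac/KappaOps.lean`);
* `torsionFiniteF1`, `torsionFiniteLevelF1` : **(J1)**, **(J2)** in the shapes of `G1/MainF.lean`;
* `exists_kappa1` : **(J3)** an additive isomorphism
  `κ : JFtors (F1a M 1) l ≃+ peHoms (Gamma1 M) ℤ (ZMod l)` characterised by Kummer characters
  (the `κ`, `hκ` of `G1/Jac/KappaOps.lean`: `kappa_heckeSystem`, `hκT_star`, `hκD₂_star`).
-/

set_option autoImplicit false
set_option linter.style.haveILetI false

open UpperHalfPlane Filter AlgebraicCurve ModularCurve CongruenceSubgroup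
open scoped MatrixGroups Topology

noncomputable section

namespace Fermat.Agent.G1.Jac

open Fermat.Agent.ESJ.Jac Fermat.Agent.ESJ.ParHom Fermat.Agent.S24 Fermat.Agent.ESJ.Rep
  Fermat.Agent.G1.Dict

variable (M : ℕ) [NeZero M]

/-- The function `j`, as an element of the model field `F1a M 1 ⊆ ℚ((q))`. -/
def j1Q : F1a M 1 :=
  ⟨qExpand ℚ 1 jq, full_le_F1a M 1 (jqd_mem_full (M * 1) (one_dvd (M * 1)))⟩

theorem coe_j1Q : ((j1Q M : F1a M 1) : LaurentSeries ℚ) = jq := qExpand_one_apply jq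

/-- `j` has a pole at `q = 0`. -/
theorem order_j1Q : ((j1Q M : F1a M 1) : LaurentSeries ℚ).order ≠ 0 := by
  have h1 : (jq : LaurentSeries ℚ) = jqModC ℚ := rfl
  rw [coe_j1Q, h1, Fermat.Agent.ESJ.Cong.order_jqModC]
  norm_num

/-- The base element of `MainG` is the `j` of `G1/Dict/FFGlue.lean`. -/
theorem baseElt_j1Q (K : Type) [Field K] [Algebra ℚ K] :
    baseElt (F1a M 1) K (j1Q M) = FFGlue.j1K K M 1 :=
  Subtype.ext (by
    rw [FFGlue.j1K, Dict.coe_algebraMap_F0]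
    rfl)

/-- `K·F1a M 1` is finite over `K(j)`, in the literal shape of `G1/Jac/MainG.lean`. -/
instance finiteDimensional_baseElt_j1Q (K : Type) [Field K] [Algebra ℚ K] :
    FiniteDimensional (IntermediateField.adjoin K {baseElt (F1a M 1) K (j1Q M)})
      (laurentBaseChange K (F1a M 1)) := by
  rw [baseElt_j1Q]
  exact FFGlue.finiteDimensional_j1K K M 1

variable {M}

/-- **The `hK` of `KappaOps`**: the injective Kummer system of `ℚ̄·F1a M 1` for the group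
`Γ₁(M)` and the avatar `mer1K iotaK M 1`. -/
theorem kummerInjG1 (hM : 5 ≤ M) (hDQ : IsDict1 iotaK M 1) (hDC : IsDict1 (RingHom.id ℂ) M 1)
    {l : ℕ} (hl : 0 < l) :
    KummerInjG KQ (F1aK KQ M 1) (Gamma1 M) l (IsKummerCharG (Gamma1 M) (mer1K iotaK M 1) l) :=
  kummerInjG_of_merDict (F1a M 1) (j1Q M) (Inst1.merDict_Gamma1 hDQ) (Inst1.merDict_Gamma1 hDC)
    (Inst1.merFull_Gamma1 (GalArt.merFull_of_isDict1 M 1 (by omega) hDC))
    (InstBc.merBc_of_isDict1 hDQ hDC) (isReg_Gamma1 hM) hl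

/-- **(J1)**: `J₁(M)[l]` is finite. -/
theorem torsionFiniteF1 (hM : 5 ≤ M) (hDQ : IsDict1 iotaK M 1)
    (hDC : IsDict1 (RingHom.id ℂ) M 1) {l : ℕ} (hl : 0 < l) : TorsionFiniteF (F1a M 1) l :=
  finite_torsion_of_merDict (F1a M 1) (j1Q M) (Inst1.merDict_Gamma1 hDQ)
    (Inst1.merDict_Gamma1 hDC) (Inst1.merFull_Gamma1 (GalArt.merFull_of_isDict1 M 1 (by omega) hDC))
    (InstBc.merBc_of_isDict1 hDQ hDC) (isReg_Gamma1 hM) hl

/-- **(J2)**: the Galois action on `J₁(M)[l]` has finite level. -/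
theorem torsionFiniteLevelF1 (hM : 5 ≤ M) (hDQ : IsDict1 iotaK M 1)
    (hDC : IsDict1 (RingHom.id ℂ) M 1) {l : ℕ} (hl : 0 < l) :
    TorsionFiniteLevelF (F1a M 1) l :=
  exists_level_torsion_of_merDict (F1a M 1) (j1Q M) (Inst1.merDict_Gamma1 hDQ)
    (Inst1.merDict_Gamma1 hDC) (Inst1.merFull_Gamma1 (GalArt.merFull_of_isDict1 M 1 (by omega) hDC))
    (InstBc.merBc_of_isDict1 hDQ hDC) (isReg_Gamma1 hM) hl

/-- **(J3)**: the Kummer isomorphism `κ : J₁(M)[l] ≃+ Hom_pe(Γ₁(M), ℤ/l)`: the character of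
`κ x` is the Kummer character (for the avatar `mer1K iotaK M 1`) of any Kummer function of `x`.
Together with `kummerInjG1` this is the input `(hK, κ, hκ)` of `G1/Jac/KappaOps.lean`. -/
theorem exists_kappa1 (hM : 5 ≤ M) (hDQ : IsDict1 iotaK M 1) (hDC : IsDict1 (RingHom.id ℂ) M 1)
    (l : ℕ) [NeZero l] :
    ∃ κ : JFtors (F1a M 1) l ≃+ peHoms (Gamma1 M) ℤ (ZMod l),
      ∀ (x : JFtors (F1a M 1) l) (f : F1aK KQ M 1) (χ : Gamma1 M →* ℂˣ),
        IsKummerPair l (x : JF (F1a M 1)) f → IsKummerCharG (Gamma1 M) (mer1K iotaK M 1) l f χ →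
        peChar (Gamma1 M) l (κ x : Additive (Gamma1 M) →+ ZMod l) = χ := by
  obtain ⟨κ, hκ, -⟩ := exists_kummerEquiv_universal (F1a M 1) (j1Q M) (order_j1Q M)
    (Inst1.merDict_Gamma1 hDQ) (Inst1.merDict_Gamma1 hDC)
    (Inst1.merFull_Gamma1 (GalArt.merFull_of_isDict1 M 1 (by omega) hDC))
    (InstBc.merBc_of_isDict1 hDQ hDC) (isReg_Gamma1 hM) (Nat.pos_of_ne_zero (NeZero.ne l))
  exact ⟨κ, hκ⟩

end Fermat.Agent.G1.Jac
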