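import Mathlib
import Fermat.Agent.G1.Jac.Defs
import Fermat.Agent.G1.Dict.Defs

/-!
# G1 / JAC (R3) : transport of the dictionary along equalities of fields and groups

Level `a = 1` is not syntactically `Γ₁(M)` / `F1 M`: `Gam1a M 1 = Γ₁(M) ⊓ Γ₀(M * 1)` and
`F1a M 1 = F1 M ⊔ F0(M * 1)` are only propositionally equal to `Γ₁(M)` and `F1 M`.

* `gam1a_one : Dict.Gam1a M 1 = Gamma1 M`;
* `tr hF mer` : the avatar `mer` of `K·F₀` transported to `K·F₀'` along `hF : F₀' = F₀`
  (`tr hF mer f = mer (equivOfEq _ f)`, `coe_equivOfEq` : the underlying series is unchanged);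
* `MerDict.transport`, `MerFull.transport`, `MerBc.transport`, `IsKummerCharG.transport` : the
  statements of `G1/Jac/Defs` transported along `hF : F₀' = F₀` and `hΓ : Γ' = Γ`;
* `MerDict.of_group_eq`, `MerFull.of_group_eq` : change of the group only;
* the instance: `mer1 ι M := tr (F1a_one M).symm (Dict.mer1K ι M 1)` on `K·F1 M`, with
  `merDict_mer1`, `merFull_mer1`, `merBc_mer1` (from the statements for `Gam1a M 1`,
  `mer1K ι M 1`), and the group-only forms `merDict_mer1K_one`, `merFull_mer1K_one`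
  (`Γ₁(M)` with the field `F1a M 1` kept).
-/

set_option autoImplicit false

open UpperHalfPlane Filter AlgebraicCurve ModularCurve CongruenceSubgroup
open scoped MatrixGroups Topology

noncomputable section

namespace Fermat.Agent.G1.Jac.Transport

open Fermat.Agent.ESJ.Jac Fermat.Agent.S24 Fermat.Agent.G1.Jac

/-- `Γ₁(M) ∩ Γ₀(M · 1) = Γ₁(M)`. -/
theorem gam1a_one (M : ℕ) : Dict.Gam1a M 1 = Gamma1 M := by
  unfold Dict.Gam1a
  rw [mul_one]
  exact inf_eq_left.2 (Gamma1_in_Gamma0 M)

section Generic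

variable {K : Type} [Field K] [Algebra ℚ K]

/-- The avatar `mer` of `K·F₀` transported to `K·F₀'` along an equality `F₀' = F₀`. -/
def tr {F₀ F₀' : IntermediateField ℚ (LaurentSeries ℚ)} (hF : F₀' = F₀)
    (mer : ↥(laurentBaseChange K F₀) → ℂ → ℂ) : ↥(laurentBaseChange K F₀') → ℂ → ℂ :=
  fun f => mer (IntermediateField.equivOfEq (congrArg (laurentBaseChange K) hF) f)

theorem tr_apply {F₀ F₀' : IntermediateField ℚ (LaurentSeries ℚ)} (hF : F₀' = F₀)
    (mer : ↥(laurentBaseChange K F₀) → ℂ → ℂ) (f : ↥(laurentBaseChange K F₀')) :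
    tr hF mer f = mer (IntermediateField.equivOfEq (congrArg (laurentBaseChange K) hF) f) :=
  rfl

/-- The transport equivalence does not change the underlying series. -/
theorem coe_equivOfEq {E₁ E₂ : IntermediateField K (LaurentSeries K)} (h : E₁ = E₂) (f : ↥E₁) :
    ((IntermediateField.equivOfEq h f : ↥E₂) : LaurentSeries K) = (f : LaurentSeries K) :=
  rfl

theorem tr_rfl {F₀ : IntermediateField ℚ (LaurentSeries ℚ)}
    (mer : ↥(laurentBaseChange K F₀) → ℂ → ℂ) : tr (rfl : F₀ = F₀) mer = mer := by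
  funext f
  rfl

/-- Transport of the analytic dictionary along equalities of the field and of the group. -/
theorem MerDict.transport {ι : K →+* ℂ} {F₀ F₀' : IntermediateField ℚ (LaurentSeries ℚ)}
    (hF : F₀' = F₀) {Γ Γ' : Subgroup SL(2, ℤ)} (hΓ : Γ' = Γ)
    {mer : ↥(laurentBaseChange K F₀) → ℂ → ℂ} (h : MerDict ι Γ mer) :
    MerDict ι Γ' (tr hF mer) := by
  subst hF
  subst hΓ
  rw [tr_rfl]
  exact h

/-- Change of the group only. -/
theorem MerDict.of_group_eq {ι : K →+* ℂ} {F : Type} [Field F] [Algebra K F]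
    {Γ Γ' : Subgroup SL(2, ℤ)} (hΓ : Γ' = Γ) {mer : F → ℂ → ℂ} (h : MerDict ι Γ mer) :
    MerDict ι Γ' mer := by
  subst hΓ
  exact h

/-- Change of the group only. -/
theorem MerFull.of_group_eq {F : Type} {Γ Γ' : Subgroup SL(2, ℤ)} (hΓ : Γ' = Γ)
    {mer : F → ℂ → ℂ} (h : MerFull Γ mer) : MerFull Γ' mer := by
  subst hΓ
  exact h

/-- Transport of fullness along equalities of the field and of the group. -/
theorem MerFull.transport {F₀ F₀' : IntermediateField ℚ (LaurentSeries ℚ)}
    (hF : F₀' = F₀) {Γ Γ' : Subgroup SL(2, ℤ)} (hΓ : Γ' = Γ)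
    {mer : ↥(laurentBaseChange K F₀) → ℂ → ℂ} (h : MerFull Γ mer) :
    MerFull Γ' (tr hF mer) := by
  subst hF
  subst hΓ
  rw [tr_rfl]
  exact h

/-- Transport of the base-change compatibility along an equality of the field. -/
theorem MerBc.transport {F₀ F₀' : IntermediateField ℚ (LaurentSeries ℚ)} (hF : F₀' = F₀)
    {merQ : ↥(laurentBaseChange KQ F₀) → ℂ → ℂ} {merC : ↥(laurentBaseChange ℂ F₀) → ℂ → ℂ}
    (h : MerBc F₀ merQ merC) : MerBc F₀' (tr hF merQ) (tr hF merC) := by
  subst hF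
  rw [tr_rfl, tr_rfl]
  exact h

/-- Transport of Kummer characters along equalities of the field and of the group (the
character is transported along `hΓ` by `MonoidHom.comp` with the inclusion). -/
theorem IsKummerCharG.transport {F₀ F₀' : IntermediateField ℚ (LaurentSeries ℚ)}
    (hF : F₀' = F₀) {Γ : Subgroup SL(2, ℤ)}
    {mer : ↥(laurentBaseChange K F₀) → ℂ → ℂ} {n : ℕ} (f : ↥(laurentBaseChange K F₀'))
    (χ : Γ →* ℂˣ) :
    IsKummerCharG Γ (tr hF mer) n f χ ↔
      IsKummerCharG Γ mer n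
        (IntermediateField.equivOfEq (congrArg (laurentBaseChange K) hF) f) χ := by
  subst hF
  rw [tr_rfl]
  have e : IntermediateField.equivOfEq (congrArg (laurentBaseChange K) (rfl : F₀' = F₀')) f = f :=
    rfl
  rw [e]

end Generic

/-! ### The instance `a = 1` -/

section Inst

variable {K : Type} [Field K] [Algebra ℚ K] (ι : K →+* ℂ) (M : ℕ) [NeZero M]

/-- The avatar of `K·F1 M`: the avatar `Dict.mer1K ι M 1` of `K·F1a M 1` transported along
`F1a M 1 = F1 M`. -/
def mer1 : ↥(laurentBaseChange K (F1 M)) → ℂ → ℂ :=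
  tr (F1a_one M).symm (Dict.mer1K ι M 1)

theorem mer1_apply (f : ↥(laurentBaseChange K (F1 M))) :
    mer1 ι M f = Dict.mer1K ι M 1
      (IntermediateField.equivOfEq (congrArg (laurentBaseChange K) (F1a_one M).symm) f) :=
  rfl

variable {ι M}

/-- The dictionary for `Γ₁(M)` and `K·F1 M` from the dictionary at level `a = 1`. -/
theorem merDict_mer1 (h : MerDict ι (Dict.Gam1a M 1) (Dict.mer1K ι M 1)) :
    MerDict ι (Gamma1 M) (mer1 ι M) :=
  MerDict.transport (F1a_one M).symm (gam1a_one M).symm h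

/-- The dictionary for `Γ₁(M)` with the field `K·F1a M 1` kept. -/
theorem merDict_mer1K_one (h : MerDict ι (Dict.Gam1a M 1) (Dict.mer1K ι M 1)) :
    MerDict ι (Gamma1 M) (Dict.mer1K ι M 1) :=
  MerDict.of_group_eq (gam1a_one M).symm h

/-- Fullness for `Γ₁(M)` and `ℂ·F1 M` from fullness at level `a = 1`. -/
theorem merFull_mer1
    (h : MerFull (Dict.Gam1a M 1) (Dict.mer1K (RingHom.id ℂ) M 1)) :
    MerFull (Gamma1 M) (mer1 (RingHom.id ℂ) M) :=
  MerFull.transport (F1a_one M).symm (gam1a_one M).symm h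

/-- Fullness for `Γ₁(M)` with the field `ℂ·F1a M 1` kept. -/
theorem merFull_mer1K_one
    (h : MerFull (Dict.Gam1a M 1) (Dict.mer1K (RingHom.id ℂ) M 1)) :
    MerFull (Gamma1 M) (Dict.mer1K (RingHom.id ℂ) M 1) :=
  MerFull.of_group_eq (gam1a_one M).symm h

/-- Base-change compatibility for `F1 M` from the one at level `a = 1`. -/
theorem merBc_mer1
    (h : MerBc (F1a M 1) (Dict.mer1K iotaK M 1) (Dict.mer1K (RingHom.id ℂ) M 1)) :
    MerBc (F1 M) (mer1 iotaK M) (mer1 (RingHom.id ℂ) M) :=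
  MerBc.transport (F1a_one M).symm h

end Inst

end Fermat.Agent.G1.Jac.Transport
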