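import Mathlib
import Fermat.Agent.G1.Jac.Main1
import Fermat.Agent.G1.Jac.KappaOps
import Fermat.Agent.G1.Jac.HeckeMer1U

/-!
# G1 / JAC → ASM : `HESAt` from the dictionary and the CONG data, model field `F1a M 1`

`hesAt_of_isDict1` feeds G1-JAC (`G1/Jac/Main1.lean`: `kummerInjG1`, `torsionFiniteF1`,
`torsionFiniteLevelF1`, `exists_kappa1`), the operator compatibility of the Kummer map
(`G1/Jac/KappaOps.lean`, helper87) and the analytic Hecke norm identity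
(`G1/Jac/HeckeMer1U.lean`, helper82) into the assembly `hesAt_of_kappa_relF` of `G1/MainF.lean`
(helper73).  What is left as hypotheses is exactly DICT (`IsDict1` over `ℚ̄` and `ℂ`) and CONG:

* operators `T p`, `D₂ p` on `JF (F1a M 1)` commuting with Galois on `l`-torsion, with the local
  relation `σ² D₂ x - T (σ x) + p x = 0` (`LocalRelF`, `D₁ = id`);
* a Kummer transfer `NT p` of `T p` with the formal norm formula
  `NT y (t^p) = y(t^{p²}) · ∏_{b<p} (⟨p⟩⁻¹ y)(ζ^b t)`;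
* `D₂ p` has the Kummer transfer `⟨p⟩⁻¹ = Gal.diaK iotaK M 1 (punit)⁻¹`.
-/

set_option autoImplicit false
set_option linter.style.haveILetI false

open UpperHalfPlane Filter AlgebraicCurve ModularCurve CongruenceSubgroup
open scoped MatrixGroups Topology

noncomputable section

namespace Fermat.Agent.G1.Jac

open Fermat.Agent.ESJ.Jac Fermat.Agent.ESJ.ParHom Fermat.Agent.S24 Fermat.Agent.ESJ.Rep
  Fermat.Agent.G1.Dict Fermat.Agent.DS Fermat.Agent.DS.Hecke1 Fermat.Agent.S28.Chain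

/-- **`HESAt` from DICT and CONG** (model field `F1a M 1`, convention `D₁ = id`,
`D₂ = ⟨p⟩⁻¹`, `κ ∘ T = ⟨p⟩⁻¹ T_p ∘ κ`). -/
theorem hesAt_of_isDict1 (M : ℕ) [NeZero M] (hM : 5 ≤ M) (l : ℕ) (hl : l.Prime) (k : Type)
    [Field k] [CharP k l] (θ : Hecke1.heckeAlgebra M 2 →+* k) (hsplit : SplitAt M l k θ)
    (hDQ : IsDict1 iotaK M 1) (hDC : IsDict1 (RingHom.id ℂ) M 1)
    (T D₂ : ℕ → JF (F1a M 1) →+ JF (F1a M 1))
    (hTgal : ∀ p : ℕ, p.Prime → ¬ p ∣ M → p ≠ l → GaloisCommF (F1a M 1) l (T p))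
    (hD₂gal : ∀ p : ℕ, p.Prime → ¬ p ∣ M → p ≠ l → GaloisCommF (F1a M 1) l (D₂ p))
    (hrel : ∀ p : ℕ, p.Prime → ¬ p ∣ M → p ≠ l →
      LocalRelF (F1a M 1) l p (T p) (AddMonoidHom.id (JF (F1a M 1))) (D₂ p))
    (NT : ℕ → F1aK KQ M 1 → F1aK KQ M 1)
    (hpairT : ∀ p : ℕ, p.Prime → ¬ p ∣ M → p ≠ l → ∀ (x : JF (F1a M 1)) (f : F1aK KQ M 1),
      IsKummerPair l x f → IsKummerPair l (T p x) (NT p f))
    (hN : ∀ (p : ℕ) [NeZero p] (hp : p.Prime) (hpM : ¬ p ∣ M), p ≠ l →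
      ∀ ζ : KQˣ, IsPrimitiveRoot ζ p → ∀ y : F1aK KQ M 1,
        qExpand KQ p ((NT p y : F1aK KQ M 1) : LaurentSeries KQ)
          = qExpand KQ (p * p) (y : LaurentSeries KQ) *
            ∏ b ∈ Finset.range p, rot (ζ ^ b)
              ((Gal.diaK iotaK M 1 (punit hp hpM)⁻¹ y : F1aK KQ M 1) : LaurentSeries KQ))
    (hpairD : ∀ (p : ℕ) (hp : p.Prime) (hpM : ¬ p ∣ M), p ≠ l →
      ∀ (x : JF (F1a M 1)) (f : F1aK KQ M 1), IsKummerPair l x f →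
        IsKummerPair l (D₂ p x) (Gal.diaK iotaK M 1 (punit hp hpM)⁻¹ f)) :
    HESAt M l k θ := by
  haveI : NeZero l := ⟨hl.ne_zero⟩
  have hK := kummerInjG1 hM hDQ hDC hl.pos
  obtain ⟨κ, hκ⟩ := exists_kappa1 hM hDQ hDC l
  have hσ : ∀ (p : ℕ) (hp : p.Prime) (hpM : ¬ p ∣ M),
      rep M (punit hp hpM)⁻¹ ∈ Gamma0 M ∧ lr M (rep M (punit hp hpM)⁻¹) * (p : ZMod M) = 1 := by
    intro p hp hpM
    refine ⟨rep_mem _, ?_⟩
    rw [lr_rep, ← coe_punit hp hpM, ← Units.val_mul, inv_mul_cancel, Units.val_one]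
  refine hesAt_of_kappa_relF M (F1a M 1) l hl k θ hsplit (torsionFiniteF1 hM hDQ hDC hl.pos)
    (torsionFiniteLevelF1 hM hDQ hDC hl.pos) T (fun _ => AddMonoidHom.id (JF (F1a M 1))) D₂
    hTgal (fun _ _ _ _ _ _ _ => rfl) hD₂gal hrel κ.toAddMonoidHom κ.surjective 0 (uStar M)
    (fun _ => 1) (uStar M) (fun p hp hpM _ => hu_star hp hpM) ?_ ?_ ?_
  · intro p hp hpM hpl
    haveI : NeZero p := ⟨hp.ne_zero⟩
    exact hκT_star hK κ hκ hp hpM (hσ p hp hpM).1 (hσ p hp hpM).2 (T p) (NT p)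
      (hpairT p hp hpM hpl)
      (HeckeMer1.hnorm_TStar M hp hpM (hσ p hp hpM).1 (hσ p hp hpM).2 (NT p) (hN p hp hpM hpl))
  · intro p _ _ _
    exact hκD₁_id κ
  · intro p hp hpM hpl
    exact hκD₂_star hK κ hκ hp hpM (hσ p hp hpM).1 (hσ p hp hpM).2 (D₂ p) _
      (hpairD p hp hpM hpl) (HeckeMer1.hδ_star M hp hpM (hσ p hp hpM).1 (hσ p hp hpM).2)

end Fermat.Agent.G1.Jac
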